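import Fermat.Agent.Wire.Res35

set_option autoImplicit false

/-!
# The residual representation `W[p]`, `p = 3, 5`, over a large coefficient field
-/

open Matrix Polynomial WeierstrassCurve Fermat.Agent.ECRep

namespace Fermat.Agent.Wire

local notation "Γℚ" => (AlgebraicClosure ℚ ≃ₐ[ℚ] AlgebraicClosure ℚ)
local notation "Qb" => AlgebraicClosure ℚ

variable {p : ℕ} [hp : Fact p.Prime] (W : WeierstrassCurve ℤ)

/-- `W[p]` as a residual representation -/
noncomputable abbrev curveRho (p : ℕ) [Fact p.Prime] (W : WeierstrassCurve ℤ) (hΔ : W.Δ ≠ 0) :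
    ResidualGaloisRep (ZMod p) := resRep (toRat W) p (toRat_Δ_ne_zero hΔ)

theorem curveRho_irr (hΔ : W.Δ ≠ 0) (hirr : W.ModRepIsIrreducible p) :
    (curveRho p W hΔ).IsIrreducible := by
  intro V hV
  exact hirr.2 V (fun σ x hx => hV σ x hx)

/-- inertia at `q ≠ p` acts with order dividing `p` -/
theorem curveRho_unip (hΔ : W.Δ ≠ 0) (hW : W.IsSemistableModel) {q : ℕ} (hq : q.Prime)
    (hqp : q ≠ p) {A : ValuationSubring Qb} (hA : A.LiesOverPrime q) {σ : Γℚ}
    (hσ : σ ∈ A.inertiaSubgroupIn ℚ) : (curveRho p W hΔ).ρ σ ^ p = 1 := by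
  by_cases hg : (q : ℤ) ∣ W.Δ
  · have h1 := isUnipotentOnInertiaAt (l := p) W hΔ hq hqp hg (hW q hq hg) A hA σ hσ
    have h2 : LinearMap.charpoly ((curveRho p W hΔ).ρ σ) = (X - 1) ^ 2 := by
      rw [curveRho, charpoly_resRep, h1]
      simp
    have h3 := LinearMap.aeval_self_charpoly ((curveRho p W hΔ).ρ σ)
    rw [h2, map_pow, map_sub, aeval_X, map_one] at h3
    have h4 : ∀ m : ℕ, (curveRho p W hΔ).ρ σ ^ m = 1 + (m : ZMod p) • ((curveRho p W hΔ).ρ σ - 1) := by
      intro m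
      induction m with
      | zero => rw [pow_zero, Nat.cast_zero, zero_smul, add_zero]
      | succ m ih =>
        have h5 : (curveRho p W hΔ).ρ σ = 1 + ((curveRho p W hΔ).ρ σ - 1) := by
          rw [add_sub_cancel]
        rw [pow_succ, ih]
        conv_lhs => rw [h5]
        rw [add_sub_cancel_left, mul_add, mul_one, add_mul, one_mul, smul_mul_assoc, ← pow_two,
          h3, smul_zero, add_zero, Nat.cast_succ, add_smul, one_smul]
        abel
    rw [h4 p, ZMod.natCast_self, zero_smul, add_zero]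
  · have h1 : (curveRho p W hΔ).ρ σ = 1 := resRep_isUnramifiedAt W hΔ hq hqp hg A hA σ hσ
    rw [h1, one_pow]

theorem curveRho_det_conj (hΔ : W.Δ ≠ 0) {c : Γℚ} (hc : c * c = 1) (h1 : c ≠ 1) :
    LinearMap.det ((curveRho p W hΔ).ρ c) = -1 := resRep_isOdd W p hΔ c hc h1

section dichotomy

theorem num5 : (3 : ZMod 5) ≠ 0 ∧ -(((2 : ℕ) : ZMod 5) + 1) = 2 ∧ (2 : ZMod 5) ≠ 0 ∧
    ¬ IsSquare (2 : ZMod 5) := by decide

theorem quadChar_five [Fact (Nat.Prime 5)] : quadraticChar (ZMod 5) 2 = -1 := by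
  rw [quadraticChar_neg_one_iff_not_isSquare]
  exact num5.2.2.2

/-- no common eigenvector on subgroups of index two, over any extension. -/
theorem curve_index_two (h35 : p = 3 ∨ p = 5) (hΔ : W.Δ ≠ 0) (hW : W.IsSemistableModel)
    (h2 : (2 : ℤ) ∣ W.Δ) (hirr : W.ModRepIsIrreducible p) (k : Type) [Field k]
    [Algebra (ZMod p) k] (K : Type) [Field K] [Algebra k K] (G : Subgroup Γℚ) (hG : G.index = 2)
    (V : Submodule K (((curveRho p W hΔ).baseChange k).baseChange K).V)
    (hV : ∀ τ ∈ G, ∀ x ∈ V, (((curveRho p W hΔ).baseChange k).baseChange K).ρ τ x ∈ V) :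
    V = ⊥ ∨ V = ⊤ := by
  have hirr0 := curveRho_irr W hΔ hirr
  have hp2 : p ≠ 2 := by rcases h35 with rfl | rfl <;> norm_num
  by_cases htr : ∃ σ : Γℚ, (curveRho p W hΔ).ρ σ ^ p = 1 ∧ (curveRho p W hΔ).ρ σ ≠ 1
  · obtain ⟨σ, hσ, hσ1⟩ := htr
    haveI := Subgroup.normal_of_index_eq_two hG
    exact LL.irr_of_transvection _ k K hirr0 hp2 hσ hσ1 G
      (fun γ => this.conj_mem _ (Subgroup.sq_mem_of_index_two hG σ) γ) V hV
  · push Not at htr
    have hc := complexConjugation_mul_self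
    have hc1 := LL.complexConjugation_ne_one
    rcases h35 with rfl | rfl
    · exact absurd hirr0 (not_irreducible_three _ htr
        (fun q hq hq3 A hA σ hσ => curveRho_unip W hΔ hW hq hq3 hA hσ) hc
        (curveRho_det_conj W hΔ hc hc1))
    · obtain ⟨A, hA⟩ := Frob.exists_liesOverPrime Qb Nat.prime_two
      obtain ⟨φ, hφ⟩ := Frob.exists_isFrobeniusAt A Nat.prime_two hA
      have hch := charpoly_frob_mult (l := 5) hΔ Nat.prime_two (by norm_num) h2
        (hW 2 Nat.prime_two h2) hA hφ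
      have hdet0 := det_frob_of_detIsCyclotomic Fact.out _ (detIsCyclotomic (l := 5) W hΔ)
        Nat.prime_two (by norm_num) hA hφ
      have hdet : LinearMap.det ((curveRho 5 W hΔ).ρ φ) = 2 := by
        rw [curveRho, det_resRep W 5 hΔ, hdet0, map_natCast]; rfl
      have htr2 : LinearMap.trace _ _ ((curveRho 5 W hΔ).ρ φ) ≠ 0 := by
        rw [curveRho, trace_resRep W 5 hΔ]
        have key : ∀ t : ℤ_[5], LinearMap.charpoly ((tateRep (toRat W) 5 (toRat_Δ_ne_zero hΔ)).ρ φ) =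
            X ^ 2 - C t * X + C ((2 : ℕ) : ℤ_[5]) → LinearMap.trace _ _
              ((tateRep (toRat W) 5 (toRat_Δ_ne_zero hΔ)).ρ φ) = t := by
          intro t ht
          rw [Cheb.charpoly_eq (tateRep (toRat W) 5 (toRat_Δ_ne_zero hΔ)).finrank_eq] at ht
          have h0 := congrArg (fun f => Polynomial.coeff f 1) ht
          simpa [Polynomial.coeff_X, Polynomial.coeff_one, Polynomial.coeff_C] using h0
        rcases hch with h | h
        · rw [key _ h]
          have : PadicInt.toZMod (((2 : ℕ) : ℤ_[5]) + 1) = (3 : ZMod 5) := by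
            rw [map_add, map_natCast, map_one]; norm_num
          rw [this]
          exact num5.1
        · have h' : LinearMap.charpoly ((tateRep (toRat W) 5 (toRat_Δ_ne_zero hΔ)).ρ φ) =
              X ^ 2 - C (-(((2 : ℕ) : ℤ_[5]) + 1)) * X + C ((2 : ℕ) : ℤ_[5]) := by
            rw [h, map_neg]; ring
          rw [key _ h']
          have : PadicInt.toZMod (-(((2 : ℕ) : ℤ_[5]) + 1)) = (2 : ZMod 5) := by
            rw [map_neg, map_add, map_natCast, map_one]; exact num5.2.1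
          rw [this]
          exact num5.2.2.1
      refine bot_or_top_of_no_eigen _ k K G (fun w hw => ?_) V hV
      letI : Algebra (ZMod 5) K := ((algebraMap k K).comp (algebraMap (ZMod 5) k)).toAlgebra
      exact no_eigen_index_two (curveRho 5 W hΔ) htr
        (fun q hq hq3 A hA σ hσ => curveRho_unip W hΔ hW hq hq3 hA hσ) K (by norm_num) hirr0 hc
        (curveRho_det_conj W hΔ hc hc1) (φ := φ) (by
          apply Units.ext
          rw [psi_coe, hdet, quadChar_five]
          rfl) htr2 hG hw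

/-- irreducibility over any extension -/
theorem curve_irr_extension (hp2 : p ≠ 2) (hΔ : W.Δ ≠ 0) (hirr : W.ModRepIsIrreducible p)
    (k : Type) [Field k] [Algebra (ZMod p) k] (K : Type) [Field K] [Algebra k K] :
    (((curveRho p W hΔ).baseChange k).baseChange K).IsIrreducible := by
  intro V hV
  have hc := complexConjugation_mul_self
  have hc1 := LL.complexConjugation_ne_one
  refine bot_or_top_of_no_eigen _ k K ⊤ (fun w hw => ?_) V (fun τ _ x hx => hV τ x hx)
  letI : Algebra (ZMod p) K := ((algebraMap k K).comp (algebraMap (ZMod p) k)).toAlgebra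
  obtain ⟨γ, hγ⟩ := no_eigen_all (curveRho p W hΔ) K hp2 (curveRho_irr W hΔ hirr) hc
    (curveRho_det_conj W hΔ hc hc1) hw
  exact ⟨γ, Subgroup.mem_top _, hγ⟩

theorem curve_absIrr (hp2 : p ≠ 2) (hΔ : W.Δ ≠ 0) (hirr : W.ModRepIsIrreducible p)
    (k : Type) [Field k] [Algebra (ZMod p) k] :
    ((curveRho p W hΔ).baseChange k).IsAbsolutelyIrreducible :=
  curve_irr_extension W hp2 hΔ hirr k (AlgebraicClosure k)

end dichotomy


section package

variable (k : Type) [Field k] [Algebra (ZMod p) k]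

theorem curve_isOdd (hΔ : W.Δ ≠ 0) : ((curveRho p W hΔ).baseChange k).IsOdd := by
  intro c hc hc1
  rw [LL.det_baseChange, curveRho_det_conj W hΔ hc hc1, map_neg, map_one]

theorem curve_det (hΔ : W.Δ ≠ 0) [CharP k p] : (GaloisRepAdic.ofResidualGaloisRep
    ((curveRho p W hΔ).baseChange k)).DetIsCyclotomic p := by
  refine detIsCyclotomic_ofResidual p _ (fun τ a ha => ?_)
  rw [LL.det_baseChange, curveRho, det_resRep_eq _ _ hΔ τ a ha, map_natCast]

theorem curve_split (hΔ : W.Δ ≠ 0)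
    (hsplit : ∀ a b : ℤ, ∃ α β : k, (X ^ 2 - C (a : k) * X + C (b : k) : Polynomial k) =
      (X - C α) * (X - C β)) (σ : Γℚ) :
    ∃ α β : k, LinearMap.charpoly (((curveRho p W hΔ).baseChange k).ρ σ) =
      (X - C α) * (X - C β) := by
  obtain ⟨α, β, h⟩ := hsplit
    ((LinearMap.trace (ZMod p) (curveRho p W hΔ).V ((curveRho p W hΔ).ρ σ)).val : ℤ)
    ((LinearMap.det ((curveRho p W hΔ).ρ σ)).val : ℤ)
  refine ⟨α, β, ?_⟩
  rw [LL.charpoly_baseChange, Cheb.charpoly_eq (curveRho p W hΔ).finrank_eq, ← h]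
  have hval : ∀ a : ZMod p, algebraMap (ZMod p) k a = ((a.val : ℤ) : k) := by
    intro a
    conv_lhs => rw [← ZMod.natCast_zmod_val a]
    rw [map_natCast, Int.cast_natCast]
  simp only [Polynomial.map_add, Polynomial.map_sub, Polynomial.map_mul, Polynomial.map_pow,
    Polynomial.map_X, Polynomial.map_C, hval]

theorem curve_unr_iff_base (hΔ : W.Δ ≠ 0) (q : ℕ) :
    ((curveRho p W hΔ).baseChange k).IsUnramifiedAt q ↔ (curveRho p W hΔ).IsUnramifiedAt q := by
  constructor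
  · intro h A hA τ hτ
    exact (LL.baseChange_eq_one_iff (curveRho p W hΔ) k τ).mp (h A hA τ hτ)
  · intro h A hA τ hτ
    exact (LL.baseChange_eq_one_iff (curveRho p W hΔ) k τ).mpr (h A hA τ hτ)

/-- `W[p]` is unramified at a bad prime `q ≠ p` iff `p ∣ v_q(Δ)` -/
theorem curve_unr_iff (hΔ : W.Δ ≠ 0) (hW : W.IsSemistableModel) {q : ℕ} (hq : q.Prime)
    (hqp : q ≠ p) (hqΔ : (q : ℤ) ∣ W.Δ) :
    ((curveRho p W hΔ).baseChange k).IsUnramifiedAt q ↔ p ∣ padicValInt q W.Δ := by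
  rw [curve_unr_iff_base]
  exact resRep_isUnramifiedAt_iff hΔ hq hqp hqΔ (hW q hq hqΔ)

/-- `W[p]` is unramified at all good primes `q ≠ p` -/
theorem curve_unr_of_good (hΔ : W.Δ ≠ 0) {q : ℕ} (hq : q.Prime)
    (hqp : q ≠ p) (hg : W.IsGoodPrimeFor q) :
    ((curveRho p W hΔ).baseChange k).IsUnramifiedAt q := by
  rw [curve_unr_iff_base]
  exact resRep_isUnramifiedAt W hΔ hq hqp hg

theorem curve_charpoly_frob (hΔ : W.Δ ≠ 0) {q : ℕ} (hq : q.Prime) (hqp : q ≠ p)
    (hg : W.IsGoodPrimeFor q) {A : ValuationSubring Qb} (hA : A.LiesOverPrime q) {σ : Γℚ}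
    (hσ : A.IsFrobeniusAt σ q) :
    LinearMap.charpoly (((curveRho p W hΔ).baseChange k).ρ σ) =
      X ^ 2 - C ((W.apOfModel q : ℤ) : k) * X + C (q : k) := by
  rw [LL.charpoly_baseChange, curveRho, charpoly_frob_res W hΔ hq hqp hA hg hσ]
  simp only [Polynomial.map_add, Polynomial.map_sub, Polynomial.map_mul, Polynomial.map_pow,
    Polynomial.map_X, map_intCast, map_natCast, Polynomial.map_intCast, Polynomial.map_natCast]

/-- **Block (R1)**: the residual representation of a semistable curve with multiplicative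
reduction at `2` and irreducible `W[p]`, `p = 3` or `5`, over a large coefficient field. -/
theorem curveRes (h35 : p = 3 ∨ p = 5) (hΔ : W.Δ ≠ 0) (hW : W.IsSemistableModel)
    (h2 : (2 : ℤ) ∣ W.Δ) (hirr : W.ModRepIsIrreducible p) [CharP k p]
    (hsplit : ∀ a b : ℤ, ∃ α β : k, (X ^ 2 - C (a : k) * X + C (b : k) : Polynomial k) =
      (X - C α) * (X - C β)) :
    ∃ ρbar : ResidualGaloisRep k, ρbar.IsAbsolutelyIrreducible ∧ ρbar.IsOdd ∧
    (GaloisRepAdic.ofResidualGaloisRep ρbar).DetIsCyclotomic p ∧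
    (∀ σ : Γℚ, ∃ α β : k, LinearMap.charpoly (ρbar.ρ σ) = (X - C α) * (X - C β)) ∧
    (∀ (K : Type) [Field K] [Algebra k K] (G : Subgroup Γℚ), G.index = 2 →
      ∀ V : Submodule K (ρbar.baseChange K).V,
        (∀ σ ∈ G, ∀ x ∈ V, (ρbar.baseChange K).ρ σ x ∈ V) → V = ⊥ ∨ V = ⊤) ∧
    (∀ q : ℕ, q.Prime → q ≠ p → W.IsGoodPrimeFor q → ρbar.IsUnramifiedAt q) ∧
    (∀ q : ℕ, q.Prime → q ≠ p → (q : ℤ) ∣ W.Δ → (ρbar.IsUnramifiedAt q ↔
      p ∣ padicValInt q W.Δ)) ∧
    (∀ q : ℕ, q.Prime → q ≠ p → W.IsGoodPrimeFor q → ∀ A : ValuationSubring Qb,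
      A.LiesOverPrime q → ∀ σ : Γℚ, A.IsFrobeniusAt σ q →
      LinearMap.charpoly (ρbar.ρ σ) = X ^ 2 - C ((W.apOfModel q : ℤ) : k) * X + C (q : k)) := by
  have hp2 : p ≠ 2 := by rcases h35 with rfl | rfl <;> norm_num
  exact ⟨(curveRho p W hΔ).baseChange k, curve_absIrr W hp2 hΔ hirr k, curve_isOdd W k hΔ,
    curve_det W k hΔ, curve_split W k hΔ hsplit,
    fun K _ _ G hG V hV => curve_index_two W h35 hΔ hW h2 hirr k K G hG V hV,
    fun q hq hqp hg => curve_unr_of_good W k hΔ hq hqp hg,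
    fun q hq hqp hqΔ => curve_unr_iff W k hΔ hW hq hqp hqΔ,
    fun q hq hqp hg A hA σ hσ => curve_charpoly_frob W k hΔ hq hqp hg hA hσ⟩

end package

end Fermat.Agent.Wire
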