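import Fermat.Agent.Wire.ChooseF
import Fermat.Agent.Wire.CurveRes
import Fermat.Agent.Newform.Exist

set_option autoImplicit false

/-!
# The starting point of the modularity lifting theorem (59C)
-/

open Polynomial WeierstrassCurve ModularFormClass Fermat.Agent.ECRep

namespace Fermat.Agent.Wire

local notation "Γℚ" => (AlgebraicClosure ℚ ≃ₐ[ℚ] AlgebraicClosure ℚ)
local notation "Qb" => AlgebraicClosure ℚ

/-- a curve which is modular at its conductor gives a newform -/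
theorem exists_newform_of_exact {W : WeierstrassCurve ℤ} (hΔ : W.Δ ≠ 0)
    (hmod : Mlc1IsModularModelOfExactConductorLevel W) :
    ∃ (M : ℕ) (_ : NeZero M) (g : CuspForm (CongruenceSubgroup.Gamma0 M) 2), g.IsNewform ∧
      M ∣ cond W ∧ ∀ ℓ : ℕ, ℓ.Prime → ¬ ℓ ∣ cond W → qCoeff g ℓ = (W.apOfModel ℓ : ℂ) := by
  obtain ⟨N, hN0, hNsq, hN, f, hf, hfW⟩ := hmod
  have hNc : N = cond W := by
    apply Nat.dvd_antisymm
    · exact dvd_cond_of_squarefree hΔ hNsq fun q hq h => (hN q hq).mp h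
    · rw [← Nat.prod_primeFactors_of_squarefree hNsq, cond]
      refine Finset.prod_dvd_prod_of_subset _ _ _ fun q hq => ?_
      have hq' := Nat.prime_of_mem_primeFactors hq
      exact Nat.mem_primeFactors.mpr ⟨hq', (hN q hq').mpr
        (Int.natCast_dvd.mpr (Nat.dvd_of_mem_primeFactors hq)), hN0.ne'⟩
  subst hNc
  have : NeZero (cond W) := ⟨cond_ne_zero W⟩
  obtain ⟨M, hM, g, hg, hgf⟩ := Newform.exists_newform hf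
  have : NeZero M := ⟨fun h => cond_ne_zero W (Nat.eq_zero_of_zero_dvd (h ▸ hM))⟩
  refine ⟨M, inferInstance, g, hg, hM, fun ℓ hℓ hℓN => ?_⟩
  rw [hgf ℓ hℓ hℓN]
  exact hfW ℓ hℓ (fun h => hℓN ((dvd_cond hΔ hℓ).mpr h)) hℓN

/-- **Start of (59C)**: a newform of squarefree level congruent to `W` modulo `p` (all congruences
are between integers). -/
theorem start59 {p : ℕ} {W W₀ : WeierstrassCurve ℤ} (hΔ : W.Δ ≠ 0) (hΔ₀ : W₀.Δ ≠ 0)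
    (hp₀ : (p : ℤ) ∣ W₀.Δ → (p : ℤ) ∣ W.Δ) (hp : p.Prime)
    (hc : ∀ ℓ : ℕ, ℓ.Prime → W.IsGoodPrimeFor ℓ → W₀.IsGoodPrimeFor ℓ → ℓ ≠ p →
      (p : ℤ) ∣ (W₀.apOfModel ℓ - W.apOfModel ℓ))
    (hmod : Mlc1IsModularModelOfExactConductorLevel W₀) :
    ∃ (M : ℕ) (_ : NeZero M) (g : CuspForm (CongruenceSubgroup.Gamma0 M) 2), g.IsNewform ∧
      Squarefree M ∧ M ∣ cond W₀ ∧ (p ∣ M → (p : ℤ) ∣ W.Δ) ∧
      ∀ ℓ : ℕ, ℓ.Prime → ¬ ℓ ∣ cond W → ¬ ℓ ∣ cond W₀ → ℓ ≠ p →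
        ∃ c : ℤ, qCoeff g ℓ = ((W.apOfModel ℓ + p * c : ℤ) : ℂ) := by
  obtain ⟨M, hM0, g, hg, hM, hgW⟩ := exists_newform_of_exact hΔ₀ hmod
  refine ⟨M, hM0, g, hg, (squarefree_cond W₀).squarefree_of_dvd hM, hM,
    fun h => hp₀ ((dvd_cond hΔ₀ hp).mp (h.trans hM)), fun ℓ hℓ h1 h2 h3 => ?_⟩
  obtain ⟨c, hc'⟩ := hc ℓ hℓ (fun h => h1 ((dvd_cond hΔ hℓ).mpr h))
    (fun h => h2 ((dvd_cond hΔ₀ hℓ).mpr h)) h3
  refine ⟨c, ?_⟩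
  rw [hgW ℓ hℓ h2, ← hc']
  congr 1
  ring

/-- the congruence modulo every maximal ideal above `p` -/
theorem start59_mod {p : ℕ} {W W₀ : WeierstrassCurve ℤ} (hΔ : W.Δ ≠ 0) (hΔ₀ : W₀.Δ ≠ 0)
    (hp₀ : (p : ℤ) ∣ W₀.Δ → (p : ℤ) ∣ W.Δ) (hp : p.Prime)
    (hc : ∀ ℓ : ℕ, ℓ.Prime → W.IsGoodPrimeFor ℓ → W₀.IsGoodPrimeFor ℓ → ℓ ≠ p →
      (p : ℤ) ∣ (W₀.apOfModel ℓ - W.apOfModel ℓ))
    (hmod : Mlc1IsModularModelOfExactConductorLevel W₀) :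
    ∃ (M : ℕ) (_ : NeZero M) (g : CuspForm (CongruenceSubgroup.Gamma0 M) 2), g.IsNewform ∧
      Squarefree M ∧ M ∣ cond W₀ ∧ (p ∣ M → (p : ℤ) ∣ W.Δ) ∧
      ∀ 𝔪 : Ideal (integralClosure ℤ ℂ), (p : integralClosure ℤ ℂ) ∈ 𝔪 →
      ∀ ℓ : ℕ, ℓ.Prime → ¬ ℓ ∣ cond W → ¬ ℓ ∣ cond W₀ → ℓ ≠ p →
        ∀ a : integralClosure ℤ ℂ, (a : ℂ) = qCoeff g ℓ →
          a - ((W.apOfModel ℓ : ℤ) : integralClosure ℤ ℂ) ∈ 𝔪 := by
  obtain ⟨M, hM0, g, hg, h1, h2, h3, h4⟩ := start59 hΔ hΔ₀ hp₀ hp hc hmod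
  refine ⟨M, hM0, g, hg, h1, h2, h3, fun 𝔪 h𝔪 ℓ hℓ hℓ1 hℓ2 hℓ3 a ha => ?_⟩
  obtain ⟨c, hc'⟩ := h4 ℓ hℓ hℓ1 hℓ2 hℓ3
  have : a - ((W.apOfModel ℓ : ℤ) : integralClosure ℤ ℂ) = (p : integralClosure ℤ ℂ) * (c : ℤ) := by
    apply Subtype.ext
    have e1 : ((a - ((W.apOfModel ℓ : ℤ) : integralClosure ℤ ℂ) : integralClosure ℤ ℂ) : ℂ) =
      (a : ℂ) - ((W.apOfModel ℓ : ℤ) : ℂ) := rfl
    have e2 : (((p : integralClosure ℤ ℂ) * ((c : ℤ) : integralClosure ℤ ℂ) :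
      integralClosure ℤ ℂ) : ℂ) = (p : ℂ) * ((c : ℤ) : ℂ) := rfl
    rw [e1, e2, ha, hc']
    push_cast
    ring
  rw [this]
  exact 𝔪.mul_mem_right _ h𝔪

/-- the residual representation of `W` at `p`, with ramification at `2` for `p = 3` -/
theorem curveRes59 {p : ℕ} [Fact p.Prime] {W : WeierstrassCurve ℤ} {k : Type} [Field k]
    [Algebra (ZMod p) k] (h35 : p = 3 ∨ p = 5) (hΔ : W.Δ ≠ 0) (hW : W.IsSemistableModel)
    (h2 : (2 : ℤ) ∣ W.Δ) (h3 : p = 3 → ¬ 3 ∣ padicValInt 2 W.Δ) (hirr : W.ModRepIsIrreducible p)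
    (hsplit : ∀ a b : ℤ, ∃ α β : k, (X ^ 2 - C (a : k) * X + C (b : k) : Polynomial k) =
      (X - C α) * (X - C β)) :
    let ρbar : ResidualGaloisRep k := (curveRho p W hΔ).baseChange k
    ρbar.IsAbsolutelyIrreducible ∧ ρbar.IsOdd ∧
    (GaloisRepAdic.ofResidualGaloisRep ρbar).DetIsCyclotomic p ∧
    (∀ σ : Γℚ, ∃ α β : k, LinearMap.charpoly (ρbar.ρ σ) = (X - C α) * (X - C β)) ∧
    (∀ (K : Type) [Field K] [Algebra k K] (G : Subgroup Γℚ), G.index = 2 →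
      ∀ V : Submodule K (ρbar.baseChange K).V,
        (∀ σ ∈ G, ∀ x ∈ V, (ρbar.baseChange K).ρ σ x ∈ V) → V = ⊥ ∨ V = ⊤) ∧
    (∀ q : ℕ, q.Prime → q ≠ p → W.IsGoodPrimeFor q → ρbar.IsUnramifiedAt q) ∧
    (∀ q : ℕ, q.Prime → q ≠ p → (q : ℤ) ∣ W.Δ → (ρbar.IsUnramifiedAt q ↔
      p ∣ padicValInt q W.Δ)) ∧
    (p = 3 → ¬ ρbar.IsUnramifiedAt 2) ∧
    (∀ q : ℕ, q.Prime → q ≠ p → W.IsGoodPrimeFor q → ∀ A : ValuationSubring Qb,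
      A.LiesOverPrime q → ∀ σ : Γℚ, A.IsFrobeniusAt σ q →
      LinearMap.charpoly (ρbar.ρ σ) = X ^ 2 - C ((W.apOfModel q : ℤ) : k) * X + C (q : k)) := by
  have hp2 : p ≠ 2 := by rcases h35 with rfl | rfl <;> norm_num
  have : CharP k p := charP_of_injective_algebraMap (algebraMap (ZMod p) k).injective p
  refine ⟨curve_absIrr W hp2 hΔ hirr k, curve_isOdd W k hΔ,
    curve_det W k hΔ, curve_split W k hΔ hsplit,
    fun K _ _ G hG V hV => curve_index_two W h35 hΔ hW h2 hirr k K G hG V hV,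
    fun q hq hqp hg => curve_unr_of_good W k hΔ hq hqp hg,
    fun q hq hqp hqΔ => curve_unr_iff W k hΔ hW hq hqp hqΔ, ?_,
    fun q hq hqp hg A hA σ hσ => curve_charpoly_frob W k hΔ hq hqp hg hA hσ⟩
  intro hp3 hunr
  have := (curve_unr_iff W k hΔ hW Nat.prime_two (Ne.symm hp2) (by exact_mod_cast h2)).mp hunr
  rw [hp3] at this
  exact h3 hp3 this

end Fermat.Agent.Wire
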