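import Fermat.Agent.LL.S59Def
import Fermat.Agent.Wire.Start59

set_option autoImplicit false

/-!
# The start of the modularity lifting theorem (59C): `StartStmt`
-/

open Polynomial WeierstrassCurve ModularFormClass

namespace Fermat.Agent.Wire

/-- there is a maximal ideal of the ring of algebraic integers above every prime -/
theorem exists_maximal_over {p : ℕ} (hp : p.Prime) : ∃ 𝔪 : Ideal (integralClosure ℤ ℂ),
    𝔪.IsMaximal ∧ (p : integralClosure ℤ ℂ) ∈ 𝔪 := by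
  have h1 : Ideal.span {(p : integralClosure ℤ ℂ)} ≠ ⊤ := by
    rw [Ne, Ideal.span_singleton_eq_top]
    rintro ⟨u, hu⟩
    have h2 : IsIntegral ℤ ((p : ℚ)⁻¹) := by
      have h3 : IsIntegral ℤ (((u⁻¹ : (integralClosure ℤ ℂ)ˣ) : integralClosure ℤ ℂ) : ℂ) :=
        (((u⁻¹ : (integralClosure ℤ ℂ)ˣ) : integralClosure ℤ ℂ)).2
      have h4 : (((u⁻¹ : (integralClosure ℤ ℂ)ˣ) : integralClosure ℤ ℂ) : ℂ) =
          algebraMap ℚ ℂ ((p : ℚ)⁻¹) := by
        have h5 : ((u : (integralClosure ℤ ℂ)) : ℂ) *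
            (((u⁻¹ : (integralClosure ℤ ℂ)ˣ) : integralClosure ℤ ℂ) : ℂ) = 1 := by
          rw [← Subalgebra.coe_mul, Units.mul_inv]; rfl
        rw [hu] at h5
        have h6 : (((p : integralClosure ℤ ℂ)) : ℂ) = (p : ℂ) := rfl
        rw [h6] at h5
        rw [map_inv₀, map_natCast]
        exact eq_inv_of_mul_eq_one_right h5
      rw [h4] at h3
      exact (isIntegral_algebraMap_iff (algebraMap ℚ ℂ).injective).mp h3
    obtain ⟨n, hn⟩ := IsIntegrallyClosed.isIntegral_iff.mp h2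
    have h7 : (p : ℚ) * (n : ℚ) = 1 := by
      have : (n : ℚ) = (p : ℚ)⁻¹ := by simpa using hn
      rw [this]
      exact mul_inv_cancel₀ (by exact_mod_cast hp.ne_zero)
    have h8 : (p : ℤ) * n = 1 := by exact_mod_cast h7
    have h9 : (p : ℤ) ∣ 1 := ⟨n, h8.symm⟩
    have h10 := hp.one_lt
    have h11 := Int.le_of_dvd one_pos h9
    omega
  obtain ⟨𝔪, h𝔪, hle⟩ := Ideal.exists_le_maximal _ h1
  exact ⟨𝔪, h𝔪, hle (Ideal.mem_span_singleton_self _)⟩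

/-- **Start** -/
theorem startStmt : LL.StartStmt := by
  intro p W W₀ h hΔ₀ hp₀ hc hmod
  have hp : p.Prime := by rcases h.h35 with h | h <;> rw [h] <;> norm_num
  obtain ⟨M, hM0, g, hg, hsq, hM, hpM, hcong⟩ := start59_mod h.Δ_ne hΔ₀ hp₀ hp hc hmod
  obtain ⟨𝔪, h𝔪, hp𝔪⟩ := exists_maximal_over hp
  refine ⟨M, hsq, ⟨hM0, 𝔪, h𝔪, hp𝔪, g,
    insert p ((cond W).primeFactors ∪ (cond W₀).primeFactors), hg, ?_⟩, hpM⟩
  intro ℓ hℓ hℓS z hz
  rw [Finset.mem_insert, Finset.mem_union, not_or, not_or] at hℓS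
  exact hcong 𝔪 hp𝔪 ℓ hℓ
    (fun hd => hℓS.2.1 (Nat.mem_primeFactors.mpr ⟨hℓ, hd, cond_ne_zero W⟩))
    (fun hd => hℓS.2.2 (Nat.mem_primeFactors.mpr ⟨hℓ, hd, cond_ne_zero W₀⟩)) hℓS.1 z hz

/-- `LevOK` levels divide the conductor -/
theorem dvd_cond_of_levOK {W : WeierstrassCurve ℤ} (hΔ : W.Δ ≠ 0) {M : ℕ} (h : LL.LevOK W M) :
    M ∣ cond W := dvd_cond_of_squarefree hΔ h.1 h.2

end Fermat.Agent.Wire
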