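import Fermat.Agent.ECRep.FrobAll
import Fermat.Agent.ChebFull.Places

set_option autoImplicit false

/-!
# A congruence `a_ℓ(W') = a_ℓ(W)` mod `p` for almost all `ℓ` holds for all good `ℓ ≠ p`
-/

open Polynomial WeierstrassCurve Fermat.Agent.ECRep

namespace Fermat.Agent.Wire

local notation "Γℚ" => (AlgebraicClosure ℚ ≃ₐ[ℚ] AlgebraicClosure ℚ)
local notation "Qb" => AlgebraicClosure ℚ

theorem trace_of_charpoly {k V : Type} [Field k] [AddCommGroup V] [Module k V]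
    [Module.Finite k V] (hV : Module.finrank k V = 2) {f : Module.End k V} {a b : k}
    (h : LinearMap.charpoly f = X ^ 2 - C a * X + C b) : LinearMap.trace k V f = a := by
  rw [Cheb.charpoly_eq hV] at h
  have h0 := congrArg (fun f => Polynomial.coeff f 1) h
  simpa [Polynomial.coeff_X, Polynomial.coeff_one, Polynomial.coeff_C] using h0

theorem congr_all {p : ℕ} [Fact p.Prime] {W W' : WeierstrassCurve ℤ} (hΔ : W.Δ ≠ 0)
    (hΔ' : W'.Δ ≠ 0) (S : Finset ℕ)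
    (h : ∀ ℓ : ℕ, ℓ.Prime → ℓ ∉ S → W.IsGoodPrimeFor ℓ → W'.IsGoodPrimeFor ℓ →
      (p : ℤ) ∣ (W'.apOfModel ℓ - W.apOfModel ℓ)) :
    ∀ ℓ : ℕ, ℓ.Prime → W.IsGoodPrimeFor ℓ → W'.IsGoodPrimeFor ℓ → ℓ ≠ p →
      (p : ℤ) ∣ (W'.apOfModel ℓ - W.apOfModel ℓ) := by
  classical
  intro ℓ hℓ hg hg' hℓp
  obtain ⟨A, hA⟩ := Frob.exists_liesOverPrime Qb hℓ
  obtain ⟨σ, hσ⟩ := Frob.exists_isFrobeniusAt A hℓ hA
  let ρ := resRep (toRat W) p (toRat_Δ_ne_zero hΔ)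
  let ρ' := resRep (toRat W') p (toRat_Δ_ne_zero hΔ')
  obtain ⟨L, hL, hLρ⟩ := ρ.factorsThroughFiniteLevel
  obtain ⟨L', hL', hLρ'⟩ := ρ'.factorsThroughFiniteLevel
  obtain ⟨q, hq, hqS, -, B, hB, φ, hφ, he⟩ := ChebFull.exists_frobenius_eq_of_factors
    (ρ.ρ.prod ρ'.ρ) ⟨L ⊔ L', IntermediateField.finiteDimensional_sup _ _, fun τ hτ => by
      refine Prod.ext (hLρ τ fun x hx => hτ x (le_sup_left (a := L) hx))
        (hLρ' τ fun x hx => hτ x (le_sup_right (a := L) hx))⟩ σ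
      (S ∪ {p} ∪ W.Δ.natAbs.primeFactors ∪ W'.Δ.natAbs.primeFactors)
  simp only [Finset.mem_union, Finset.mem_singleton, not_or] at hqS
  obtain ⟨⟨⟨hqS, hqp⟩, hqW⟩, hqW'⟩ := hqS
  have gq : W.IsGoodPrimeFor q := fun hd => hqW (Nat.mem_primeFactors.mpr
    ⟨hq, Int.natCast_dvd.mp hd, Int.natAbs_ne_zero.mpr hΔ⟩)
  have gq' : W'.IsGoodPrimeFor q := fun hd => hqW' (Nat.mem_primeFactors.mpr
    ⟨hq, Int.natCast_dvd.mp hd, Int.natAbs_ne_zero.mpr hΔ'⟩)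
  have e1 : ρ.ρ φ = ρ.ρ σ := congrArg Prod.fst he
  have e2 : ρ'.ρ φ = ρ'.ρ σ := congrArg Prod.snd he
  have : Module.Finite (ZMod p) ρ.V := Module.finite_of_finrank_pos (by rw [ρ.finrank_eq]; norm_num)
  have : Module.Finite (ZMod p) ρ'.V := Module.finite_of_finrank_pos (by rw [ρ'.finrank_eq]; norm_num)
  have t1 := trace_of_charpoly ρ.finrank_eq (charpoly_frob_res W hΔ hℓ hℓp hA hg hσ)
  have t2 := trace_of_charpoly ρ'.finrank_eq (charpoly_frob_res W' hΔ' hℓ hℓp hA hg' hσ)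
  have t3 := trace_of_charpoly ρ.finrank_eq (charpoly_frob_res W hΔ hq hqp hB gq hφ)
  have t4 := trace_of_charpoly ρ'.finrank_eq (charpoly_frob_res W' hΔ' hq hqp hB gq' hφ)
  have t5 : ((W.apOfModel ℓ : ℤ) : ZMod p) = ((W.apOfModel q : ℤ) : ZMod p) := by
    rw [← t1, ← t3]
    exact congrArg _ e1.symm
  have t6 : ((W'.apOfModel ℓ : ℤ) : ZMod p) = ((W'.apOfModel q : ℤ) : ZMod p) := by
    rw [← t2, ← t4]
    exact congrArg _ e2.symm
  have h7 := h q hq hqS gq gq'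
  rw [← ZMod.intCast_zmod_eq_zero_iff_dvd, Int.cast_sub, sub_eq_zero] at h7 ⊢
  rw [t5, t6, h7]

end Fermat.Agent.Wire
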