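import Fermat.Agent.Wire.Final
import Fermat.Agent.Wire.SwitchClose

set_option autoImplicit false
open WeierstrassCurve WeierstrassCurve.Affine WeierstrassCurve.Affine.Point
open CuspForm ModularFormClass UpperHalfPlane

/-!
# Fermat's Last Theorem from the `2`-adic route

* `TwoAdicStmt` : output of the `2`-adic route (report 104): for `W'` semistable with `2 ^ 20 ∣ Δ'`
  and `W'[3]` irreducible there is a modular semistable curve `E` with `E[3] ≅ W'[3]`;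
* `Stmt59Sq`    : modularity lifting (`S59`) from a SQUAREFREE level `M₀` (weaker than `S59`);
* `Stmt12`, `Stmt43`, `Stmt44`.
-/

namespace Fermat.Agent.Wire

open Fermat.Agent.Wiring

/-- `S59` for squarefree levels. -/
def Stmt59Sq : Prop := ∀ (p : ℕ) (_ : p = 3 ∨ p = 5)
    (W : WeierstrassCurve ℤ) (_ : W.Δ ≠ 0) (_ : W.IsSemistableModel) (_ : W.ModRepIsIrreducible p)
    (M₀ : ℕ) (_ : Squarefree M₀) (_ : W.IsResiduallyModularOfLevel p M₀),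
    Mlc1IsModularModelOfExactConductorLevel W

theorem stmt59Sq_of (h : Stmt59) : Stmt59Sq := by
  intro p hp W hΔ hW hirr M₀ hM₀ hres
  have hne : NeZero M₀ := ⟨hM₀.ne_zero⟩
  have hsq : ∀ q : ℕ, q.Prime → ¬ q ^ 2 ∣ M₀ := by
    intro q hq hsqd
    exact Nat.squarefree_iff_prime_squarefree.mp hM₀ q hq (by rwa [← pow_two])
  have hpp : p.Prime := by rcases hp with rfl | rfl <;> norm_num
  exact h p hp W hΔ hW hirr M₀ hres (hsq p hpp)
    (fun q hq _ h3 => hsq q hq ((pow_dvd_pow q (by norm_num)).trans h3))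

/-- A congruence between a curve `W` and a curve `E` which is modular of exact conductor level:
`W` is residually modular of a squarefree level. -/
theorem residually_of_congr {p : ℕ} (hp : p.Prime) {W E : WeierstrassCurve ℤ}
    (hcong : ∀ ℓ : ℕ, ℓ.Prime → ℓ ≠ p → W.IsGoodPrimeFor ℓ → E.IsGoodPrimeFor ℓ →
      (p : ℤ) ∣ (E.apOfModel ℓ - W.apOfModel ℓ))
    (hE : Mlc1IsModularModelOfExactConductorLevel E) :
    ∃ N : ℕ, Squarefree N ∧ (∀ q : ℕ, q.Prime → (q ∣ N ↔ (q : ℤ) ∣ E.Δ)) ∧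
      W.IsResiduallyModularOfLevel p N := by
  obtain ⟨N, hN, hsq, hdvd, f, hf, hcoef⟩ := hE
  refine ⟨N, hsq, hdvd, ?_⟩
  obtain ⟨𝔪, hmax, hpm⟩ := FLTPrelim.exists_maximalIdeal_natCast_prime_mem hp
  refine ⟨f, 𝔪, hf, hmax, hpm, ?_⟩
  intro ℓ hℓ hgood hℓN hℓp
  have hgood' : E.IsGoodPrimeFor ℓ := fun hd => hℓN ((hdvd ℓ hℓ).2 hd)
  refine ⟨((E.apOfModel ℓ : ℤ) : integralClosure ℤ ℂ), ?_, ?_⟩
  · rw [hcoef ℓ hℓ hgood' hℓN]; simp
  · obtain ⟨k, hk⟩ := hcong ℓ hℓ hℓp hgood hgood'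
    have : ((E.apOfModel ℓ : ℤ) : integralClosure ℤ ℂ) -
        ((W.apOfModel ℓ : ℤ) : integralClosure ℤ ℂ) = (p : integralClosure ℤ ℂ) * (k : ℤ) := by
      rw [← Int.cast_sub, hk]; push_cast; ring
    rw [this]
    exact 𝔪.mul_mem_right _ hpm

/-- Output of the `2`-adic route. -/
def TwoAdicStmt : Prop := ∀ W : WeierstrassCurve ℤ, W.Δ ≠ 0 → W.IsSemistableModel →
  (2 : ℤ) ^ 20 ∣ W.Δ → W.ModRepIsIrreducible 3 →
  ∃ E : WeierstrassCurve ℤ, E.Δ ≠ 0 ∧ E.IsSemistableModel ∧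
    (∀ ℓ : ℕ, ℓ.Prime → ℓ ≠ 3 → W.IsGoodPrimeFor ℓ → E.IsGoodPrimeFor ℓ →
      (3 : ℤ) ∣ (E.apOfModel ℓ - W.apOfModel ℓ)) ∧
    Mlc1IsModularModelOfExactConductorLevel E

/-- A semistable curve with `2 ^ 20 ∣ Δ` and irreducible `W[5]` is modular of exact conductor
level. -/
theorem exact_of_twoAdic (h2 : TwoAdicStmt) (h59 : Stmt59Sq) {W : WeierstrassCurve ℤ}
    (hΔ : W.Δ ≠ 0) (hW : W.IsSemistableModel) (h20 : (2 : ℤ) ^ 20 ∣ W.Δ)
    (h5 : W.ModRepIsIrreducible 5) : Mlc1IsModularModelOfExactConductorLevel W := by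
  obtain ⟨W', hΔ', hW', hirr', hcong, ⟨D, hD, -⟩, -⟩ := switch_close W hΔ hW 1 one_ne_zero
  have h20' : (2 : ℤ) ^ 20 ∣ W'.Δ := by rw [hD]; exact dvd_mul_of_dvd_left h20 _
  obtain ⟨E, hEΔ, hE, hcongE, hEmod⟩ := h2 W' hΔ' hW' h20' hirr'
  obtain ⟨N, hNsq, -, hNres⟩ := residually_of_congr (p := 3) (by norm_num) hcongE hEmod
  have hW'mod := h59 3 (Or.inl rfl) W' hΔ' hW' hirr' N hNsq hNres
  obtain ⟨N', hNsq', -, hNres'⟩ := residually_of_congr (p := 5) (by norm_num)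
    (fun ℓ hℓ hℓ5 hg hg' => hcong ℓ hℓ hg hg' hℓ5) hW'mod
  exact h59 5 (Or.inr rfl) W hΔ hW h5 N' hNsq' hNres'

theorem two_pow_dvd_freyCurveInt_Δ (P : FreyPackage) : (2 : ℤ) ^ 20 ∣ P.freyCurveInt.Δ := by
  have h := freyCurveInt_Δ P
  have h17 := frey_p_ge P
  have h1 : (2 : ℤ) ^ (2 * P.p) ∣ (P.a * P.b * P.c) ^ (2 * P.p) :=
    pow_dvd_pow_of_dvd P.two_dvd_abc _
  have h2 : (2 : ℤ) ^ 28 ∣ (2 : ℤ) ^ (2 * P.p) := pow_dvd_pow _ (by omega)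
  have h3 : (2 : ℤ) ^ 28 ∣ 2 ^ 8 * P.freyCurveInt.Δ := by rw [h]; exact h2.trans h1
  have h4 : (2 : ℤ) ^ 28 = 2 ^ 8 * 2 ^ 20 := by norm_num
  rw [h4] at h3
  exact (mul_dvd_mul_iff_left (by norm_num)).1 h3

theorem frey_exact' (h2 : TwoAdicStmt) (h59 : Stmt59Sq) (P : FreyPackage) :
    Mlc1IsModularModelOfExactConductorLevel P.freyCurveInt :=
  exact_of_twoAdic h2 h59 (freyCurveInt_Δ_ne_zero P) (freyCurveInt_isSemistableModel P)
    (two_pow_dvd_freyCurveInt_Δ P) (frey_modRepIsIrreducible_five P)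

/-- `S06`. -/
theorem stmt06' (h2 : TwoAdicStmt) (h59 : Stmt59Sq) : Stmt06 :=
  stmt06_of_exactConductorLevel (frey_exact' h2 h59)

/-- `S04`. -/
theorem stmt04' (h2 : TwoAdicStmt) (h59 : Stmt59Sq) : Stmt04 := by
  intro P
  obtain ⟨N, hN, hsq, hdvd, hmod⟩ := frey_exact' h2 h59 P
  exact ⟨P.freyCurveInt, freyCurveInt_isIntegralModelOf P, N, hN, hmod⟩

/-- `S45`. -/
theorem stmt45' (h2 : TwoAdicStmt) (h59 : Stmt59Sq) (h43 : Stmt43) (h44 : Stmt44) : Stmt45 :=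
  stmt45_of stmt05 (stmt06' h2 h59) stmt08 h43 h44

/-- `S03`. -/
theorem stmt03' (h2 : TwoAdicStmt) (h59 : Stmt59Sq) (h12 : Stmt12) (h43 : Stmt43) (h44 : Stmt44)
    (P : FreyPackage) : False :=
  no_frey_of (stmt04' h2 h59) (stmt09 h12) (stmt45' h2 h59 h43 h44) stmt07 P

/-- `S01`, exactly as in the template. -/
theorem stmt01' (h2 : TwoAdicStmt) (h59 : Stmt59Sq) (h12 : Stmt12) (h43 : Stmt43) (h44 : Stmt44)
    (n : ℕ) (hn : 3 ≤ n) (a b c : ℕ) (ha : 0 < a) (hb : 0 < b) (hc : 0 < c) :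
    a ^ n + b ^ n ≠ c ^ n :=
  flt_of_no_frey (fun P => stmt03' h2 h59 h12 h43 h44 P) n hn a b c ha hb hc

end Fermat.Agent.Wire
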