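import Fermat.Agent.LL.LocGen
import Fermat.Agent.LL.Unip
import Fermat.Agent.Frob.Minkowski

set_option autoImplicit false

/-!
# Quadratic characters unramified outside `p`, and small images
-/

open Matrix

namespace Fermat.Agent.Wire

local notation "Γℚ" => (AlgebraicClosure ℚ ≃ₐ[ℚ] AlgebraicClosure ℚ)
local notation "Qb" => AlgebraicClosure ℚ

/-- `χ` is trivial on all inertia groups outside `p` -/
def UnrOutside {M : Type} [MulOneClass M] (p : ℕ) (χ : Γℚ →* M) : Prop :=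
  ∀ q : ℕ, q.Prime → q ≠ p → ∀ A : ValuationSubring Qb, A.LiesOverPrime q →
    ∀ σ ∈ A.inertiaSubgroupIn ℚ, χ σ = 1

theorem units_int_sq (u : ℤˣ) : u * u = 1 := Int.units_mul_self u

/-- a character to `±1` unramified outside `p` and trivial on the tame generator at `p` is
trivial -/
theorem eq_one_of_tau {p : ℕ} (hp : p.Prime) (L : LL.LocGen p 2) (χ : Γℚ →* ℤˣ)
    (hfin : GaloisFactorsThroughFiniteLevel χ) (hunr : UnrOutside p χ) (hτ : χ L.τ = 1) :
    χ = 1 := by
  have hP : ∀ σ ∈ L.P.inertiaSubgroupIn ℚ, χ σ = 1 := by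
    intro σ hσ
    obtain ⟨h1, -, -⟩ := L.gen ℤˣ χ hfin (fun σ _ => ⟨1, by rw [pow_one, pow_two, units_int_sq]⟩)
    have h2 := h1 σ hσ
    rw [hτ, Subgroup.zpowers_one_eq_bot, Subgroup.mem_bot] at h2
    exact h2
  ext σ
  refine congrArg _ (Frob.eq_one_of_unramified χ hfin ?_ σ)
  intro ℓ hℓ A hA τ hτ
  by_cases hℓp : ℓ = p
  · subst hℓp
    obtain ⟨g, rfl⟩ := Frob.exists_smul_eq hℓ L.hP hA
    rw [Frob.mem_inertiaSubgroupIn_smul_iff] at hτ
    have h1 := hP _ hτ
    rw [map_mul, map_mul, map_inv] at h1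
    rw [← h1]
    rw [mul_comm (χ g)⁻¹, mul_assoc, inv_mul_cancel, mul_one]
  · exact hunr ℓ hℓ hℓp A hA τ hτ

/-- **Uniqueness of the quadratic character unramified outside an odd prime `p`.** -/
theorem quad_unique {p : ℕ} (hp : p.Prime) (hp2 : p ≠ 2) (χ₁ χ₂ : Γℚ →* ℤˣ)
    (hfin₁ : GaloisFactorsThroughFiniteLevel χ₁) (hfin₂ : GaloisFactorsThroughFiniteLevel χ₂)
    (hunr₁ : UnrOutside p χ₁) (hunr₂ : UnrOutside p χ₂) (h₁ : χ₁ ≠ 1) (h₂ : χ₂ ≠ 1) :
    χ₁ = χ₂ := by
  obtain ⟨L⟩ := LL.locGenStmt p 2 hp Nat.prime_two hp2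
  have e1 : χ₁ L.τ = -1 := by
    rcases Int.units_eq_one_or (χ₁ L.τ) with h | h
    · exact absurd (eq_one_of_tau hp L χ₁ hfin₁ hunr₁ h) h₁
    · exact h
  have e2 : χ₂ L.τ = -1 := by
    rcases Int.units_eq_one_or (χ₂ L.τ) with h | h
    · exact absurd (eq_one_of_tau hp L χ₂ hfin₂ hunr₂ h) h₂
    · exact h
  have h3 : χ₁ * χ₂ = 1 := by
    refine eq_one_of_tau hp L (χ₁ * χ₂) ?_ ?_ ?_
    · obtain ⟨L1, hL1, h1⟩ := hfin₁
      obtain ⟨L2, hL2, h2⟩ := hfin₂
      refine ⟨L1 ⊔ L2, IntermediateField.finiteDimensional_sup _ _, fun σ hσ => ?_⟩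
      rw [MonoidHom.mul_apply, h1 σ fun x hx => hσ x (le_sup_left (a := L1) hx),
        h2 σ fun x hx => hσ x (le_sup_right (a := L1) hx), one_mul]
    · intro q hq hqp A hA σ hσ
      rw [MonoidHom.mul_apply, hunr₁ q hq hqp A hA σ hσ, hunr₂ q hq hqp A hA σ hσ, one_mul]
    · rw [MonoidHom.mul_apply, e1, e2]; decide
  ext σ
  have h4 := DFunLike.congr_fun h3 σ
  rw [MonoidHom.mul_apply, MonoidHom.one_apply] at h4
  have h5 : χ₁ σ = χ₂ σ := by
    have := congrArg (· * χ₂ σ) h4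
    simp only [mul_assoc, units_int_sq, mul_one, one_mul] at this
    exact this
  rw [h5]

/-- the character of a subgroup of index two -/
noncomputable def idxChar {Γ : Type*} [Group Γ] (G : Subgroup Γ) (hG : G.index = 2) : Γ →* ℤˣ := by
  classical
  exact
  { toFun := fun σ => if σ ∈ G then 1 else -1
    map_one' := by simp [G.one_mem]
    map_mul' := fun σ τ => by
      have h := Subgroup.mul_mem_iff_of_index_two hG (a := σ) (b := τ)
      by_cases h1 : σ ∈ G <;> by_cases h2 : τ ∈ G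
      · simp [h1, h2, h.mpr (by simp [h1, h2])]
      · have : σ * τ ∉ G := fun h3 => by simp [h1, h2] at h; exact h h3
        simp [h1, h2, this]
      · have : σ * τ ∉ G := fun h3 => by simp [h1, h2] at h; exact h h3
        simp [h1, h2, this]
      · simp [h1, h2, h.mpr (by simp [h1, h2])] }

theorem idxChar_of_mem {Γ : Type*} [Group Γ] {G : Subgroup Γ} (hG : G.index = 2) {σ : Γ}
    (h : σ ∈ G) : idxChar G hG σ = 1 := if_pos h

theorem idxChar_of_not_mem {Γ : Type*} [Group Γ] {G : Subgroup Γ} (hG : G.index = 2) {σ : Γ}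
    (h : σ ∉ G) : idxChar G hG σ = -1 := if_neg h

theorem idxChar_ne_one {Γ : Type*} [Group Γ] {G : Subgroup Γ} (hG : G.index = 2) :
    idxChar G hG ≠ 1 := by
  intro h
  have : G = ⊤ := by
    rw [eq_top_iff]
    intro σ _
    by_contra hσ
    have h1 := idxChar_of_not_mem hG hσ
    rw [h, MonoidHom.one_apply] at h1
    exact absurd h1 (by decide)
  rw [this, Subgroup.index_top] at hG
  omega

end Fermat.Agent.Wire
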