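import Fermat.Agent.Wire.Switch3
import Fermat.Agent.Wire.CongrAll

set_option autoImplicit false

/-!
# The 3-5 switch with `W'[3]` ramified at `2`
-/

open WeierstrassCurve

namespace Fermat.Agent.Wire

theorem padicValInt_mul_pow_five {a D : ℤ} (ha : a ≠ 0) (hD : D ≠ 0) :
    padicValInt 2 (a * D ^ 5) = padicValInt 2 a + 5 * padicValInt 2 D := by
  haveI : Fact (Nat.Prime 2) := ⟨Nat.prime_two⟩
  rw [padicValInt.mul ha (pow_ne_zero _ hD)]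
  congr 1
  rw [padicValInt, Int.natAbs_pow, padicValNat.pow]
  rfl

/-- **The 3-5 switch, ramified at `2`.** For a semistable `W` with `8 ∣ Δ` there is a semistable `W'`
with `W'[5] ≅ W[5]`, `W'[3]` irreducible, `3 ∤ v₂(Δ(W'))`, of the same type at `5`, such that all bad
primes of `W` are bad for `W'`. -/
theorem switch_three (W : WeierstrassCurve ℤ) (hΔ : W.Δ ≠ 0) (hW : W.IsSemistableModel)
    (h8 : (8 : ℤ) ∣ W.Δ) :
    ∃ W' : WeierstrassCurve ℤ, W'.Δ ≠ 0 ∧ W'.IsSemistableModel ∧ W'.ModRepIsIrreducible 3 ∧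
      (∀ ℓ : ℕ, ℓ.Prime → W.IsGoodPrimeFor ℓ → W'.IsGoodPrimeFor ℓ → ℓ ≠ 5 →
        (5 : ℤ) ∣ (W'.apOfModel ℓ - W.apOfModel ℓ)) ∧
      ¬ 3 ∣ padicValInt 2 W'.Δ ∧
      (∀ q : ℕ, q.Prime → (q : ℤ) ∣ W.Δ → (q : ℤ) ∣ W'.Δ) ∧
      ((5 : ℤ) ∣ W'.Δ → (5 : ℤ) ∣ W.Δ) := by
  haveI : Fact (Nat.Prime 2) := ⟨Nat.prime_two⟩
  haveI : Fact (Nat.Prime 5) := ⟨by norm_num⟩
  -- a close curve `W'` to a given curve
  have close : ∀ W₁ : WeierstrassCurve ℤ, W₁.Δ ≠ 0 → W₁.IsSemistableModel →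
      ∃ W' : WeierstrassCurve ℤ, W'.Δ ≠ 0 ∧ W'.IsSemistableModel ∧ W'.ModRepIsIrreducible 3 ∧
      (∀ ℓ : ℕ, ℓ.Prime → W₁.IsGoodPrimeFor ℓ → W'.IsGoodPrimeFor ℓ → ℓ ≠ 5 →
        (5 : ℤ) ∣ (W'.apOfModel ℓ - W₁.apOfModel ℓ)) ∧
      padicValInt 2 W'.Δ = padicValInt 2 W₁.Δ ∧ W₁.Δ ∣ W'.Δ ∧
      ((5 : ℤ) ∣ W'.Δ → (5 : ℤ) ∣ W₁.Δ) := by
    intro W₁ hΔ₁ hW₁
    obtain ⟨W', hΔ', hW', hirr, hc, ⟨D, hD, hD1⟩, -⟩ := switch_close W₁ hΔ₁ hW₁ 1 one_ne_zero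
    have hnd : ∀ q : ℤ, q ∣ 30 → ¬ IsUnit q → ¬ q ∣ D := by
      intro q hq hu hqD
      apply hu
      rw [isUnit_iff_dvd_one]
      have h1 : q ∣ D - (D - 1) := dvd_sub hqD
        ((hq.trans ⟨1 * W₁.Δ, by ring⟩).trans hD1)
      rwa [sub_sub_cancel] at h1
    have hD2 : ¬ (2 : ℤ) ∣ D := hnd 2 (by norm_num) (by rw [Int.isUnit_iff]; norm_num)
    have hD5 : ¬ (5 : ℤ) ∣ D := hnd 5 (by norm_num) (by rw [Int.isUnit_iff]; norm_num)
    have hD0 : D ≠ 0 := by rintro rfl; exact hD2 (dvd_zero _)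
    refine ⟨W', hΔ', hW', hirr, hc, ?_, by rw [hD]; exact dvd_mul_right _ _, ?_⟩
    · have hv : padicValInt 2 D = 0 := padicValInt.eq_zero_of_not_dvd (by exact_mod_cast hD2)
      rw [hD, padicValInt_mul_pow_five hΔ₁ hD0, hv, mul_zero, add_zero]
    · intro h
      rw [hD] at h
      have h5 : Prime (5 : ℤ) := by
        have := Nat.prime_iff_prime_int.mp (show Nat.Prime 5 by norm_num)
        exact_mod_cast this
      exact (h5.dvd_or_dvd h).resolve_right fun h' => hD5 (h5.dvd_of_dvd_pow h')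
  by_cases h3 : 3 ∣ padicValInt 2 W.Δ
  · obtain ⟨W₁, hΔ₁, hW₁, hc₁, D, hD, hD2, hD4, hDq⟩ := exists_near W hΔ hW h8
    obtain ⟨W', hΔ', hW', hirr, hc, hv, hdvd, h5⟩ := close W₁ hΔ₁ hW₁
    have hD0 : D ≠ 0 := by rintro rfl; exact hD4 (dvd_zero _)
    have hvD : padicValInt 2 D = 1 := by
      have h1 : 1 ≤ padicValInt 2 D :=
        (padicValInt_dvd_iff 1 D).mp (by simpa using hD2) |>.resolve_left hD0
      have h2 : ¬ 2 ≤ padicValInt 2 D := fun h =>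
        hD4 (by simpa using (padicValInt_dvd_iff 2 D).mpr (Or.inr h))
      omega
    refine ⟨W', hΔ', hW', hirr, ?_, ?_, ?_, ?_⟩
    · refine congr_all hΔ hΔ' {2, 3, 5} (fun ℓ hℓ hℓS hg hg' => ?_)
      simp only [Finset.mem_insert, Finset.mem_singleton, not_or] at hℓS
      have h30 : ¬ ℓ ∣ 30 := by
        intro h
        have h' : ℓ ∣ 2 * (3 * 5) := h
        rcases (hℓ.dvd_mul).mp h' with h1 | h1
        · exact hℓS.1 ((Nat.prime_dvd_prime_iff_eq hℓ Nat.prime_two).mp h1)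
        · rcases (hℓ.dvd_mul).mp h1 with h2 | h2
          · exact hℓS.2.1 ((Nat.prime_dvd_prime_iff_eq hℓ Nat.prime_three).mp h2)
          · exact hℓS.2.2 ((Nat.prime_dvd_prime_iff_eq hℓ (by norm_num)).mp h2)
      have hg₁ : W₁.IsGoodPrimeFor ℓ := fun h => hg' (h.trans hdvd)
      have e1 := hc ℓ hℓ hg₁ hg' hℓS.2.2
      have e2 := hc₁ ℓ hℓ h30 hg hg₁
      have : W'.apOfModel ℓ - W.apOfModel ℓ = (W'.apOfModel ℓ - W₁.apOfModel ℓ) +
        (W₁.apOfModel ℓ - W.apOfModel ℓ) := by ring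
      rw [this]
      exact_mod_cast dvd_add e1 e2
    · rw [hv, hD, padicValInt_mul_pow_five hΔ hD0, hvD]
      omega
    · intro q hq hqΔ
      exact (hqΔ.trans (by rw [hD]; exact dvd_mul_right _ _)).trans hdvd
    · intro h
      have h1 := h5 h
      rw [hD] at h1
      have hp5 : Prime (5 : ℤ) := by
        have := Nat.prime_iff_prime_int.mp (show Nat.Prime 5 by norm_num)
        exact_mod_cast this
      refine (hp5.dvd_or_dvd h1).resolve_right fun h' => ?_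
      exact hDq 5 (by norm_num) (by norm_num) (Or.inl (by norm_num))
        (by exact_mod_cast hp5.dvd_of_dvd_pow h')
  · obtain ⟨W', hΔ', hW', hirr, hc, hv, hdvd, h5⟩ := close W hΔ hW
    exact ⟨W', hΔ', hW', hirr, hc, by rwa [hv], fun q _ h => h.trans hdvd, h5⟩

end Fermat.Agent.Wire
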