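import Fermat.Agent.Wire.TwoAdicWire
import Fermat.Agent.Wire.SwitchThree

set_option autoImplicit false
open WeierstrassCurve WeierstrassCurve.Affine WeierstrassCurve.Affine.Point
open CuspForm ModularFormClass UpperHalfPlane

/-!
# Fermat's Last Theorem from the `2`-adic route and the modularity lifting theorem (59C)

* `TwoAdicStmtC` : output of the `2`-adic route for `W` with `2 ∣ Δ` and `W[3]` irreducible;
* `Stmt59C`      : modularity lifting for `p = 3, 5` in the form needed;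
* `Stmt12`, `Stmt43`, `Stmt44`.
-/

namespace Fermat.Agent.Wire

open Fermat.Agent.Wiring

/-- Output of the `2`-adic route (see `TwoAdic.exists_curve`). -/
def TwoAdicStmtC : Prop := ∀ W : WeierstrassCurve ℤ, W.Δ ≠ 0 → W.IsSemistableModel →
  (2 : ℤ) ∣ W.Δ →
  ∃ E : WeierstrassCurve ℤ, E.Δ ≠ 0 ∧ E.IsSemistableModel ∧
    (∀ q : ℕ, q.Prime → (q : ℤ) ∣ W.Δ → (q : ℤ) ∣ E.Δ) ∧
    ((3 : ℤ) ∣ E.Δ ↔ (3 : ℤ) ∣ W.Δ) ∧
    (∀ ℓ : ℕ, ℓ.Prime → ℓ ≠ 3 → W.IsGoodPrimeFor ℓ → E.IsGoodPrimeFor ℓ →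
      (3 : ℤ) ∣ (E.apOfModel ℓ - W.apOfModel ℓ)) ∧
    Mlc1IsModularModelOfExactConductorLevel E

/-- **The modularity lifting theorem (59C)**, `p = 3, 5`. -/
def Stmt59C : Prop := ∀ (p : ℕ) (_ : p = 3 ∨ p = 5) (W W₀ : WeierstrassCurve ℤ),
    W.Δ ≠ 0 → W.IsSemistableModel → W.ModRepIsIrreducible p → (2 : ℤ) ∣ W.Δ →
    (p = 3 → ¬ 3 ∣ padicValInt 2 W.Δ) →
    W₀.Δ ≠ 0 → W₀.IsSemistableModel →
    (∀ q : ℕ, q.Prime → (q : ℤ) ∣ W.Δ → (q : ℤ) ∣ W₀.Δ) →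
    ((p : ℤ) ∣ W₀.Δ → (p : ℤ) ∣ W.Δ) →
    (∀ ℓ : ℕ, ℓ.Prime → W.IsGoodPrimeFor ℓ → W₀.IsGoodPrimeFor ℓ → ℓ ≠ p →
      (p : ℤ) ∣ (W₀.apOfModel ℓ - W.apOfModel ℓ)) →
    Mlc1IsModularModelOfExactConductorLevel W₀ →
    Mlc1IsModularModelOfExactConductorLevel W

/-- `59C` follows from the squarefree form of `S59` -/
theorem stmt59C_of (h : Stmt59Sq) : Stmt59C := by
  intro p hp W W₀ hΔ hW hirr _ _ _ _ _ _ hc hmod
  obtain ⟨N, hN, -, hres⟩ := residually_of_congr (p := p)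
    (by rcases hp with rfl | rfl <;> norm_num) (fun ℓ hℓ hℓp hg hg' => hc ℓ hℓ hg hg' hℓp) hmod
  exact h p hp W hΔ hW hirr N hN hres

/-- A semistable curve with `8 ∣ Δ` and irreducible `W[5]` is modular of exact conductor level. -/
theorem exact_of_59C (h2 : TwoAdicStmtC) (h59 : Stmt59C) {W : WeierstrassCurve ℤ}
    (hΔ : W.Δ ≠ 0) (hW : W.IsSemistableModel) (h8 : (8 : ℤ) ∣ W.Δ)
    (h5 : W.ModRepIsIrreducible 5) : Mlc1IsModularModelOfExactConductorLevel W := by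
  have h2W : (2 : ℤ) ∣ W.Δ := dvd_trans (by norm_num) h8
  obtain ⟨W', hΔ', hW', hirr', hc, hv, hbad, h5'⟩ := switch_three W hΔ hW h8
  have h2W' : (2 : ℤ) ∣ W'.Δ := by exact_mod_cast hbad 2 Nat.prime_two (by exact_mod_cast h2W)
  obtain ⟨E, hEΔ, hE, hEbad, hE3, hcE, hEmod⟩ := h2 W' hΔ' hW' h2W'
  have hW'mod := h59 3 (Or.inl rfl) W' E hΔ' hW' hirr' h2W' (fun _ => hv) hEΔ hE hEbad
    (by exact_mod_cast hE3.1) (fun ℓ hℓ hg hg' hℓ3 => by exact_mod_cast hcE ℓ hℓ hℓ3 hg hg') hEmod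
  exact h59 5 (Or.inr rfl) W W' hΔ hW h5 h2W (fun h => absurd h (by norm_num)) hΔ' hW' hbad
    (by exact_mod_cast h5') (fun ℓ hℓ hg hg' hℓ5 => by exact_mod_cast hc ℓ hℓ hg hg' hℓ5) hW'mod

theorem frey_exactC (h2 : TwoAdicStmtC) (h59 : Stmt59C) (P : FreyPackage) :
    Mlc1IsModularModelOfExactConductorLevel P.freyCurveInt :=
  exact_of_59C h2 h59 (freyCurveInt_Δ_ne_zero P) (freyCurveInt_isSemistableModel P)
    (dvd_trans (by norm_num) (two_pow_dvd_freyCurveInt_Δ P)) (frey_modRepIsIrreducible_five P)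

/-- `S06`. -/
theorem stmt06C (h2 : TwoAdicStmtC) (h59 : Stmt59C) : Stmt06 :=
  stmt06_of_exactConductorLevel (frey_exactC h2 h59)

/-- `S04`. -/
theorem stmt04C (h2 : TwoAdicStmtC) (h59 : Stmt59C) : Stmt04 := by
  intro P
  obtain ⟨N, hN, hsq, hdvd, hmod⟩ := frey_exactC h2 h59 P
  exact ⟨P.freyCurveInt, freyCurveInt_isIntegralModelOf P, N, hN, hmod⟩

/-- `S45`. -/
theorem stmt45C (h2 : TwoAdicStmtC) (h59 : Stmt59C) (h43 : Stmt43) (h44 : Stmt44) : Stmt45 :=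
  stmt45_of stmt05 (stmt06C h2 h59) stmt08 h43 h44

/-- `S03`. -/
theorem stmt03C (h2 : TwoAdicStmtC) (h59 : Stmt59C) (h12 : Stmt12) (h43 : Stmt43) (h44 : Stmt44)
    (P : FreyPackage) : False :=
  no_frey_of (stmt04C h2 h59) (stmt09 h12) (stmt45C h2 h59 h43 h44) stmt07 P

/-- `S01`, exactly as in the template. -/
theorem stmt01C (h2 : TwoAdicStmtC) (h59 : Stmt59C) (h12 : Stmt12) (h43 : Stmt43) (h44 : Stmt44)
    (n : ℕ) (hn : 3 ≤ n) (a b c : ℕ) (ha : 0 < a) (hb : 0 < b) (hc : 0 < c) :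
    a ^ n + b ^ n ≠ c ^ n :=
  flt_of_no_frey (fun P => stmt03C h2 h59 h12 h43 h44 P) n hn a b c ha hb hc

end Fermat.Agent.Wire
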