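import Fermat.Agent.Newform.Exist
import Fermat.Agent.RepTwo.ResidueField
import Fermat.Prelude.Def_FLTPrelim_ModularRep
import Fermat.Prelude.Def_CuspForm_Newforms

set_option autoImplicit false

/-!
# Levels at which `W[p]` occurs

`Occ59 p W M` : some newform of level `M` is congruent to `W` modulo a maximal ideal above `p`.
-/

open Polynomial WeierstrassCurve ModularFormClass CongruenceSubgroup

namespace Fermat.Agent.Wire

local notation "ℤbar" => integralClosure ℤ ℂ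

/-- the congruence -/
def Cong59 (W : WeierstrassCurve ℤ) {M : ℕ} (g : CuspForm (Gamma0 M) 2) (𝔪 : Ideal ℤbar)
    (S : Finset ℕ) : Prop :=
  ∀ ℓ : ℕ, ℓ.Prime → ℓ ∉ S → ∀ a : ℤbar, (a : ℂ) = qCoeff g ℓ →
    a - ((W.apOfModel ℓ : ℤ) : ℤbar) ∈ 𝔪

/-- `W[p]` occurs at level `M` -/
def Occ59 (p : ℕ) (W : WeierstrassCurve ℤ) (M : ℕ) : Prop :=
  ∃ (_ : NeZero M) (g : CuspForm (Gamma0 M) 2) (𝔪 : Ideal ℤbar) (S : Finset ℕ), g.IsNewform ∧
    𝔪.IsMaximal ∧ (p : ℤbar) ∈ 𝔪 ∧ Cong59 W g 𝔪 S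

/-- a normalized eigenform of level `M` gives a newform at a level dividing `M` -/
theorem occ59_of_eigenform {p : ℕ} {W : WeierstrassCurve ℤ} (hp : p.Prime) {M : ℕ} [NeZero M]
    {L : Type} [Field L] [CharP L p]
    (ψ : ℤbar →+* L) {g : CuspForm (Gamma0 M) 2} (hg : g.IsNormalizedEigenform) (S : Finset ℕ)
    (h : ∀ ℓ : ℕ, ℓ.Prime → ℓ ∉ S → ∀ a : ℤbar, (a : ℂ) = qCoeff g ℓ →
      ψ a = ((W.apOfModel ℓ : ℤ) : L)) : ∃ M', M' ∣ M ∧ Occ59 p W M' := by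
  obtain ⟨M', hM', g', hg', hgg⟩ := Newform.exists_newform hg
  have hM0 : NeZero M' := ⟨fun h => NeZero.ne M (Nat.eq_zero_of_zero_dvd (h ▸ hM'))⟩
  refine ⟨M', hM', hM0, g', RingHom.ker ψ, S ∪ M.primeFactors, hg', RepTwo.isMaximal_ker hp ψ, ?_,
    fun ℓ hℓ hℓS a ha => ?_⟩
  · rw [RingHom.mem_ker, map_natCast, CharP.cast_eq_zero]
  · simp only [Finset.mem_union, not_or, Nat.mem_primeFactors, not_and] at hℓS
    have h1 : ¬ ℓ ∣ M := fun h => hℓS.2 hℓ h (NeZero.ne M)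
    rw [RingHom.mem_ker, map_sub, map_intCast, h ℓ hℓ hℓS.1 a (by rw [ha, hgg ℓ hℓ h1]), sub_self]

end Fermat.Agent.Wire
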