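import Fermat.Agent.Wire.Start59
import Fermat.Agent.MazurQ.MPAll
import Fermat.Agent.S29
import Fermat.Agent.Wire.Occ59

set_option autoImplicit false

/-!
# Step L: levels at which `W[p]` occurs, minimal level

`Occ59 p W M` : some newform of level `M` is congruent to `W` modulo a maximal ideal above `p`.
-/

open Polynomial WeierstrassCurve ModularFormClass CongruenceSubgroup Fermat.Agent.ECRep

namespace Fermat.Agent.Wire

local notation "ℤbar" => integralClosure ℤ ℂ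
local notation "Γℚ" => (AlgebraicClosure ℚ ≃ₐ[ℚ] AlgebraicClosure ℚ)
local notation "Qb" => AlgebraicClosure ℚ

section occ

variable {p : ℕ} {W : WeierstrassCurve ℤ}

variable [Fact p.Prime]

theorem eq_one_of_bc (ρ : ResidualGaloisRep (ZMod p)) (k : Type) [Field k] [Algebra (ZMod p) k]
    (f : Module.End (ZMod p) ρ.V) (h5 : f.baseChange k = 1) : f = 1 := by
  apply (LinearMap.toMatrix (LL.rb ρ) (LL.rb ρ)).injective
  have h4 := LinearMap.toMatrix_baseChange (A := k) f (LL.rb ρ) (LL.rb ρ)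
  rw [h5, LinearMap.toMatrix_one] at h4
  rw [LinearMap.toMatrix_one]
  have h6 : (1 : Matrix (Fin 2) (Fin 2) (ZMod p)).map (algebraMap (ZMod p) k) = 1 :=
    map_one ((algebraMap (ZMod p) k).mapMatrix)
  rw [← h6] at h4
  exact (Matrix.map_injective (algebraMap (ZMod p) k).injective h4).symm

theorem bc_eq_neg_one (ρ : ResidualGaloisRep (ZMod p)) (k : Type) [Field k] [Algebra (ZMod p) k]
    (σ : Γℚ) (h : (ρ.baseChange k).ρ σ = -1) : ρ.ρ σ = -1 := by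
  have h5 : (ρ.ρ σ).baseChange k = -1 := h
  have h6 : (-(ρ.ρ σ)).baseChange k = 1 := by
    rw [LinearMap.baseChange_neg, h5]
    exact LinearMap.ext fun v => neg_neg v
  rw [← eq_one_of_bc ρ k _ h6, neg_neg]

theorem curve_det_frob (hΔ : W.Δ ≠ 0) (k : Type) [Field k] [Algebra (ZMod p) k] {ℓ : ℕ}
    (hℓ : ℓ.Prime) (hℓp : ℓ ≠ p) {A : ValuationSubring Qb} (hA : A.LiesOverPrime ℓ) {σ : Γℚ}
    (hσ : A.IsFrobeniusAt σ ℓ) :
    LinearMap.det (((curveRho p W hΔ).baseChange k).ρ σ) = (ℓ : k) := by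
  have hdet0 := det_frob_of_detIsCyclotomic (Fact.out : p.Prime) _ (detIsCyclotomic (l := p) W hΔ)
    hℓ hℓp hA hσ
  rw [LL.det_baseChange, curveRho, det_resRep W p hΔ, hdet0, map_natCast, map_natCast]

/-- unipotent inertia at multiplicative primes -/
theorem curve_trace_inertia (hΔ : W.Δ ≠ 0) (hW : W.IsSemistableModel) (k : Type) [Field k]
    [Algebra (ZMod p) k] {q : ℕ} (hq : q.Prime) (hqp : q ≠ p) (hqΔ : (q : ℤ) ∣ W.Δ)
    {A : ValuationSubring Qb} (hA : A.LiesOverPrime q) {σ : Γℚ}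
    (hσ : σ ∈ A.inertiaSubgroupIn ℚ) :
    LinearMap.trace k _ (((curveRho p W hΔ).baseChange k).ρ σ) = 2 := by
  have h1 := isUnipotentOnInertiaAt (l := p) W hΔ hq hqp hqΔ (hW q hq hqΔ) A hA σ hσ
  have h2 : LinearMap.charpoly (((curveRho p W hΔ).baseChange k).ρ σ) = (X - 1) ^ 2 := by
    rw [LL.charpoly_baseChange, curveRho, charpoly_resRep, h1]
    simp
  rw [Cheb.charpoly_eq ((curveRho p W hΔ).baseChange k).finrank_eq] at h2
  have h0 := congrArg (fun f => Polynomial.coeff f 1) h2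
  have h3 : ((X - 1) ^ 2 : Polynomial k) = X ^ 2 - C 2 * X + C 1 := by
    rw [map_one, C_ofNat]; ring
  rw [h3] at h0
  simpa [Polynomial.coeff_X, Polynomial.coeff_one, Polynomial.coeff_C] using h0

/-- **Comparison of `W[p]` with the residual representation of a congruent form**: the
congruence holds at all primes not dividing `M p`. -/
theorem frob_of_cong (hΔ : W.Δ ≠ 0) {M : ℕ} [NeZero M] {g : CuspForm (Gamma0 M) 2}
    (hg : g.IsNormalizedEigenform) {K : Type} [Field K] [Algebra (ZMod p) K] (ψ : ℤbar →+* K)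
    (S : Finset ℕ) (h : ∀ ℓ : ℕ, ℓ.Prime → ℓ ∉ S → ∀ a : ℤbar, (a : ℂ) = qCoeff g ℓ →
      ψ a = ((W.apOfModel ℓ : ℤ) : K)) {ℓ : ℕ} (hℓ : ℓ.Prime) (hℓM : ¬ ℓ ∣ M) (hℓp : ℓ ≠ p)
    {P : ValuationSubring Qb} (hP : P.LiesOverPrime ℓ) {σ : Γℚ} (hσ : P.IsFrobeniusAt σ ℓ)
    (a : ℤbar) (ha : (a : ℂ) = qCoeff g ℓ) :
    LinearMap.charpoly (((curveRho p W hΔ).baseChange K).ρ σ) =
      X ^ 2 - C (ψ a) * X + C (ℓ : K) := by
  classical
  have hp : p.Prime := Fact.out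
  have hchar : CharP K p := charP_of_injective_algebraMap (algebraMap (ZMod p) K).injective p
  have hne : ∀ q : ℕ, q.Prime → q ≠ p → (q : K) ≠ 0 := by
    intro q hq hqp h0
    rw [CharP.cast_eq_zero_iff K p] at h0
    exact hqp ((Nat.prime_dvd_prime_iff_eq hp hq).mp h0).symm
  obtain ⟨ρ, hρ, -⟩ := Fermat.Agent.S29.result hg hp ψ
  have htr := MazurQ.trace_eq_of_frob ρ ((curveRho p W hΔ).baseChange K) (RingHom.id K)
    (RingHom.id K) (S ∪ M.primeFactors ∪ {p} ∪ W.Δ.natAbs.primeFactors) (by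
      intro q hq hqS A hA τ hτ
      simp only [Finset.mem_union, Finset.mem_singleton, not_or, Nat.mem_primeFactors,
        not_and] at hqS
      obtain ⟨⟨⟨h1, h2⟩, h3⟩, h4⟩ := hqS
      have hqM : ¬ q ∣ M := fun h => h2 hq h (NeZero.ne M)
      obtain ⟨b, hb, hch⟩ := hρ q hq hqM (hne q hq h3) A hA τ hτ
      have hgood : W.IsGoodPrimeFor q := fun hd =>
        h4 hq (Int.natCast_dvd.mp hd) (Int.natAbs_ne_zero.mpr hΔ)
      have e1 := (Cheb.trace_det_of_charpoly_eq ρ.finrank_eq _ hch).1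
      have e2 := (Cheb.trace_det_of_charpoly_eq ((curveRho p W hΔ).baseChange K).finrank_eq _
        (curve_charpoly_frob W K hΔ hq h3 hgood hA hτ)).1
      rw [RingHom.id_apply, RingHom.id_apply, e1, e2, h q hq h1 b hb]) σ
  obtain ⟨b, hb, hch⟩ := hρ ℓ hℓ hℓM (hne ℓ hℓ hℓp) P hP σ hσ
  have e1 := (Cheb.trace_det_of_charpoly_eq ρ.finrank_eq _ hch).1
  have hab : b = a := Subtype.ext (hb.trans ha.symm)
  rw [RingHom.id_apply, RingHom.id_apply, e1, hab] at htr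
  rw [Cheb.charpoly_eq ((curveRho p W hΔ).baseChange K).finrank_eq, ← htr,
    curve_det_frob hΔ K hℓ hℓp hP hσ]

/-- **Mazur's principle for `W[p]`.** -/
theorem mp59 (h35 : p = 3 ∨ p = 5) (hΔ : W.Δ ≠ 0) (hW : W.IsSemistableModel)
    (hirr : W.ModRepIsIrreducible p) (h2 : (2 : ℤ) ∣ W.Δ) {N : ℕ} [NeZero N]
    (hsq : Squarefree N) (hocc : Occ59 p W N) (hmin : ∀ M, M ∣ N → Occ59 p W M → M = N)
    {q : ℕ} (hq : q.Prime) (hqN : q ∣ N) (hqp : q ≠ p) (hunr : (curveRho p W hΔ).IsUnramifiedAt q) :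
    p ∣ q - 1 ∧ ∀ P : ValuationSubring Qb, P.LiesOverPrime q → ∀ σ : Γℚ, P.IsFrobeniusAt σ q →
      (curveRho p W hΔ).ρ σ = 1 ∨ (curveRho p W hΔ).ρ σ = -1 := by
  classical
  have hp : p.Prime := Fact.out
  have hp2 : p ≠ 2 := by rcases h35 with rfl | rfl <;> norm_num
  obtain ⟨_, g, 𝔪, S, hg, h𝔪, hp𝔪, hc⟩ := hocc
  letI : Field (ℤbar ⧸ 𝔪) := Ideal.Quotient.field 𝔪
  let K : Type := ℤbar ⧸ 𝔪
  letI : Field K := Ideal.Quotient.field 𝔪
  let ψ : ℤbar →+* K := Ideal.Quotient.mk 𝔪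
  have hchar : CharP K p := by
    rw [CharP.charP_iff_prime_eq_zero hp, ← map_natCast ψ]
    exact Ideal.Quotient.eq_zero_iff_mem.mpr hp𝔪
  letI : Algebra (ZMod p) K := ZMod.algebra K p
  have hψ : ∀ ℓ : ℕ, ℓ.Prime → ℓ ∉ S → ∀ a : ℤbar, (a : ℂ) = qCoeff g ℓ →
      ψ a = ((W.apOfModel ℓ : ℤ) : K) := by
    intro ℓ hℓ hℓS a ha
    have h3 := hc ℓ hℓ hℓS a ha
    have h4 : ψ (a - ((W.apOfModel ℓ : ℤ) : ℤbar)) = 0 := Ideal.Quotient.eq_zero_iff_mem.mpr h3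
    rwa [map_sub, map_intCast, sub_eq_zero] at h4
  have hqN2 : ¬ q ^ 2 ∣ N := by
    intro h
    have := hsq q (by rwa [← pow_two])
    exact hq.one_lt.ne' (Nat.isUnit_iff.mp this)
  have D : MazurQ.MPData N q p ψ g ((curveRho p W hΔ).baseChange K) :=
    { hf := hg.isNormalizedEigenform
      irr := curve_absIrr W hp2 hΔ hirr K
      frob := fun ℓ hℓ hℓN hℓp P hP σ hσ a ha =>
        frob_of_cong hΔ hg.isNormalizedEigenform ψ S hψ hℓ hℓN hℓp hP hσ a ha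
      unr := (curve_unr_iff_base W K hΔ q).mpr hunr
      hno := by
        intro L _ _ ψ' g' hg'
        by_contra hcon
        push Not at hcon
        have hcharL : CharP L p := charP_of_injective_algebraMap (algebraMap K L).injective p
        have hNq : N / q ∣ N := Nat.div_dvd_of_dvd hqN
        have hNq0 : NeZero (N / q) := ⟨fun h => NeZero.ne N (by
          rw [← Nat.div_mul_cancel hqN, h, zero_mul])⟩
        obtain ⟨M', hM', hocc'⟩ := occ59_of_eigenform (W := W) hp ψ' hg'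
          (S ∪ N.primeFactors ∪ {p}) (by
            intro ℓ hℓ hℓS b hb
            simp only [Finset.mem_union, Finset.mem_singleton, not_or, Nat.mem_primeFactors,
              not_and] at hℓS
            obtain ⟨⟨h1, h3⟩, h4⟩ := hℓS
            have hℓN : ¬ ℓ ∣ N := fun h => h3 hℓ h (NeZero.ne N)
            have hint : qCoeff g ℓ ∈ ℤbar :=
              Eigenform.isIntegral_qCoeff_prime hg.isNormalizedEigenform hℓ
            rw [hcon ℓ hℓ hℓN h4 ⟨_, hint⟩ b rfl hb, hψ ℓ hℓ h1 ⟨_, hint⟩ rfl, map_intCast])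
        have h5 := hmin M' (hM'.trans hNq) hocc'
        rw [h5] at hM'
        have h6 := Nat.le_of_dvd (Nat.pos_of_ne_zero hNq0.ne) hM'
        have h7 := Nat.div_lt_self (Nat.pos_of_ne_zero (NeZero.ne N)) hq.one_lt
        omega }
  have key : MazurQ.MPConcl q ((curveRho p W hΔ).baseChange K) := by
    rcases h35 with h35 | h35
    · subst h35
      obtain ⟨P, hP⟩ := Frob.exists_liesOverPrime Qb Nat.prime_two
      exact MazurQ.mp_three (MazurQ.mpRigid Nat.prime_three) hq hqp hqN hqN2 D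
        (fun K' _ _ G hG V hV => curve_index_two W (Or.inl rfl) hΔ hW h2 hirr K K' G hG V hV) hP
        (fun σ hσ => curve_trace_inertia hΔ hW K Nat.prime_two (by norm_num)
          (by exact_mod_cast h2) hP hσ)
    · exact LL.mpStmtGe5 N q p hq hp (by omega) hqp hqN hqN2 K ψ g hg.isNormalizedEigenform _
        D.irr D.frob D.unr D.hno
  obtain ⟨h3, h4⟩ := key
  constructor
  · have h5 : ((q - 1 : ℕ) : K) = 0 := by
      rw [Nat.cast_sub hq.one_le, h3, Nat.cast_one, sub_self]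
    rwa [CharP.cast_eq_zero_iff K p] at h5
  · intro P hP σ hσ
    rcases h4 P hP σ hσ with h | h
    · exact Or.inl ((LL.baseChange_eq_one_iff (curveRho p W hΔ) K σ).mp h)
    · exact Or.inr (bc_eq_neg_one _ K σ h)

/-- **Step L.** -/
theorem stepL (h35 : p = 3 ∨ p = 5) {W₀ : WeierstrassCurve ℤ} (hΔ : W.Δ ≠ 0)
    (hW : W.IsSemistableModel) (hirr : W.ModRepIsIrreducible p) (h2 : (2 : ℤ) ∣ W.Δ)
    (hΔ₀ : W₀.Δ ≠ 0) (hp₀ : (p : ℤ) ∣ W₀.Δ → (p : ℤ) ∣ W.Δ)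
    (hc : ∀ ℓ : ℕ, ℓ.Prime → W.IsGoodPrimeFor ℓ → W₀.IsGoodPrimeFor ℓ → ℓ ≠ p →
      (p : ℤ) ∣ (W₀.apOfModel ℓ - W.apOfModel ℓ))
    (hmod : Mlc1IsModularModelOfExactConductorLevel W₀) :
    ∃ N : ℕ, Occ59 p W N ∧ Squarefree N ∧ N ∣ cond W₀ ∧
      (∀ M, M ∣ N → Occ59 p W M → M = N) ∧
      (p ∣ N → (p : ℤ) ∣ W.Δ ∧ ∀ M, M ∣ cond W₀ → Occ59 p W M → p ∣ M) ∧
      ∀ q : ℕ, q.Prime → q ∣ N → q ≠ p → (curveRho p W hΔ).IsUnramifiedAt q →
        p ∣ q - 1 ∧ ∀ P : ValuationSubring Qb, P.LiesOverPrime q → ∀ σ : Γℚ,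
          P.IsFrobeniusAt σ q → (curveRho p W hΔ).ρ σ = 1 ∨ (curveRho p W hΔ).ρ σ = -1 := by
  classical
  have hp : p.Prime := Fact.out
  obtain ⟨M₁, hM₁0, g₁, hg₁, hM₁sq, hM₁, hM₁p, hg₁c⟩ := start59_mod hΔ hΔ₀ hp₀ hp hc hmod
  obtain ⟨𝔪, h𝔪, hp𝔪⟩ := FLTPrelim.exists_maximalIdeal_natCast_prime_mem hp
  have hocc₁ : Occ59 p W M₁ := by
    refine ⟨hM₁0, g₁, 𝔪, (cond W).primeFactors ∪ (cond W₀).primeFactors ∪ {p}, hg₁, h𝔪, hp𝔪,
      fun ℓ hℓ hℓS a ha => ?_⟩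
    simp only [Finset.mem_union, Finset.mem_singleton, not_or, Nat.mem_primeFactors,
      not_and] at hℓS
    obtain ⟨⟨h1, h3⟩, h4⟩ := hℓS
    exact hg₁c 𝔪 hp𝔪 ℓ hℓ (fun h => h1 hℓ h (cond_ne_zero W))
      (fun h => h3 hℓ h (cond_ne_zero W₀)) h4 a ha
  have hfin : ∀ N : ℕ, Occ59 p W N → N ∣ cond W₀ → (∀ M, M ∣ N → Occ59 p W M → M = N) →
      ∀ q : ℕ, q.Prime → q ∣ N → q ≠ p → (curveRho p W hΔ).IsUnramifiedAt q →
        p ∣ q - 1 ∧ ∀ P : ValuationSubring Qb, P.LiesOverPrime q → ∀ σ : Γℚ,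
          P.IsFrobeniusAt σ q → (curveRho p W hΔ).ρ σ = 1 ∨ (curveRho p W hΔ).ρ σ = -1 := by
    intro N hocc hN hmin q hq hqN hqp hunr
    have hN0 : NeZero N := ⟨fun h => cond_ne_zero W₀ (Nat.eq_zero_of_zero_dvd (h ▸ hN))⟩
    exact mp59 h35 hΔ hW hirr h2 ((squarefree_cond W₀).squarefree_of_dvd hN) hocc hmin hq hqN hqp
      hunr
  by_cases hA : ∃ M, M ∣ cond W₀ ∧ Occ59 p W M ∧ ¬ p ∣ M
  · obtain ⟨h1, h3, h4⟩ := Nat.find_spec hA
    have hmin : ∀ M, M ∣ Nat.find hA → Occ59 p W M → M = Nat.find hA := by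
      intro M hM hocc
      have h5 := Nat.find_min' hA ⟨hM.trans h1, hocc, fun h => h4 (h.trans hM)⟩
      exact le_antisymm (Nat.le_of_dvd (Nat.pos_of_ne_zero (fun h0 => cond_ne_zero W₀
        (Nat.eq_zero_of_zero_dvd (h0 ▸ h1)))) hM) h5
    exact ⟨Nat.find hA, h3, (squarefree_cond W₀).squarefree_of_dvd h1, h1, hmin,
      fun h => absurd h h4, hfin _ h3 h1 hmin⟩
  · push Not at hA
    have hB : ∃ M, M ∣ cond W₀ ∧ Occ59 p W M := ⟨M₁, hM₁, hocc₁⟩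
    obtain ⟨h1, h3⟩ := Nat.find_spec hB
    have hmin : ∀ M, M ∣ Nat.find hB → Occ59 p W M → M = Nat.find hB := by
      intro M hM hocc
      have h5 := Nat.find_min' hB ⟨hM.trans h1, hocc⟩
      exact le_antisymm (Nat.le_of_dvd (Nat.pos_of_ne_zero (fun h0 => cond_ne_zero W₀
        (Nat.eq_zero_of_zero_dvd (h0 ▸ h1)))) hM) h5
    exact ⟨Nat.find hB, h3, (squarefree_cond W₀).squarefree_of_dvd h1, h1, hmin,
      fun _ => ⟨hM₁p (hA M₁ hM₁ hocc₁), hA⟩, hfin _ h3 h1 hmin⟩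

/-- Step L, when there are no primes to be removed by patching. -/
theorem stepL_ram (h35 : p = 3 ∨ p = 5) {W₀ : WeierstrassCurve ℤ} (hΔ : W.Δ ≠ 0)
    {N : ℕ} (hsq : Squarefree N) (hpN : p ∣ N → (p : ℤ) ∣ W.Δ)
    (hram : ∀ q : ℕ, q.Prime → q ∣ N → q ≠ p → ¬ (curveRho p W hΔ).IsUnramifiedAt q) :
    N ∣ cond W := by
  have hp : p.Prime := Fact.out
  refine dvd_cond_of_squarefree hΔ hsq fun q hq hqN => ?_
  by_cases hqp : q = p
  · subst hqp; exact hpN hqN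
  · by_contra h
    exact hram q hq hqN hqp (resRep_isUnramifiedAt W hΔ hq hqp h)

end occ

end Fermat.Agent.Wire
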