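import Fermat.Agent.Wire.UnrEmpty
import Fermat.Agent.Wire.StepL
import Fermat.Agent.LL.S59Ram
import Fermat.Agent.S33Lib.Fin
import Fermat.Agent.TWNew.Main
import Fermat.Agent.Twist.Spec
import Fermat.Agent.TWMod.SS

set_option autoImplicit false

/-!
# Step L of (59C)
-/

open CongruenceSubgroup IsLocalRing Polynomial ModularFormClass WeierstrassCurve Fermat.Agent.ECRep

namespace Fermat.Agent.Wire

theorem occ59_iff_occZ {p : ℕ} {W : WeierstrassCurve ℤ} {M : ℕ} :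
    Occ59 p W M ↔ LL.OccZ p (LL.cW W) M := by
  constructor
  · rintro ⟨h0, g, 𝔪, S, hg, h𝔪, hp, hc⟩
    exact ⟨h0, 𝔪, h𝔪, hp, g, S, hg, hc⟩
  · rintro ⟨h0, 𝔪, h𝔪, hp, g, S, hg, hc⟩
    exact ⟨h0, g, 𝔪, S, hg, h𝔪, hp, hc⟩

/-- **Step L.** -/
theorem stepLStmt : LL.StepLStmt := by
  classical
  intro p W h M₀ hsq₀ hocc₀ hp₀
  have hp : p.Prime := by rcases h.h35 with h | h <;> rw [h] <;> norm_num
  have : Fact p.Prime := ⟨hp⟩
  have hp2 : p ≠ 2 := by rcases h.h35 with rfl | rfl <;> norm_num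
  -- the ambient level
  set Nst : ℕ := ∏ q ∈ M₀.primeFactors ∪ (cond W).primeFactors, q with hNst
  have hpr : ∀ q ∈ M₀.primeFactors ∪ (cond W).primeFactors, q.Prime := by
    intro q hq
    rcases Finset.mem_union.mp hq with hq | hq <;> exact Nat.prime_of_mem_primeFactors hq
  have hNsq : Squarefree Nst := by
    refine Finset.squarefree_prod_of_pairwise_isCoprime (fun a ha b hb hab => ?_) fun a ha =>
      (hpr a ha).prime.squarefree
    exact Nat.coprime_iff_isRelPrime.mp ((Nat.coprime_primes (hpr a ha) (hpr b hb)).mpr hab)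
  have hdiv : ∀ M : ℕ, Squarefree M → (∀ q : ℕ, q.Prime → q ∣ M → q ∣ M₀ ∨ q ∣ cond W) →
      M ∣ Nst := by
    intro M hM hq
    rw [← Nat.prod_primeFactors_of_squarefree hM]
    refine Finset.prod_dvd_prod_of_subset _ _ _ fun q hqM => ?_
    have hq' := Nat.prime_of_mem_primeFactors hqM
    rcases hq q hq' (Nat.dvd_of_mem_primeFactors hqM) with h1 | h1
    · exact Finset.mem_union_left _ (Nat.mem_primeFactors.mpr ⟨hq', h1, hsq₀.ne_zero⟩)
    · exact Finset.mem_union_right _ (Nat.mem_primeFactors.mpr ⟨hq', h1, cond_ne_zero W⟩)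
  have hM₀ : M₀ ∣ Nst := hdiv M₀ hsq₀ fun q _ h1 => Or.inl h1
  -- the properties of a minimal level
  have hfin : ∀ N : ℕ, LL.OccZ p (LL.cW W) N → N ∣ Nst →
      (∀ M, M ∣ N → LL.OccZ p (LL.cW W) M → M = N) →
      ((p : ℤ) ∣ W.Δ ∨ ¬ p ∣ N) → (p ∣ N → ∀ M, M ∣ Nst → LL.OccZ p (LL.cW W) M → p ∣ M) →
      ∃ N0 : ℕ, LL.OccZ p (LL.cW W) N0 ∧ LL.LevOK W N0 ∧
        (∀ q : ℕ, q.Prime → q ∣ N0 → q ≠ p → ¬ p ∣ padicValInt q W.Δ) ∧
        (p = 3 → 2 ∣ N0) ∧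
        (p ∣ N0 → ∀ M : ℕ, LL.LevOK W M → LL.OccZ p (LL.cW W) M → p ∣ M) := by
    intro N hocc hN hmin hpΔ hall
    have hN0 : NeZero N := ⟨hocc.ne_zero⟩
    have hsq := hNsq.squarefree_of_dvd hN
    have h3 : p = 3 → 2 ∣ N := by
      intro hp3
      refine LL.dvd_of_ramified hp2 h.Δ_ne h.irr hocc Nat.prime_two (Ne.symm hp2) fun hu => ?_
      have h5 := (resRep_isUnramifiedAt_iff h.Δ_ne Nat.prime_two (Ne.symm hp2)
        (by exact_mod_cast h.two) (h.ss 2 Nat.prime_two (by exact_mod_cast h.two))).mp hu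
      rw [hp3] at h5
      exact h.three hp3 h5
    have hram := unr_empty LL.inputs (TWMod.specSS Twist.specTwist) TWNew.specNew TWLow.specLowerStrong
      S33Lib.nfOrdStmt h hsq hocc hmin
      (fun q hq hqN hqp hu => mp59 h.h35 h.Δ_ne h.ss h.irr h.two hsq (occ59_iff_occZ.mpr hocc)
        (fun M hM ho => hmin M hM (occ59_iff_occZ.mp ho)) hq hqN hqp hu) h3
    have hbad : ∀ q : ℕ, q.Prime → q ∣ N → q ≠ p → (q : ℤ) ∣ W.Δ := by
      intro q hq hqN hqp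
      by_contra hg
      exact hram q hq hqN hqp (resRep_isUnramifiedAt W h.Δ_ne hq hqp hg)
    refine ⟨N, hocc, ⟨hsq, fun q hq hqN => ?_⟩, fun q hq hqN hqp hd => ?_, h3,
      fun hpN M hM hoccM => hall hpN M (hdiv M hM.1 fun q hq hqM =>
        Or.inr ((dvd_cond h.Δ_ne hq).mpr (hM.2 q hq hqM))) hoccM⟩
    · by_cases hqp : q = p
      · subst hqp
        exact hpΔ.resolve_right (fun hh => hh hqN)
      · exact hbad q hq hqN hqp
    · have hqΔ := hbad q hq hqN hqp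
      exact hram q hq hqN hqp
        ((resRep_isUnramifiedAt_iff h.Δ_ne hq hqp hqΔ (h.ss q hq hqΔ)).mpr hd)
  by_cases hA : ∃ M, M ∣ Nst ∧ LL.OccZ p (LL.cW W) M ∧ ¬ p ∣ M
  · obtain ⟨h1, h3, h4⟩ := Nat.find_spec hA
    refine hfin (Nat.find hA) h3 h1 (fun M hM hocc => ?_) (Or.inr h4) (fun h5 => absurd h5 h4)
    have h5 := Nat.find_min' hA ⟨hM.trans h1, hocc, fun h => h4 (h.trans hM)⟩
    exact le_antisymm (Nat.le_of_dvd (Nat.pos_of_ne_zero h3.ne_zero) hM) h5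
  · push Not at hA
    have hB : ∃ M, M ∣ Nst ∧ LL.OccZ p (LL.cW W) M := ⟨M₀, hM₀, hocc₀⟩
    obtain ⟨h1, h3⟩ := Nat.find_spec hB
    refine hfin (Nat.find hB) h3 h1 (fun M hM hocc => ?_)
      (Or.inl (hp₀ (hA M₀ hM₀ hocc₀))) (fun _ => hA)
    have h5 := Nat.find_min' hB ⟨hM.trans h1, hocc⟩
    exact le_antisymm (Nat.le_of_dvd (Nat.pos_of_ne_zero h3.ne_zero) hM) h5

end Fermat.Agent.Wire
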