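import Fermat.Agent.Wire.ExactLevel

set_option autoImplicit false

/-!
# A Hecke polynomial killing all newforms of level dividing the conductor
-/

open IsLocalRing Polynomial WeierstrassCurve ModularFormClass

namespace Fermat.Agent.Wire

/-- finitely many ring homomorphisms from a finite `ℤ`-algebra to `ℂ` -/
theorem finite_ringHom (T : Type*) [CommRing T] [Module.Finite ℤ T] : Finite (T →+* ℂ) := by
  let A := TensorProduct ℤ ℚ T
  have : FiniteDimensional ℚ A := inferInstance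
  have h1 : Finite (A →ₐ[ℚ] ℂ) := inferInstance
  let Φ : (T →+* ℂ) → (A →ₐ[ℚ] ℂ) := fun χ =>
    Algebra.TensorProduct.lift (Algebra.ofId ℚ ℂ) χ.toIntAlgHom (fun _ _ => mul_comm _ _)
  refine Finite.of_injective Φ fun χ χ' h => ?_
  ext t
  have h2 := DFunLike.congr_fun h ((1 : ℚ) ⊗ₜ[ℤ] t : A)
  have e : ∀ χ : T →+* ℂ, Φ χ ((1 : ℚ) ⊗ₜ[ℤ] t : A) = χ t := by
    intro χ
    refine (Algebra.TensorProduct.lift_tmul _ _ _ _ _).trans ?_
    rw [map_one, one_mul]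
    rfl
  rwa [e, e] at h2

/-- finitely many newforms -/
theorem finite_newforms (M : ℕ) [NeZero M] :
    {f : CuspForm (CongruenceSubgroup.Gamma0 M) 2 | f.IsNewform}.Finite := by
  classical
  have hfin : Module.Finite ℤ (CuspForm.heckeAlgebra M 2 (∅ : Set ℕ)) :=
    Eichler.moduleFinite_heckeAlgebra 2 ∅
  have h1 : Finite (CuspForm.heckeAlgebra M 2 (∅ : Set ℕ) →+* ℂ) := finite_ringHom _
  choose χ hχ using fun (f : {f : CuspForm (CongruenceSubgroup.Gamma0 M) 2 | f.IsNewform}) =>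
    Eigenform.exists_eigenChar f.2.1 ∅
  let Φ : {f : CuspForm (CongruenceSubgroup.Gamma0 M) 2 | f.IsNewform} →
      (CuspForm.heckeAlgebra M 2 (∅ : Set ℕ) →+* ℂ) := fun f =>
    (integralClosure ℤ ℂ).val.toRingHom.comp (χ f)
  have h2 : Function.Injective Φ := by
    intro f f' h
    apply Subtype.ext
    refine Newform.eq_of_newform M.primeFactors f'.2 f.2.1 ?_
    intro l hl hlM
    have hlM' : ¬ l ∣ M := fun h => hlM (Nat.mem_primeFactors.mpr ⟨hl, h, NeZero.ne M⟩)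
    have key : ∀ f : {f : CuspForm (CongruenceSubgroup.Gamma0 M) 2 | f.IsNewform},
        (χ f (CuspForm.heckeAlgebra.T hl hlM' (Set.notMem_empty l)) : ℂ) = qCoeff f l := by
      intro f
      have h3 := hχ f (CuspForm.heckeAlgebra.T hl hlM' (Set.notMem_empty l))
      rw [CuspForm.heckeAlgebra.coe_T, Eigenform.heckeTLin_eigen f.2.1 hl hlM'] at h3
      exact smul_left_injective ℂ (Eigenform.ne_zero_of_isNormalizedEigenform f.2.1) h3.symm
    rw [← key f, ← key f']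
    exact DFunLike.congr_fun h (CuspForm.heckeAlgebra.T hl hlM' (Set.notMem_empty l))
  have h3 := Finite.of_injective Φ h2
  exact Set.toFinite _

/-- an integral polynomial killing one newform but not `W` -/
theorem exists_poly_one {W : WeierstrassCurve ℤ} (hΔ : W.Δ ≠ 0)
    (hW : ¬ Mlc1IsModularModelOfExactConductorLevel W) (S : Finset ℕ) {M : ℕ} [NeZero M]
    (hM : M ∣ cond W) {g : CuspForm (CongruenceSubgroup.Gamma0 M) 2} (hg : g.IsNewform) :
    ∃ F : MvPolynomial ℕ ℤ, (∀ ℓ ∈ F.vars, ℓ.Prime ∧ ℓ ∉ S) ∧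
      MvPolynomial.aeval (fun ℓ => qCoeff g ℓ) F = 0 ∧
      MvPolynomial.aeval (fun ℓ => W.apOfModel ℓ) F ≠ 0 := by
  classical
  obtain ⟨ℓ, hℓ, hℓS, hgood, hne⟩ : ∃ ℓ : ℕ, ℓ.Prime ∧ ℓ ∉ S ∧ W.IsGoodPrimeFor ℓ ∧
      qCoeff g ℓ ≠ (W.apOfModel ℓ : ℂ) := by
    by_contra hcon
    push Not at hcon
    refine hW (exactLevel_of_newform hΔ ((squarefree_cond W).squarefree_of_dvd hM)
      (fun q hq hqM => (dvd_cond hΔ hq).mp (hqM.trans hM)) hg S fun ℓ hℓ hS hgood =>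
        hcon ℓ hℓ hS hgood)
  obtain ⟨F₀, hF₀⟩ := TwoAdic.exists_coeff_gen hg.isNormalizedEigenform
  obtain ⟨a, -, ha⟩ := hF₀ ℓ hℓ
  have hint : IsIntegral ℤ (qCoeff g ℓ) := by rw [← ha]; exact a.2
  refine ⟨Polynomial.aeval (MvPolynomial.X ℓ) (minpoly ℤ (qCoeff g ℓ)), ?_, ?_, ?_⟩
  · intro l hl
    have h1 : (Polynomial.aeval (MvPolynomial.X ℓ : MvPolynomial ℕ ℤ)
        (minpoly ℤ (qCoeff g ℓ))).vars ⊆ {ℓ} := by
      rw [Polynomial.aeval_eq_sum_range]
      refine (MvPolynomial.vars_sum_subset _ _).trans ?_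
      rw [Finset.biUnion_subset]
      intro i _
      rw [Algebra.smul_def, MvPolynomial.algebraMap_eq]
      refine (MvPolynomial.vars_mul _ _).trans ?_
      rw [MvPolynomial.vars_C, Finset.empty_union]
      refine (MvPolynomial.vars_pow _ _).trans ?_
      rw [MvPolynomial.vars_X]
    rw [Finset.mem_singleton.mp (h1 hl)]
    exact ⟨hℓ, hℓS⟩
  · rw [← Polynomial.aeval_algHom_apply, MvPolynomial.aeval_X, minpoly.aeval]
  · rw [← Polynomial.aeval_algHom_apply, MvPolynomial.aeval_X]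
    intro h0
    have hroot : (minpoly ℤ (qCoeff g ℓ)).IsRoot (W.apOfModel ℓ) := by
      rwa [Polynomial.coe_aeval_eq_eval] at h0
    obtain ⟨Q, hQ⟩ := Polynomial.dvd_iff_isRoot.mpr hroot
    have hirr := minpoly.prime_of_isIntegrallyClosed hint
    have hXm : (X - C (W.apOfModel ℓ) : ℤ[X]).Monic := monic_X_sub_C _
    have h1 : minpoly ℤ (qCoeff g ℓ) = X - C (W.apOfModel ℓ) := by
      rcases hirr.irreducible.isUnit_or_isUnit hQ with h | h
      · exact absurd h (by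
          intro hu
          have := Polynomial.natDegree_eq_zero_of_isUnit hu
          rw [natDegree_X_sub_C] at this
          omega)
      · obtain ⟨c, hc, hc'⟩ := Polynomial.isUnit_iff.mp h
        have h2 := congrArg Polynomial.leadingCoeff hQ
        rw [(minpoly.monic hint).leadingCoeff, Polynomial.leadingCoeff_mul, hXm.leadingCoeff,
          one_mul, ← hc', leadingCoeff_C] at h2
        rw [hQ, ← hc', ← h2, C_1, mul_one]
    have h3 := minpoly.aeval ℤ (qCoeff g ℓ)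
    rw [h1, map_sub, aeval_X, aeval_C, sub_eq_zero] at h3
    exact hne h3

/-- **the polynomial `F`** -/
theorem exists_F {W : WeierstrassCurve ℤ} (hΔ : W.Δ ≠ 0)
    (hW : ¬ Mlc1IsModularModelOfExactConductorLevel W) (S : Finset ℕ) :
    ∃ F : MvPolynomial ℕ ℤ, (∀ ℓ ∈ F.vars, ℓ.Prime ∧ ℓ ∉ S) ∧
      (∀ (M : ℕ) (_ : NeZero M) (g : CuspForm (CongruenceSubgroup.Gamma0 M) 2), g.IsNewform →
        M ∣ cond W → MvPolynomial.aeval (fun ℓ => qCoeff g ℓ) F = 0) ∧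
      MvPolynomial.aeval (fun ℓ => W.apOfModel ℓ) F ≠ 0 := by
  classical
  -- one level
  have hlev : ∀ M : ℕ, ∃ F : MvPolynomial ℕ ℤ, (∀ ℓ ∈ F.vars, ℓ.Prime ∧ ℓ ∉ S) ∧
      (∀ (_ : NeZero M) (g : CuspForm (CongruenceSubgroup.Gamma0 M) 2), g.IsNewform →
        M ∣ cond W → MvPolynomial.aeval (fun ℓ => qCoeff g ℓ) F = 0) ∧
      MvPolynomial.aeval (fun ℓ => W.apOfModel ℓ) F ≠ 0 := by
    intro M
    by_cases hM : M ∣ cond W
    · have hM0 : M ≠ 0 := fun h => cond_ne_zero W (Nat.eq_zero_of_zero_dvd (h ▸ hM))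
      have : NeZero M := ⟨hM0⟩
      have hex : ∀ g ∈ (finite_newforms M).toFinset, ∃ F : MvPolynomial ℕ ℤ,
          (∀ ℓ ∈ F.vars, ℓ.Prime ∧ ℓ ∉ S) ∧
          MvPolynomial.aeval (fun ℓ => qCoeff g ℓ) F = 0 ∧
          MvPolynomial.aeval (fun ℓ => W.apOfModel ℓ) F ≠ 0 := fun g hg =>
        exists_poly_one hΔ hW S hM
          (show g.IsNewform from (Set.Finite.mem_toFinset (finite_newforms M)).mp hg)
      choose! F hF1 hF2 hF3 using hex
      refine ⟨∏ g ∈ (finite_newforms M).toFinset, F g, ?_, ?_, ?_⟩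
      · intro ℓ hℓ
        obtain ⟨g, hg, hg'⟩ := Finset.mem_biUnion.mp (MvPolynomial.vars_prod _ hℓ)
        exact hF1 g hg ℓ hg'
      · intro _ g hg _
        rw [map_prod]
        exact Finset.prod_eq_zero ((Set.Finite.mem_toFinset _).mpr hg)
          (hF2 g ((Set.Finite.mem_toFinset _).mpr hg))
      · rw [map_prod]
        exact Finset.prod_ne_zero_iff.mpr fun g hg => hF3 g hg
    · refine ⟨1, ?_, ?_, ?_⟩
      · intro ℓ hℓ
        rw [MvPolynomial.vars_one] at hℓ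
        exact absurd hℓ (Finset.notMem_empty _)
      · intro _ _ _ h
        exact absurd h hM
      · rw [map_one]; exact one_ne_zero
  choose F hF1 hF2 hF3 using hlev
  refine ⟨∏ M ∈ (cond W).divisors, F M, ?_, ?_, ?_⟩
  · intro ℓ hℓ
    obtain ⟨M, -, hM'⟩ := Finset.mem_biUnion.mp (MvPolynomial.vars_prod _ hℓ)
    exact hF1 M ℓ hM'
  · intro M hM0 g hg hM
    rw [map_prod]
    exact Finset.prod_eq_zero (Nat.mem_divisors.mpr ⟨hM, cond_ne_zero W⟩) (hF2 M hM0 g hg hM)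
  · rw [map_prod]
    exact Finset.prod_ne_zero_iff.mpr fun M _ => hF3 M

/-- `F` over a coefficient ring -/
theorem exists_F' {W : WeierstrassCurve ℤ} (hΔ : W.Δ ≠ 0)
    (hW : ¬ Mlc1IsModularModelOfExactConductorLevel W) (S : Finset ℕ) {𝒪 : Type} [CommRing 𝒪]
    [CharZero 𝒪] (j : 𝒪 →+* ℂ) :
    ∃ F : MvPolynomial ℕ 𝒪, (∀ ℓ ∈ F.vars, ℓ.Prime ∧ ℓ ∉ S) ∧
      (∀ (M : ℕ) (_ : NeZero M) (g : CuspForm (CongruenceSubgroup.Gamma0 M) 2), g.IsNewform →
        M ∣ cond W → MvPolynomial.eval₂ j (fun ℓ => qCoeff g ℓ) F = 0) ∧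
      MvPolynomial.eval (fun ℓ => ((W.apOfModel ℓ : ℤ) : 𝒪)) F ≠ 0 ∧
      MvPolynomial.aeval (fun ℓ => ((W.apOfModel ℓ : ℤ) : 𝒪)) F ≠ 0 := by
  obtain ⟨F, h1, h2, h3⟩ := exists_F hΔ hW S
  have h4 : MvPolynomial.eval (fun ℓ => ((W.apOfModel ℓ : ℤ) : 𝒪))
      (MvPolynomial.map (Int.castRingHom 𝒪) F) ≠ 0 := by
    rw [MvPolynomial.eval_map]
    have h5 : MvPolynomial.eval₂ (Int.castRingHom 𝒪) (fun ℓ => ((W.apOfModel ℓ : ℤ) : 𝒪)) F =
        Int.castRingHom 𝒪 (MvPolynomial.aeval (fun ℓ => W.apOfModel ℓ) F) := by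
      have := MvPolynomial.eval₂_comp_left (Int.castRingHom 𝒪) (RingHom.id ℤ)
        (fun ℓ => W.apOfModel ℓ) F
      rw [RingHom.comp_id] at this
      exact this.symm
    rw [h5]
    exact (map_ne_zero_iff _ (RingHom.injective_int _)).mpr h3
  refine ⟨MvPolynomial.map (Int.castRingHom 𝒪) F, ?_, ?_, h4, ?_⟩
  · intro ℓ hℓ
    exact h1 ℓ (MvPolynomial.vars_map _ _ hℓ)
  · intro M hM0 g hg hM
    rw [MvPolynomial.eval₂_map]
    have h5 : j.comp (Int.castRingHom 𝒪) = Int.castRingHom ℂ := RingHom.ext_int _ _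
    rw [h5]
    exact h2 M hM0 g hg hM
  · exact h4

end Fermat.Agent.Wire
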