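import Fermat.Agent.Ihara.NonEis
import Fermat.Agent.ECRep.FrobChar
import Fermat.Prelude.Def_FLTPrelim_ModularRep

set_option autoImplicit false

/-!
# `W[p]` irreducible is not Eisenstein
-/

open WeierstrassCurve Fermat.Agent.ECRep

namespace Fermat.Agent.Wire

variable {p : ℕ} [hp : Fact p.Prime] (W : WeierstrassCurve ℤ)

/-- For every modulus there is a prime `ℓ ≡ 1` outside a given finite set with
`a_ℓ(W) ≠ 1 + ℓ` modulo `p`. -/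
theorem noneis_W (hp2 : p ≠ 2) (hΔ : W.Δ ≠ 0) (hirr : W.ModRepIsIrreducible p) {k : Type*}
    [Field k] [CharP k p] (S : Finset ℕ) {m : ℕ} (hm : 0 < m) :
    ∃ ℓ : ℕ, ℓ.Prime ∧ ℓ ∉ S ∧ ℓ ≡ 1 [MOD m] ∧ W.IsGoodPrimeFor ℓ ∧
      ((W.apOfModel ℓ : ℤ) : k) ≠ 1 + ℓ := by
  obtain ⟨ℓ, hℓ, hℓS, h1, hg, h2⟩ := Ihara.exists_prime_ap W hΔ hp2
    (Ihara.irrAdd_of_irreducible (toRat W) hirr) hm.ne' S
  refine ⟨ℓ, hℓ, hℓS, h1, hg, fun h => h2 ?_⟩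
  have h3 : ((W.apOfModel ℓ - (ℓ + 1) : ℤ) : k) = 0 := by
    push_cast
    rw [h]
    ring
  exact (CharP.intCast_eq_zero_iff k p _).mp h3

end Fermat.Agent.Wire
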