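import Fermat.Agent.Wire.Top59
import Fermat.Agent.LL.S43All

/-!
# Fermat's Last Theorem
-/

set_option autoImplicit false

namespace Fermat.Agent.Wire

open Fermat.Agent.Wiring

/-- `S45` -/
theorem stmt45F : Stmt45 := stmt45T LL.stmt59C LL.stmt43

/-- `S03`: there is no Frey package. -/
theorem stmt03F (P : FreyPackage) : False := stmt03T LL.stmt59C LL.stmt43 P

/-- `S01`: **Fermat's Last Theorem.** -/
theorem stmt01F (n : ℕ) (hn : 3 ≤ n) (a b c : ℕ) (ha : 0 < a) (hb : 0 < b) (hc : 0 < c) :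
    a ^ n + b ^ n ≠ c ^ n :=
  stmt01T LL.stmt59C LL.stmt43 n hn a b c ha hb hc

end Fermat.Agent.Wire
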