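import Fermat.Agent.Wire.Top
import Fermat.Agent.LL.S59Fin

/-!
# Modularity of the Frey curve
-/

set_option autoImplicit false

namespace Fermat.Agent.Wire

open Fermat.Agent.Wiring

/-- `S06` -/
theorem stmt06F : Stmt06 := stmt06T LL.stmt59C

/-- `S04` -/
theorem stmt04F : Stmt04 := stmt04T LL.stmt59C

end Fermat.Agent.Wire
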