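import Mathlib

set_option autoImplicit false

/-!
# Finite sets of algebraic integers: roots of quadratic polynomials, roots of unity
-/

open Polynomial IsLocalRing

namespace Fermat.Agent.Wire

local notation "Zb" => integralClosure ℤ ℂ

/-- a finite set of algebraic integers such that the residue field of every ring `𝒪 ⊂ ℂ` containing
it splits all quadratic polynomials `X² - a X + b`, `a b : ℤ`. -/
theorem exists_split_finset {p : ℕ} (hp : p.Prime) : ∃ F : Finset Zb,
    ∀ (𝒪 : Type) [CommRing 𝒪] [IsLocalRing 𝒪] (_ : (p : 𝒪) ∈ maximalIdeal 𝒪) (j : 𝒪 →+* ℂ)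
      (_ : Function.Injective j) (_ : ∀ z ∈ F, ∃ a : 𝒪, j a = z) (a b : ℤ),
      ∃ α β : ResidueField 𝒪, (X ^ 2 - C (a : ResidueField 𝒪) * X + C (b : ResidueField 𝒪) :
        Polynomial (ResidueField 𝒪)) = (X - C α) * (X - C β) := by
  classical
  have hroot : ∀ a b : ℕ, ∃ r : Zb, (r : ℂ) ^ 2 - a * r + b = 0 := by
    intro a b
    have hdeg : (X ^ 2 - C (a : ℂ) * X + C (b : ℂ) : ℂ[X]).degree = 2 := by compute_degree!
    obtain ⟨r, hr⟩ := IsAlgClosed.exists_root (X ^ 2 - C (a : ℂ) * X + C (b : ℂ) : ℂ[X])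
      (by rw [hdeg]; norm_num)
    have hr' : r ^ 2 - a * r + b = 0 := by simpa [IsRoot.def] using hr
    refine ⟨⟨r, X ^ 2 - C (a : ℤ) * X + C (b : ℤ), by monicity!, ?_⟩, hr'⟩
    simpa using hr'
  choose r hr using hroot
  refine ⟨(Finset.range p ×ˢ Finset.range p).image fun x => r x.1 x.2, ?_⟩
  intro 𝒪 _ _ hp𝒪 j hj hF a b
  have hchar : (p : ResidueField 𝒪) = 0 := by
    rw [← map_natCast (residue 𝒪)]
    exact (residue_eq_zero_iff _).mpr hp𝒪
  have hmod : ∀ c : ℤ, ∃ n : ℕ, n < p ∧ (c : ResidueField 𝒪) = n := by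
    intro c
    refine ⟨(c % p).toNat, ?_, ?_⟩
    · have h1 := Int.emod_lt_of_pos c (by exact_mod_cast hp.pos : (0 : ℤ) < p)
      have h2 := Int.emod_nonneg c (by exact_mod_cast hp.ne_zero : (p : ℤ) ≠ 0)
      omega
    · have h2 := Int.emod_nonneg c (by exact_mod_cast hp.ne_zero : (p : ℤ) ≠ 0)
      have h3 : (((c % p).toNat : ℕ) : ResidueField 𝒪) = ((c % p : ℤ) : ResidueField 𝒪) := by
        rw [← Int.cast_natCast, Int.toNat_of_nonneg h2]
      rw [h3]
      conv_lhs => rw [← Int.emod_add_mul_ediv c p]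
      push_cast
      rw [hchar, zero_mul, add_zero]
  obtain ⟨a', ha', haa⟩ := hmod a
  obtain ⟨b', hb', hbb⟩ := hmod b
  obtain ⟨o, ho⟩ := hF (r a' b') (Finset.mem_image.mpr ⟨(a', b'),
    Finset.mem_product.mpr ⟨Finset.mem_range.mpr ha', Finset.mem_range.mpr hb'⟩, rfl⟩)
  have h1 : o ^ 2 - a' * o + b' = 0 := by
    apply hj
    rw [map_zero, map_add, map_sub, map_mul, map_pow, map_natCast, map_natCast, ho]
    exact hr a' b'
  refine ⟨residue 𝒪 o, (a' : ResidueField 𝒪) - residue 𝒪 o, ?_⟩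
  have h2 : (residue 𝒪 o) ^ 2 - a' * residue 𝒪 o + b' = 0 := by
    have := congrArg (residue 𝒪) h1
    simpa using this
  have h3 : (b' : ResidueField 𝒪) = residue 𝒪 o * ((a' : ResidueField 𝒪) - residue 𝒪 o) := by
    linear_combination h2
  rw [haa, hbb, h3, C_mul, C_sub]
  ring

/-- a finite set of algebraic integers containing all roots of unity of order `n`. -/
theorem exists_roots_finset (n : ℕ) (hn : 0 < n) : ∃ F : Finset Zb,
    ∀ z : ℂ, z ^ n = 1 → ∃ w ∈ F, (w : ℂ) = z := by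
  classical
  refine ⟨(nthRoots n (1 : Zb)).toFinset, fun z hz => ?_⟩
  have hint : IsIntegral ℤ z := by
    refine IsIntegral.of_pow hn ?_
    rw [hz]
    exact isIntegral_one
  refine ⟨⟨z, hint⟩, ?_, rfl⟩
  rw [Multiset.mem_toFinset, mem_nthRoots hn]
  apply Subtype.ext
  exact hz

end Fermat.Agent.Wire
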