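import Fermat.Agent.TwoAdic.NewRep
import Fermat.Agent.TwoAdic.Main
import Fermat.Agent.Wire.CongrAll

set_option autoImplicit false

/-!
# A newform whose eigenvalues agree with those of a semistable curve almost everywhere
-/

open IsLocalRing Polynomial WeierstrassCurve ModularFormClass Fermat.Agent.ECRep
  Fermat.Agent.DefRing

namespace Fermat.Agent.Wire

local notation "Γℚ" => (AlgebraicClosure ℚ ≃ₐ[ℚ] AlgebraicClosure ℚ)
local notation "Qb" => AlgebraicClosure ℚ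

/-- continuity of the trace -/
theorem trace_level {A : Type} [CommRing A] [IsLocalRing A] (ρ : GaloisRepAdic A) (n : ℕ) :
    ∃ L : IntermediateField ℚ Qb, FiniteDimensional ℚ L ∧ ∀ σ τ : Γℚ, (∀ x ∈ L, σ x = τ x) →
      LinearMap.trace A ρ.V (ρ.ρ σ) - LinearMap.trace A ρ.V (ρ.ρ τ) ∈ maximalIdeal A ^ n := by
  obtain ⟨r, hr⟩ := exists_realizes ρ
  obtain ⟨L, hL, h⟩ := hr.matCont n
  refine ⟨L, hL, fun σ τ hστ => ?_⟩
  have htr : ∀ g, LinearMap.trace A ρ.V (ρ.ρ g) = (r g).trace := by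
    obtain ⟨b, hb⟩ := hr
    intro g
    rw [LinearMap.trace_eq_matrix_trace A b, hb]
  have h2 : ∀ x ∈ L, (τ⁻¹ * σ) x = x := by
    intro x hx
    rw [AlgEquiv.mul_apply, hστ x hx]
    exact AlgEquiv.symm_apply_apply τ x
  have h3 : r σ - r τ = r τ * (r (τ⁻¹ * σ) - 1) := by
    rw [mul_sub, mul_one, ← hr.map_mul, mul_inv_cancel_left]
  rw [htr, htr, ← Matrix.trace_sub, h3, Matrix.trace]
  refine Ideal.sum_mem _ fun i _ => ?_
  rw [Matrix.diag_apply, Matrix.mul_apply]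
  exact Ideal.sum_mem _ fun k _ => Ideal.mul_mem_left _ _ (h _ h2 k i)

theorem trace_of_charpoly' {A V : Type} [CommRing A] [Nontrivial A] [AddCommGroup V] [Module A V]
    [Module.Free A V] [Module.Finite A V] (hV : Module.finrank A V = 2) {f : Module.End A V}
    {a b : A} (h : LinearMap.charpoly f = X ^ 2 - C a * X + C b) : LinearMap.trace A V f = a := by
  have h3 := Cheb.trace_det_of_charpoly_eq hV f (t := a) (d := b) h
  exact h3.1

/-- the eigenvalues agree at all primes outside the level and the discriminant -/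
theorem coeff_all {W : WeierstrassCurve ℤ} (hΔ : W.Δ ≠ 0) {M : ℕ} [NeZero M]
    {g : CuspForm (CongruenceSubgroup.Gamma0 M) 2} (hg : g.IsNewform) (s : Finset ℕ)
    (hs : ∀ ℓ : ℕ, ℓ.Prime → ℓ ∉ s → W.IsGoodPrimeFor ℓ → qCoeff g ℓ = (W.apOfModel ℓ : ℂ))
    {ℓ : ℕ} (hℓ : ℓ.Prime) (hgood : W.IsGoodPrimeFor ℓ) (hℓM : ¬ ℓ ∣ M) :
    qCoeff g ℓ = (W.apOfModel ℓ : ℂ) := by
  classical
  obtain ⟨p, hpℓ, hp⟩ := Nat.exists_infinite_primes (ℓ + 1)
  have hpl : ℓ ≠ p := by omega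
  have : Fact p.Prime := ⟨hp⟩
  obtain ⟨F, hF⟩ := TwoAdic.exists_coeff_gen hg.isNormalizedEigenform
  obtain ⟨𝔪, h𝔪, hp𝔪⟩ : ∃ 𝔪 : Ideal (integralClosure ℤ ℂ), 𝔪.IsMaximal ∧
      (p : integralClosure ℤ ℂ) ∈ 𝔪 := by
    have h1 : Ideal.span {(p : integralClosure ℤ ℂ)} ≠ ⊤ := by
      rw [Ne, Ideal.span_singleton_eq_top]
      rintro ⟨u, hu⟩
      have h2 : IsIntegral ℤ ((p : ℚ)⁻¹) := by
        have h3 : IsIntegral ℤ (((u⁻¹ : (integralClosure ℤ ℂ)ˣ) : integralClosure ℤ ℂ) : ℂ) :=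
          (((u⁻¹ : (integralClosure ℤ ℂ)ˣ) : integralClosure ℤ ℂ)).2
        have h4 : (((u⁻¹ : (integralClosure ℤ ℂ)ˣ) : integralClosure ℤ ℂ) : ℂ) =
            algebraMap ℚ ℂ ((p : ℚ)⁻¹) := by
          have h5 : ((u : (integralClosure ℤ ℂ)) : ℂ) *
              (((u⁻¹ : (integralClosure ℤ ℂ)ˣ) : integralClosure ℤ ℂ) : ℂ) = 1 := by
            rw [← Subalgebra.coe_mul, Units.mul_inv]; rfl
          rw [hu] at h5
          have h6 : (((p : integralClosure ℤ ℂ)) : ℂ) = (p : ℂ) := rfl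
          rw [h6] at h5
          rw [map_inv₀, map_natCast]
          exact eq_inv_of_mul_eq_one_right h5
        rw [h4] at h3
        exact (isIntegral_algebraMap_iff (algebraMap ℚ ℂ).injective).mp h3
      obtain ⟨n, hn⟩ := IsIntegrallyClosed.isIntegral_iff.mp h2
      have h7 : (p : ℚ) * (n : ℚ) = 1 := by
        have : (n : ℚ) = (p : ℚ)⁻¹ := by simpa using hn
        rw [this]
        exact mul_inv_cancel₀ (by exact_mod_cast hp.ne_zero)
      have h8 : (p : ℤ) * n = 1 := by exact_mod_cast h7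
      have h9 : (p : ℤ) ∣ 1 := ⟨n, h8.symm⟩
      have h10 := hp.one_lt
      have h11 := Int.le_of_dvd one_pos h9
      omega
    obtain ⟨𝔪, h𝔪, hle⟩ := Ideal.exists_le_maximal _ h1
    exact ⟨𝔪, h𝔪, hle (Ideal.mem_span_singleton_self _)⟩
  obtain ⟨O, i1, i2, i3, i4, i5, i6, hpO, j, -, hj, hFO, -⟩ := LL.oj p hp 𝔪 h𝔪 hp𝔪 F
  have hjF : ∀ l : ℕ, l.Prime → qCoeff g l ∈ j.range := by
    intro l hl
    obtain ⟨a, ha, ha'⟩ := hF l hl
    have key : ∀ z ∈ Submodule.span ℤ ((F : Finset _) : Set (integralClosure ℤ ℂ)),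
        ∃ b : O, j b = z := by
      intro z hz
      induction hz using Submodule.span_induction with
      | mem x hx => exact hFO x hx
      | zero => exact ⟨0, by rw [map_zero]; rfl⟩
      | add x y _ _ hx hy =>
        obtain ⟨b, hb⟩ := hx
        obtain ⟨c, hc⟩ := hy
        exact ⟨b + c, by rw [map_add, hb, hc]; rfl⟩
      | smul n x _ hx =>
        obtain ⟨b, hb⟩ := hx
        refine ⟨n • b, ?_⟩
        rw [map_zsmul, hb]
        rfl
    obtain ⟨b, hb⟩ := key a ha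
    exact ⟨b, by rw [← ha']; exact hb⟩
  -- the inverse of `j`
  let e : O ≃+* j.range := RingEquiv.ofBijective j.rangeRestrict
    ⟨fun x y h => hj (congrArg Subtype.val h), j.rangeRestrict_surjective⟩
  have he : ∀ (n : ℤ) (h : (n : ℂ) ∈ j.range), e.symm ⟨(n : ℂ), h⟩ = (n : O) := by
    intro n h
    rw [RingEquiv.symm_apply_eq]
    apply Subtype.ext
    show (n : ℂ) = j (n : O)
    rw [map_intCast]
  obtain ⟨R, j1, j2, j3, j4, j5, j6, f, hf, hfl, ρ, hρ⟩ :=
    LL.nf0 hg p hp (insert p M.primeFactors) (Finset.mem_insert_self _ _)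
      (fun q hq hqM => Finset.mem_insert_of_mem (Nat.mem_primeFactors.mpr ⟨hq, hqM, NeZero.ne M⟩))
      O hpO j.range (e.symm : j.range →+* O) (fun l hl _ => hjF l hl)
  have hpR : (p : R) ∈ maximalIdeal R := by
    have h1 := map_nonunit f _ hpO
    rwa [map_natCast] at h1
  have hℓS : ℓ ∉ insert p M.primeFactors := by
    rw [Finset.mem_insert, not_or]
    exact ⟨hpl, fun h => hℓM (Nat.dvd_of_mem_primeFactors h)⟩
  obtain ⟨A, hA⟩ := Frob.exists_liesOverPrime Qb hℓ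
  obtain ⟨σ, hσ⟩ := Frob.exists_isFrobeniusAt A hℓ hA
  have hℓ1 := trace_of_charpoly' ρ.finrank_eq (hρ ℓ hℓ hℓS A hA σ hσ)
  have hinj : Function.Injective (fun x : j.range => f ((e.symm : j.range →+* O) x)) :=
    hf.comp e.symm.injective
  -- the comparison
  have hWf : ∀ n : ℤ, f ((e.symm : j.range →+* O) ⟨(n : ℂ), ⟨(n : O), map_intCast j n⟩⟩) = (n : R) := by
    intro n
    have := he n ⟨(n : O), map_intCast j n⟩
    rw [RingEquiv.coe_toRingHom, this, map_intCast]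
  have key : ∀ n : ℕ, f ((e.symm : j.range →+* O) ⟨qCoeff g ℓ, hjF ℓ hℓ⟩) -
      ((W.apOfModel ℓ : ℤ) : R) ∈ maximalIdeal R ^ n := by
    intro n
    obtain ⟨L₁, hL₁, h1⟩ := trace_level ρ n
    obtain ⟨L₂, hL₂, h2⟩ := trace_level (tateRep (toRat W) p (toRat_Δ_ne_zero hΔ)) n
    have := IntermediateField.finiteDimensional_sup L₁ L₂
    obtain ⟨q, hq, hqS, -, B, hB, φ, hφ, hφσ⟩ := ChebFull.exists_frobenius_eq (L₁ ⊔ L₂) σ
      (s ∪ insert p M.primeFactors ∪ W.Δ.natAbs.primeFactors)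
    simp only [Finset.mem_union, not_or] at hqS
    obtain ⟨⟨hqs, hqS⟩, hqW⟩ := hqS
    have hqp : q ≠ p := fun h => hqS (by rw [h]; exact Finset.mem_insert_self _ _)
    have gq : W.IsGoodPrimeFor q := fun hd => hqW (Nat.mem_primeFactors.mpr
      ⟨hq, Int.natCast_dvd.mp hd, Int.natAbs_ne_zero.mpr hΔ⟩)
    have e1 := h1 σ φ fun x hx => (hφσ x (le_sup_left (a := L₁) hx)).symm
    have e2 := h2 σ φ fun x hx => (hφσ x (le_sup_right (a := L₁) hx)).symm
    rw [hℓ1, trace_of_charpoly' ρ.finrank_eq (hρ q hq hqS B hB φ hφ)] at e1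
    rw [trace_of_charpoly' (tateRep (toRat W) p (toRat_Δ_ne_zero hΔ)).finrank_eq
        (charpoly_frob W hΔ hℓ hpl hA hgood hσ),
      trace_of_charpoly' (tateRep (toRat W) p (toRat_Δ_ne_zero hΔ)).finrank_eq
        (charpoly_frob W hΔ hq hqp hB gq hφ)] at e2
    have e3 : f ((e.symm : j.range →+* O) ⟨qCoeff g q, hjF q hq⟩) = ((W.apOfModel q : ℤ) : R) := by
      rw [← hWf]
      congr 3
      exact hs q hq hqs gq
    rw [e3] at e1
    -- integers
    have e4 : ((p ^ n : ℕ) : ℤ) ∣ W.apOfModel ℓ - W.apOfModel q := by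
      rw [← Int.cast_sub, PadicInt.maximalIdeal_eq_span_p, Ideal.span_singleton_pow,
        Ideal.mem_span_singleton] at e2
      have := (PadicInt.norm_int_le_pow_iff_dvd (p := p)
        (k := W.apOfModel ℓ - W.apOfModel q) (n := n)).mp
        ((PadicInt.norm_le_pow_iff_mem_span_pow _ n).mpr
          (Ideal.mem_span_singleton.mpr e2))
      exact_mod_cast this
    obtain ⟨c, hc⟩ := e4
    have e5 : ((W.apOfModel q : ℤ) : R) - ((W.apOfModel ℓ : ℤ) : R) ∈ maximalIdeal R ^ n := by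
      have : ((W.apOfModel q : ℤ) : R) - ((W.apOfModel ℓ : ℤ) : R) = (p : R) ^ n * (-c : ℤ) := by
        rw [← Int.cast_sub]
        have h6 : W.apOfModel q - W.apOfModel ℓ = ((p ^ n : ℕ) : ℤ) * (-c) := by
          rw [mul_neg, ← hc]; ring
        rw [h6]; push_cast; ring
      rw [this]
      exact Ideal.mul_mem_right _ _ (Ideal.pow_mem_pow hpR n)
    have := Ideal.add_mem _ e1 e5
    rwa [sub_add_sub_cancel] at this
  have h0 : f ((e.symm : j.range →+* O) ⟨qCoeff g ℓ, hjF ℓ hℓ⟩) - ((W.apOfModel ℓ : ℤ) : R) = 0 :=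
    IsHausdorff.haus (I := maximalIdeal R) inferInstance _ fun n => by
      rw [SModEq.zero, smul_eq_mul, Ideal.mul_top]
      exact key n
  rw [sub_eq_zero, ← hWf] at h0
  exact congrArg Subtype.val (hinj h0)

/-- the conductor of a semistable model -/
def cond (W : WeierstrassCurve ℤ) : ℕ := ∏ q ∈ W.Δ.natAbs.primeFactors, q

theorem squarefree_cond (W : WeierstrassCurve ℤ) : Squarefree (cond W) := by
  unfold cond
  refine Finset.squarefree_prod_of_pairwise_isCoprime (fun a ha b hb hab => ?_) fun a ha =>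
    (Nat.prime_of_mem_primeFactors ha).prime.squarefree
  exact Nat.coprime_iff_isRelPrime.mp ((Nat.coprime_primes (Nat.prime_of_mem_primeFactors ha)
    (Nat.prime_of_mem_primeFactors hb)).mpr hab)

theorem cond_ne_zero (W : WeierstrassCurve ℤ) : cond W ≠ 0 := (squarefree_cond W).ne_zero

theorem dvd_cond {W : WeierstrassCurve ℤ} (hΔ : W.Δ ≠ 0) {q : ℕ} (hq : q.Prime) :
    q ∣ cond W ↔ (q : ℤ) ∣ W.Δ := by
  rw [cond, hq.prime.dvd_finsetProd_iff]
  constructor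
  · rintro ⟨r, hr, hqr⟩
    rw [(Nat.prime_dvd_prime_iff_eq hq (Nat.prime_of_mem_primeFactors hr)).mp hqr]
    exact Int.natCast_dvd.mpr (Nat.dvd_of_mem_primeFactors hr)
  · intro h
    exact ⟨q, Nat.mem_primeFactors.mpr ⟨hq, Int.natCast_dvd.mp h, Int.natAbs_ne_zero.mpr hΔ⟩,
      dvd_rfl⟩

theorem dvd_cond_of_squarefree {W : WeierstrassCurve ℤ} (hΔ : W.Δ ≠ 0) {M : ℕ}
    (hM : Squarefree M) (hMW : ∀ q : ℕ, q.Prime → q ∣ M → (q : ℤ) ∣ W.Δ) : M ∣ cond W := by
  rw [← Nat.prod_primeFactors_of_squarefree hM, cond]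
  refine Finset.prod_dvd_prod_of_subset _ _ _ fun q hq => ?_
  exact Nat.mem_primeFactors.mpr ⟨Nat.prime_of_mem_primeFactors hq,
    Int.natCast_dvd.mp (hMW q (Nat.prime_of_mem_primeFactors hq) (Nat.dvd_of_mem_primeFactors hq)),
    Int.natAbs_ne_zero.mpr hΔ⟩

/-- **modularity at the exact conductor** from a newform of level dividing the conductor. -/
theorem exactLevel_of_newform {W : WeierstrassCurve ℤ} (hΔ : W.Δ ≠ 0) {M : ℕ} [NeZero M]
    (hM : Squarefree M) (hMW : ∀ q : ℕ, q.Prime → q ∣ M → (q : ℤ) ∣ W.Δ)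
    {g : CuspForm (CongruenceSubgroup.Gamma0 M) 2} (hg : g.IsNewform) (s : Finset ℕ)
    (hs : ∀ ℓ : ℕ, ℓ.Prime → ℓ ∉ s → W.IsGoodPrimeFor ℓ → qCoeff g ℓ = (W.apOfModel ℓ : ℂ)) :
    Mlc1IsModularModelOfExactConductorLevel W := by
  obtain ⟨d, hd⟩ : M ∣ cond W := dvd_cond_of_squarefree hΔ hM hMW
  have hd0 : d ≠ 0 := by rintro rfl; exact cond_ne_zero W (by rw [hd, mul_zero])
  obtain ⟨f, hf, hfg⟩ := TwoAdic.exists_eigenform_mul d hd0 (NeZero.ne M)
    hg.isNormalizedEigenform hd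
  refine ⟨cond W, Nat.pos_of_ne_zero (cond_ne_zero W), squarefree_cond W,
    fun q hq => dvd_cond hΔ hq, f, hf, fun l hl hgood hlN => ?_⟩
  rw [hfg l hl fun h => hlN (hd ▸ h.mul_left M)]
  exact coeff_all hΔ hg s hs hl hgood fun h => hlN (hd ▸ h.mul_right d)

end Fermat.Agent.Wire
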