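import Fermat.Agent.Wire.Frey5
import Fermat.Agent.Wiring.Modularity
import Fermat.Agent.Wiring.FLT
import Fermat.Agent.KummerSmall.Frey
import Fermat.Agent.S05
import Fermat.Agent.S07
import Fermat.Agent.S08
import Fermat.Agent.S10
import Fermat.Agent.S11
import Fermat.Agent.S13
import Fermat.Agent.S51
import Fermat.Agent.S52

set_option autoImplicit false
open WeierstrassCurve WeierstrassCurve.Affine WeierstrassCurve.Affine.Point
open CuspForm ModularFormClass UpperHalfPlane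

/-!
# Final assembly of the Frey–Serre–Ribet–Wiles argument

Open inputs (everything else is landed):

* `LTFrey`   : Langlands–Tunnell for one curve `W'` with `W'[5] ≅ W[5]`, `W` the Frey curve;
* `Stmt59`   : modularity lifting (`S59`);
* `Stmt12`   : Mazur for `p ≥ 17` (`S12`);
* `Stmt43`, `Stmt44` : level lowering (`S43`, `S44`).
-/

namespace Fermat.Agent.Wire

open Fermat.Agent.Wiring

theorem stmt05 : Stmt05 := fun P _ hq hq2 hqp => Fermat.Agent.S05.result P hq hq2 hqp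

theorem stmt07 : Stmt07 := fun f => Fermat.Agent.S07.result f

theorem stmt08 : Stmt08 := fun f => Fermat.Agent.S08.result f

theorem stmt10 : Stmt10 := fun P hp => Fermat.Agent.S10.result P hp

theorem stmt11 : Stmt11 := fun P hp => Fermat.Agent.S11.result P hp

theorem stmt13 : Stmt13 := fun P hp => Fermat.Agent.S13.result P hp

theorem stmt51 : Stmt51 := fun W h h' => Fermat.Agent.S51.result W h h'

theorem stmt52 : Stmt52 := fun W h h' h5 => Fermat.Agent.S52.result W h h' h5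

/-- `S09` from `S12`. -/
theorem stmt09 (h12 : Stmt12) : Stmt09 := stmt09_of stmt10 stmt11 h12 stmt13

/-- A curve `W'` which is a good companion for the `3`-`5` switch: `W'[5] ≅ W[5]` and `W'[3]` is
irreducible and residually modular of controlled level. -/
def GoodCompanion (W W' : WeierstrassCurve ℤ) : Prop :=
  W'.Δ ≠ 0 ∧ W'.IsSemistableModel ∧ W'.ModRepIsIrreducible 3 ∧
    (∀ ℓ : ℕ, ℓ.Prime → W.IsGoodPrimeFor ℓ → W'.IsGoodPrimeFor ℓ →
      ℓ ≠ 5 → (5 : ℤ) ∣ (W'.apOfModel ℓ - W.apOfModel ℓ)) ∧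
    ∃ M : ℕ, 0 < M ∧ W'.IsResiduallyModularOfLevel 3 M ∧
      (∀ q : ℕ, q.Prime → q ≠ 3 → ¬ q ^ 3 ∣ M) ∧ ¬ 3 ^ 2 ∣ M

/-- The `3`-`5` switch. -/
theorem exact_of_companion (h59 : Stmt59) {W W' : WeierstrassCurve ℤ} (hΔ : W.Δ ≠ 0)
    (hW : W.IsSemistableModel) (h5 : W.ModRepIsIrreducible 5) (h : GoodCompanion W W') :
    Mlc1IsModularModelOfExactConductorLevel W := by
  obtain ⟨hΔ', hW', hirr', hcong, M, hM, hres, hcube, h9⟩ := h
  haveI : NeZero M := ⟨hM.ne'⟩
  obtain ⟨N, hN, hsq, hdvd, f, hf, hcoef⟩ :=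
    h59 3 (Or.inl rfl) W' hΔ' hW' hirr' M hres h9 hcube
  haveI : NeZero N := ⟨hN.ne'⟩
  have hsq' : ∀ q : ℕ, q.Prime → ¬ q ^ 2 ∣ N := by
    intro q hq hsqd
    exact Nat.squarefree_iff_prime_squarefree.mp hsq q hq (by rwa [← pow_two])
  refine h59 5 (Or.inr rfl) W hΔ hW h5 N ?_ (hsq' 5 (by norm_num)) ?_
  · obtain ⟨𝔪, hmax, hp⟩ := FLTPrelim.exists_maximalIdeal_natCast_prime_mem
      (p := 5) (by norm_num)
    refine ⟨f, 𝔪, hf, hmax, hp, ?_⟩
    intro ℓ hℓ hgood hℓN hℓ5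
    have hgood' : W'.IsGoodPrimeFor ℓ := fun hd => hℓN ((hdvd ℓ hℓ).2 hd)
    refine ⟨((W'.apOfModel ℓ : ℤ) : integralClosure ℤ ℂ), ?_, ?_⟩
    · rw [hcoef ℓ hℓ hgood' hℓN]; simp
    · obtain ⟨k, hk⟩ := hcong ℓ hℓ hgood hgood' hℓ5
      have : ((W'.apOfModel ℓ : ℤ) : integralClosure ℤ ℂ) -
          ((W.apOfModel ℓ : ℤ) : integralClosure ℤ ℂ) = ((5 : ℕ) : integralClosure ℤ ℂ) * (k : ℤ) := by
        rw [← Int.cast_sub, hk]; push_cast; ring
      rw [this]
      exact 𝔪.mul_mem_right _ hp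
  · intro q hq _ h3'
    exact hsq' q hq ((pow_dvd_pow q (by norm_num)).trans h3')

/-- The part of Langlands–Tunnell which is needed for Fermat. -/
def LTFrey : Prop := ∀ P : FreyPackage, 17 ≤ P.p →
  ∃ W' : WeierstrassCurve ℤ, GoodCompanion P.freyCurveInt W'

theorem frey_p_ge (P : FreyPackage) : 17 ≤ P.p := by
  by_contra hlt
  have h5 := P.hp5
  have pp := P.pp
  have hlt : P.p < 17 := not_le.1 hlt
  have : P.p = 5 ∨ P.p = 7 ∨ P.p = 11 ∨ P.p = 13 := by
    interval_cases h : P.p <;> simp_all (decide := true)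
  exact Fermat.Agent.KummerSmall.frey_false_of_small P this

theorem frey_exact (hLT : LTFrey) (h59 : Stmt59) (P : FreyPackage) :
    Mlc1IsModularModelOfExactConductorLevel P.freyCurveInt := by
  obtain ⟨W', hW'⟩ := hLT P (frey_p_ge P)
  exact exact_of_companion h59 (freyCurveInt_Δ_ne_zero P) (freyCurveInt_isSemistableModel P)
    (frey_modRepIsIrreducible_five P) hW'

/-- `S06`. -/
theorem stmt06 (hLT : LTFrey) (h59 : Stmt59) : Stmt06 :=
  stmt06_of_exactConductorLevel (frey_exact hLT h59)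

/-- `S04`. -/
theorem stmt04 (hLT : LTFrey) (h59 : Stmt59) : Stmt04 := by
  intro P
  obtain ⟨N, hN, hsq, hdvd, hmod⟩ := frey_exact hLT h59 P
  exact ⟨P.freyCurveInt, freyCurveInt_isIntegralModelOf P, N, hN, hmod⟩

/-- `S45`. -/
theorem stmt45 (hLT : LTFrey) (h59 : Stmt59) (h43 : Stmt43) (h44 : Stmt44) : Stmt45 :=
  stmt45_of stmt05 (stmt06 hLT h59) stmt08 h43 h44

/-- `S03`. -/
theorem stmt03 (hLT : LTFrey) (h59 : Stmt59) (h12 : Stmt12) (h43 : Stmt43) (h44 : Stmt44)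
    (P : FreyPackage) : False :=
  no_frey_of (stmt04 hLT h59) (stmt09 h12) (stmt45 hLT h59 h43 h44) stmt07 P

/-- `S01`, exactly as in the template. -/
theorem stmt01 (hLT : LTFrey) (h59 : Stmt59) (h12 : Stmt12) (h43 : Stmt43) (h44 : Stmt44)
    (n : ℕ) (hn : 3 ≤ n) (a b c : ℕ) (ha : 0 < a) (hb : 0 < b) (hc : 0 < c) :
    a ^ n + b ^ n ≠ c ^ n :=
  flt_of_no_frey (fun P => stmt03 hLT h59 h12 h43 h44 P) n hn a b c ha hb hc

/-- `S60` from the full Langlands–Tunnell (in the form needed at `p = 3`) and `S59`. -/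
theorem stmt60 (hLT : LT3) (h59 : Stmt59) : Stmt60 :=
  stmt60_of_exact (stmtExact_of hLT stmt51 stmt52 h59)

/-- Langlands–Tunnell for one companion of each semistable curve with irreducible `W[5]`. -/
def LTCompanion : Prop := ∀ W : WeierstrassCurve ℤ, W.Δ ≠ 0 → W.IsSemistableModel →
  W.ModRepIsIrreducible 5 → ∃ W' : WeierstrassCurve ℤ, GoodCompanion W W'

theorem ltFrey_of_companion (h : LTCompanion) : LTFrey := fun P _ =>
  h _ (freyCurveInt_Δ_ne_zero P) (freyCurveInt_isSemistableModel P)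
    (frey_modRepIsIrreducible_five P)

/-- `LT3` (the strong form of `S50`) implies the form needed for Fermat. -/
theorem ltCompanion_of_lt3 (h : LT3) : LTCompanion := by
  intro W hΔ hW h5
  obtain ⟨W', hΔ', hW', hirr', hcong⟩ := stmt52 W hΔ hW h5
  exact ⟨W', hΔ', hW', hirr', hcong, h W' hΔ' hW' hirr'⟩

end Fermat.Agent.Wire
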