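import Fermat.Agent.Wire.X020
import Fermat.Agent.Wiring.FreyModel
import Fermat.Agent.X015.Galois
import Fermat.Prelude.Def_FLTPrelim_ModularRep

set_option autoImplicit false

/-! The mod `5` representation of a Frey curve is irreducible (its discriminant is a square, and a
rational `5`-isogeny would give a non-cuspidal rational point on an elliptic curve of conductor
`20`). -/

namespace Fermat.Agent.Wire

open WeierstrassCurve

/-- A curve over `ℚ` with square discriminant has no rational cyclic subgroup of order `5`. -/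
theorem no_five_of_square {b2 b4 b6 b8 s p δ : ℚ} (hδ : δ ≠ 0) (hb : 4 * b8 = b2 * b6 - b4 ^ 2)
    (hΔ : δ ^ 2 = -b2 ^ 2 * b8 - 8 * b4 ^ 3 - 27 * b6 ^ 2 + 9 * b2 * b4 * b6)
    (hw : s ^ 2 - 4 * p ≠ 0)
    (h5a : s ^ 3 - 6 * p * s - b4 * s - b2 * p - b6 = 0)
    (h5b : s ^ 4 - 8 * s ^ 2 * p + 10 * p ^ 2 - b4 * s ^ 2 - 2 * b4 * p - b2 * p * s - 3 * b6 * s -
      2 * b8 = 0) : False := by
  obtain ⟨r, hr⟩ : ∃ r, s = 2 * r := ⟨s / 2, by ring⟩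
  obtain ⟨w, hw'⟩ : ∃ w, w = s ^ 2 - 4 * p := ⟨_, rfl⟩
  have hp : p = r ^ 2 - w / 4 := by rw [hw', hr]; ring
  rw [← hw'] at hw
  obtain ⟨B2, hB2⟩ : ∃ B2, B2 = b2 + 12 * r := ⟨_, rfl⟩
  obtain ⟨B4, hB4⟩ : ∃ B4, B4 = b4 + r * b2 + 6 * r ^ 2 := ⟨_, rfl⟩
  obtain ⟨B6, hB6⟩ : ∃ B6, B6 = b6 + 2 * r * b4 + r ^ 2 * b2 + 4 * r ^ 3 := ⟨_, rfl⟩
  obtain ⟨B8, hB8⟩ : ∃ B8, B8 = b8 + 3 * r * b6 + 3 * r ^ 2 * b4 + r ^ 3 * b2 + 3 * r ^ 4 := ⟨_, rfl⟩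
  have e6 : B6 = B2 * w / 4 := by
    rw [hB6, hB2]
    rw [hr, hp] at h5a
    linear_combination -h5a
  have e8 : B8 = 5 * w ^ 2 / 16 + B4 * w / 4 := by
    rw [hB8, hB4]
    rw [hr, hp] at h5b
    linear_combination (-1 / 2) * h5b
  have hb' : 4 * B8 = B2 * B6 - B4 ^ 2 := by
    rw [hB8, hB4, hB6, hB2]; linear_combination hb
  have hΔ' : δ ^ 2 = -B2 ^ 2 * B8 - 8 * B4 ^ 3 - 27 * B6 ^ 2 + 9 * B2 * B4 * B6 := by
    rw [hΔ, hB8, hB4, hB6, hB2]; linear_combination (6 * b2 * r + 36 * r ^ 2) * hb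
  clear hB8 hB4 hB6 hB2 h5a h5b hΔ hb
  have hrel : B2 ^ 2 * w = (2 * B4 + w) ^ 2 + 4 * w ^ 2 := by
    rw [e6, e8] at hb'; linear_combination -4 * hb'
  have hDw : δ ^ 2 = 2 * w ^ 2 * (B4 - 5 * w) := by
    rw [hΔ', e6, e8]; linear_combination (2 * B4 - 2 * w) * hrel
  -- `t = Δ / w³`
  have ht : (2 * (B4 - 5 * w) / w) ≠ 0 := by
    intro h0
    have h1 : 2 * (B4 - 5 * w) = 0 := by
      rcases div_eq_zero_iff.1 h0 with h | h
      · exact h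
      · exact absurd h hw
    have h2 : δ ^ 2 = 0 := by rw [hDw]; linear_combination w ^ 2 * h1
    exact hδ (by simpa using h2)
  apply no_rat_point (2 * (B4 - 5 * w) / w) (B2 * δ / w ^ 2) ht
  have e1 : (B2 * δ / w ^ 2) ^ 2 = B2 ^ 2 * (2 * w ^ 2 * (B4 - 5 * w)) / w ^ 4 := by
    rw [← hDw]; field_simp
  rw [e1]
  field_simp
  linear_combination -(B4 - 5 * w) * hrel

theorem frey_modRepIsIrreducible_five (P : FreyPackage) :
    P.freyCurveInt.ModRepIsIrreducible 5 := by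
  by_contra h5
  have hΔ := Wiring.freyCurveInt_Δ_ne_zero P
  have hΔ' : (P.freyCurveInt.map (Int.castRingHom ℚ)).Δ ≠ 0 := by
    rw [map_Δ]
    simpa using hΔ
  obtain ⟨s, p, hw, ha, hb⟩ := Fermat.Agent.X015.exists_rat_pair_five _ hΔ' h5
  have habc : ((P.a * P.b * P.c : ℤ) : ℚ) ≠ 0 := by exact_mod_cast P.habc0
  refine no_five_of_square (δ := ((P.a * P.b * P.c : ℤ) : ℚ) ^ P.p / 2 ^ 4) ?_
    (P.freyCurveInt.map (Int.castRingHom ℚ)).b_relation ?_ hw ha hb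
  · exact div_ne_zero (pow_ne_zero _ habc) (by norm_num)
  · have h1 : (P.freyCurveInt.map (Int.castRingHom ℚ)).Δ = ((P.freyCurveInt.Δ : ℤ) : ℚ) := map_Δ ..
    have h2 : ((2 ^ 8 * P.freyCurveInt.Δ : ℤ) : ℚ) = (((P.a * P.b * P.c) ^ (2 * P.p) : ℤ) : ℚ) := by
      rw [Wiring.freyCurveInt_Δ]
    have h3 : (P.freyCurveInt.map (Int.castRingHom ℚ)).Δ =
      (((P.a * P.b * P.c : ℤ) : ℚ) ^ P.p / 2 ^ 4) ^ 2 := by
      rw [h1, div_pow, ← pow_mul, eq_div_iff (by norm_num)]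
      push_cast at h2 ⊢
      rw [mul_comm P.p 2]
      linear_combination h2
    rw [← h3]
    rfl

end Fermat.Agent.Wire
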