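import Fermat.Agent.LL.S59Ram
import Fermat.Agent.LL.S59Def

set_option autoImplicit false

/-!
# Ramified primes divide the levels (the form used in Step L)
-/

open Polynomial WeierstrassCurve ModularFormClass CongruenceSubgroup

namespace Fermat.Agent.Wire

/-- the primes at which `W[p]` is ramified divide all the levels at which `W[p]` occurs -/
theorem dvd_of_ramified {p : ℕ} [Fact p.Prime] {W : WeierstrassCurve ℤ} (H : LL.Hyp59 p W) {M : ℕ}
    (hocc : LL.OccZ p (LL.cW W) M) {q : ℕ} (hq : q.Prime) (hqp : q ≠ p)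
    (hr : ¬ (curveRho p W H.Δ_ne).IsUnramifiedAt q) : q ∣ M :=
  LL.dvd_of_ramified (by rcases H.h35 with h | h <;> rw [h] <;> norm_num) H.Δ_ne H.irr hocc hq hqp
    hr

end Fermat.Agent.Wire
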