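import Fermat.Agent.Wire.QuadChar
import Fermat.Agent.LL.FreyRes
import Fermat.Agent.LL.Glue
import Fermat.Agent.ECRep.MultUnr
import Fermat.Agent.ECRep.MultRep

set_option autoImplicit false

/-!
# The residual representations `W[3]`, `W[5]` of a semistable curve
-/

open Matrix Polynomial WeierstrassCurve Fermat.Agent.ECRep

namespace Fermat.Agent.Wire

local notation "Γℚ" => (AlgebraicClosure ℚ ≃ₐ[ℚ] AlgebraicClosure ℚ)
local notation "Qb" => AlgebraicClosure ℚ

section lin

variable {F : Type*} [Field F] {Γ : Type*} [Group Γ] {K : Type*} [Field K] [Algebra F K]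

theorem sq_of_det {A : Matrix (Fin 2) (Fin 2) F} (hA : A * A = 1) (hdet : A.det = -1) :
    A 1 1 = - A 0 0 ∧ A 0 0 * A 0 0 + A 0 1 * A 1 0 = 1 := by
  have h00 := congrFun (congrFun hA 0) 0
  have h01 := congrFun (congrFun hA 0) 1
  have h10 := congrFun (congrFun hA 1) 0
  have h11 := congrFun (congrFun hA 1) 1
  rw [Matrix.det_fin_two] at hdet
  simp only [Matrix.mul_apply, Fin.sum_univ_two, Matrix.one_apply_eq, ne_eq, zero_ne_one,
    not_false_eq_true, Matrix.one_apply_ne, one_ne_zero] at h00 h01 h10 h11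
  have ht : A 0 0 + A 1 1 = 0 := by
    by_contra hne
    have e1 : A 0 1 = 0 := by
      have : A 0 1 * (A 0 0 + A 1 1) = 0 := by linear_combination h01
      exact (mul_eq_zero.mp this).resolve_right hne
    have e2 : A 1 0 = 0 := by
      have : A 1 0 * (A 0 0 + A 1 1) = 0 := by linear_combination h10
      exact (mul_eq_zero.mp this).resolve_right hne
    rw [e1, zero_mul, add_zero] at h00
    rw [e2, zero_mul, zero_add] at h11
    rw [e1, zero_mul, sub_zero] at hdet
    have h3 : (A 0 0 + A 1 1) * (A 0 0 + A 1 1) = 0 := by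
      linear_combination h00 + h11 + 2 * hdet
    exact hne (mul_self_eq_zero.mp h3)
  refine ⟨by linear_combination ht, h00⟩

/-- **irreducible + odd implies absolutely irreducible** (matrix form) -/
theorem no_eigenvector (r : Γ →* Matrix (Fin 2) (Fin 2) F) (h2 : (2 : F) ≠ 0) {c : Γ}
    (hc : r c * r c = 1) (hdet : (r c).det = -1)
    (hirr : ∀ v : Fin 2 → F, v ≠ 0 → ∃ γ, ∀ a : F, r γ *ᵥ v ≠ a • v)
    {w : Fin 2 → K} (hw : w ≠ 0) :
    ∃ γ, ∀ a : K, (r γ).map (algebraMap F K) *ᵥ w ≠ a • w := by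
  by_contra hcon
  push Not at hcon
  choose e he using hcon
  have hi := (algebraMap F K).injective
  have hE : ∀ γ i, algebraMap F K (r γ i 0) * w 0 + algebraMap F K (r γ i 1) * w 1 = e γ * w i := by
    intro γ i
    have := congrFun (he γ) i
    simpa [Matrix.mulVec, dotProduct, Fin.sum_univ_two] using this
  obtain ⟨v, hv, u, hu⟩ : ∃ v : Fin 2 → F, v ≠ 0 ∧ ∃ u : K, u ≠ 0 ∧ ∀ i, w i = u * algebraMap F K (v i) := by
    by_cases h0 : w 0 = 0
    · have h1 : w 1 ≠ 0 := by
        intro h1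
        apply hw
        ext i
        fin_cases i
        · exact h0
        · exact h1
      refine ⟨![0, 1], ?_, w 1, h1, ?_⟩
      · intro h
        have := congrFun h 1
        simp at this
      · intro i
        fin_cases i <;> simp [h0]
    · -- the ratio is rational
      obtain ⟨hd, hq⟩ := sq_of_det hc hdet
      set x := r c 0 0 with hx
      set y := r c 0 1 with hy
      set z := r c 1 0 with hz
      have e0 := hE c 0
      have e1 := hE c 1
      rw [← hx, ← hy] at e0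
      rw [← hz, hd, map_neg] at e1
      obtain ⟨t, ht⟩ : ∃ t : K, w 1 = t * w 0 := ⟨w 1 / w 0, by field_simp⟩
      have f0 : algebraMap F K x + algebraMap F K y * t = e c := by
        apply mul_right_cancel₀ h0
        rw [ht] at e0
        linear_combination e0
      have f1 : algebraMap F K z - algebraMap F K x * t = e c * t := by
        apply mul_right_cancel₀ h0
        rw [ht] at e1
        linear_combination e1
      have hq' : algebraMap F K x * algebraMap F K x + algebraMap F K y * algebraMap F K z = 1 := by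
        rw [← map_mul, ← map_mul, ← map_add, hq, map_one]
      have hee : e c * e c = 1 := by
        linear_combination (-(e c) - algebraMap F K x) * f0 - (algebraMap F K y) * f1 + hq'
      have he1 : e c = 1 ∨ e c = -1 := by
        have : (e c - 1) * (e c + 1) = 0 := by linear_combination hee
        rcases mul_eq_zero.mp this with h | h
        · exact Or.inl (by linear_combination h)
        · exact Or.inr (by linear_combination h)
      have hs : ∃ s : F, t = algebraMap F K s := by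
        obtain ⟨ε, hε⟩ : ∃ ε : F, e c = algebraMap F K ε := by
          rcases he1 with h | h
          · exact ⟨1, by rw [h, map_one]⟩
          · exact ⟨-1, by rw [h, map_neg, map_one]⟩
        by_cases hy0 : y = 0
        · rw [hy0, map_zero, zero_mul, add_zero] at f0
          rw [← f0] at f1
          have hx0 : x ≠ 0 := by
            rintro h
            rw [h, hy0] at hq
            simp at hq
          have hx2 : algebraMap F K (2 * x) ≠ 0 := by
            rw [Ne, map_eq_zero_iff _ hi]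
            exact mul_ne_zero h2 hx0
          refine ⟨z / (2 * x), ?_⟩
          rw [map_div₀, eq_div_iff hx2, map_mul, map_ofNat]
          linear_combination -f1
        · have hy' : algebraMap F K y ≠ 0 := by
            rw [Ne, map_eq_zero_iff _ hi]; exact hy0
          refine ⟨(ε - x) / y, ?_⟩
          rw [map_div₀, eq_div_iff hy', map_sub, ← hε]
          linear_combination f0
      obtain ⟨s, rfl⟩ := hs
      refine ⟨![1, s], ?_, w 0, h0, ?_⟩
      · intro h
        have := congrFun h 0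
        simp at this
      · intro i
        fin_cases i
        · simp
        · simp [ht, mul_comm]
  obtain ⟨hu, hwv⟩ := hu
  obtain ⟨γ, hγ⟩ := hirr v hv
  have key : ∀ i, algebraMap F K (r γ i 0 * v 0 + r γ i 1 * v 1) = e γ * algebraMap F K (v i) := by
    intro i
    have h := hE γ i
    rw [hwv 0, hwv 1, hwv i] at h
    apply mul_left_cancel₀ hu
    rw [map_add, map_mul, map_mul]
    linear_combination h
  obtain ⟨j, hj⟩ : ∃ j, v j ≠ 0 := by
    by_contra hcon
    push Not at hcon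
    exact hv (funext hcon)
  have hj' : algebraMap F K (v j) ≠ 0 := by
    rw [Ne, map_eq_zero_iff _ hi]; exact hj
  apply hγ ((r γ j 0 * v 0 + r γ j 1 * v 1) / v j)
  have heγ : e γ = algebraMap F K ((r γ j 0 * v 0 + r γ j 1 * v 1) / v j) := by
    rw [map_div₀, key j]
    field_simp
  ext i
  apply hi
  have := key i
  rw [heγ] at this
  simp only [Matrix.mulVec, dotProduct, Fin.sum_univ_two, Pi.smul_apply, smul_eq_mul]
  rw [this, map_mul]

end lin


section group

/-- in a finite `2`-group every proper subgroup is contained in a subgroup of index two -/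
theorem exists_index_two {Q : Type*} [Group Q] [Finite Q] (hQ : IsPGroup 2 Q) (C : Subgroup Q)
    (hC : C ≠ ⊤) : ∃ K : Subgroup Q, C ≤ K ∧ K.index = 2 := by
  haveI : Fact (Nat.Prime 2) := ⟨Nat.prime_two⟩
  obtain ⟨m, hm⟩ := IsPGroup.iff_card.mp hQ
  obtain ⟨n, hn⟩ := IsPGroup.iff_card.mp (hQ.to_subgroup C)
  have hlt : Nat.card C < Nat.card Q := by
    rcases (Subgroup.card_le_card_group C).lt_or_eq with h | h
    · exact h
    · exact absurd (Subgroup.eq_top_of_card_eq C h) hC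
  rw [hm, hn] at hlt
  have hnm : n < m := (Nat.pow_lt_pow_iff_right (by norm_num)).mp hlt
  obtain ⟨K, hK, hCK⟩ := Sylow.exists_subgroup_card_pow_prime_le 2 (m := m - 1)
    (by rw [hm]; exact pow_dvd_pow 2 (Nat.sub_le m 1)) C hn (by omega)
  refine ⟨K, hCK, ?_⟩
  have h1 := K.card_mul_index
  rw [hK, hm] at h1
  have h2 : 2 ^ m = 2 ^ (m - 1) * 2 := by rw [← pow_succ]; congr 1; omega
  rw [h2] at h1
  exact Nat.eq_of_mul_eq_mul_left (by positivity) h1

/-- a group hom with image of `2`-power exponent, such that `c` is not in any index two subgroup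
containing the kernel: the image is generated by the image of `c` -/
theorem generated_by {Γ M : Type*} [Group Γ] [Group M] [Finite M] (f : Γ →* M) {k : ℕ}
    (hk : ∀ σ, f σ ^ 2 ^ k = 1) (c : Γ)
    (h : ∀ G : Subgroup Γ, G.index = 2 → (∀ σ, f σ = 1 → σ ∈ G) → c ∉ G) (σ : Γ) :
    ∃ n : ℤ, f σ = f (c ^ n) := by
  have hfin : Finite (Γ ⧸ f.ker) := Finite.of_injective _ (QuotientGroup.kerLift_injective f)
  have hQ : IsPGroup 2 (Γ ⧸ f.ker) := by
    intro g
    obtain ⟨σ, rfl⟩ := QuotientGroup.mk_surjective g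
    refine ⟨k, ?_⟩
    rw [← QuotientGroup.mk_pow, QuotientGroup.eq_one_iff, MonoidHom.mem_ker, map_pow]
    exact hk σ
  have htop : Subgroup.zpowers (QuotientGroup.mk c : Γ ⧸ f.ker) = ⊤ := by
    by_contra hne
    obtain ⟨K, hK, hidx⟩ := exists_index_two hQ _ hne
    refine h (K.comap (QuotientGroup.mk' f.ker)) ?_ (fun σ hσ => ?_)
      (hK (Subgroup.mem_zpowers _))
    · rw [Subgroup.index_comap_of_surjective K (QuotientGroup.mk'_surjective _), hidx]
    · change (QuotientGroup.mk σ : Γ ⧸ f.ker) ∈ K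
      rw [(QuotientGroup.eq_one_iff σ).mpr (MonoidHom.mem_ker.mpr hσ)]
      exact K.one_mem
  have h1 : (QuotientGroup.mk σ : Γ ⧸ f.ker) ∈ Subgroup.zpowers (QuotientGroup.mk c : Γ ⧸ f.ker) := by
    rw [htop]; trivial
  obtain ⟨n, hn⟩ := h1
  refine ⟨n, ?_⟩
  have h2 : (QuotientGroup.mk (c ^ n) : Γ ⧸ f.ker) = QuotientGroup.mk σ := by
    rw [← hn]; rfl
  have h3 := congrArg (QuotientGroup.kerLift f) h2
  rw [QuotientGroup.kerLift_mk, QuotientGroup.kerLift_mk] at h3
  exact h3.symm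

end group

section rep

variable {l : ℕ} [hl : Fact l.Prime] (ρ : ResidualGaloisRep (ZMod l))

/-- the quadratic character of the determinant -/
noncomputable def psi : Γℚ →* ℤˣ :=
  (quadraticChar (ZMod l)).toUnitHom.comp (LinearMap.det.comp ρ.ρ).toHomUnits

theorem psi_coe (σ : Γℚ) : ((psi ρ σ : ℤˣ) : ℤ) = quadraticChar (ZMod l) (LinearMap.det (ρ.ρ σ)) :=
  rfl

theorem psi_eq_one_of {σ : Γℚ} (h : ρ.ρ σ = 1) : psi ρ σ = 1 := by
  apply Units.ext
  rw [psi_coe, h, map_one, Units.val_one, map_one]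

theorem psi_fin : GaloisFactorsThroughFiniteLevel (psi ρ) := by
  obtain ⟨L, hL, h⟩ := ρ.factorsThroughFiniteLevel
  exact ⟨L, hL, fun σ hσ => psi_eq_one_of ρ (h σ hσ)⟩

variable (hno : ∀ σ : Γℚ, ρ.ρ σ ^ l = 1 → ρ.ρ σ = 1)
  (hunip : ∀ q : ℕ, q.Prime → q ≠ l → ∀ A : ValuationSubring Qb, A.LiesOverPrime q →
    ∀ σ ∈ A.inertiaSubgroupIn ℚ, ρ.ρ σ ^ l = 1)

include hno hunip

theorem psi_unr : UnrOutside l (psi ρ) := fun q hq hql A hA σ hσ =>
  psi_eq_one_of ρ (hno σ (hunip q hq hql A hA σ hσ))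

/-- an index two subgroup containing the kernel of `ρ` is the kernel of `psi` -/
theorem idxChar_eq_psi (hl2 : l ≠ 2) {G : Subgroup Γℚ} (hG : G.index = 2)
    (hker : ∀ σ : Γℚ, ρ.ρ σ = 1 → σ ∈ G) (hψ : psi ρ ≠ 1) : idxChar G hG = psi ρ := by
  refine quad_unique hl.out hl2 _ _ ?_ (psi_fin ρ) ?_ (psi_unr ρ hno hunip) (idxChar_ne_one hG) hψ
  · obtain ⟨L, hL, h⟩ := ρ.factorsThroughFiniteLevel
    exact ⟨L, hL, fun σ hσ => idxChar_of_mem hG (hker σ (h σ hσ))⟩
  · intro q hq hql A hA σ hσ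
    exact idxChar_of_mem hG (hker σ (hno σ (hunip q hq hql A hA σ hσ)))

end rep

section three

theorem one_ne_neg_one_three : (1 : ZMod 3) ≠ -1 := by decide

variable (ρ : ResidualGaloisRep (ZMod 3))

theorem rho_pow_48 (σ : Γℚ) : ρ.ρ σ ^ 48 = 1 := by
  haveI : Fact (Nat.Prime 3) := ⟨Nat.prime_three⟩
  let g : Γℚ →* (Matrix (Fin 2) (Fin 2) (ZMod 3))ˣ := (LL.rm ρ).toHomUnits
  have hcard : Nat.card (GL (Fin 2) (ZMod 3)) = 48 := by
    rw [Matrix.card_GL_field, Fin.prod_univ_two, ZMod.card]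
    rfl
  have h1 : g σ ^ 48 = 1 := by
    have : g σ ^ Nat.card (GL (Fin 2) (ZMod 3)) = 1 := pow_card_eq_one'
    rwa [hcard] at this
  have h2 : LL.rm ρ σ ^ 48 = 1 := by
    have := congrArg Units.val h1
    simpa [g] using this
  rw [← map_pow] at h2 ⊢
  by_contra hne
  exact LL.rm_ne_one ρ hne h2

variable (hno : ∀ σ : Γℚ, ρ.ρ σ ^ 3 = 1 → ρ.ρ σ = 1)
  (hunip : ∀ q : ℕ, q.Prime → q ≠ 3 → ∀ A : ValuationSubring Qb, A.LiesOverPrime q →
    ∀ σ ∈ A.inertiaSubgroupIn ℚ, ρ.ρ σ ^ 3 = 1)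

include hno hunip

/-- `ρ` mod `3`, odd, without elements of order `3` and unramified outside `3`, is reducible. -/
theorem not_irreducible_three {c : Γℚ} (hc : c * c = 1) (hdet : LinearMap.det (ρ.ρ c) = -1) :
    ¬ ρ.IsIrreducible := by
  intro hirr
  haveI : Fact (Nat.Prime 3) := ⟨Nat.prime_three⟩
  -- all elements have order a power of two
  have h16 : ∀ σ : Γℚ, ρ.ρ σ ^ 2 ^ 4 = 1 := by
    intro σ
    have h1 : ρ.ρ (σ ^ 16) ^ 3 = 1 := by
      rw [map_pow, ← pow_mul]
      exact rho_pow_48 ρ σ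
    have h2 := hno _ h1
    rw [map_pow] at h2
    exact h2
  have hfinV : Finite ρ.V := by
    have : Module.Finite (ZMod 3) ρ.V := Module.Finite.of_basis (LL.rb ρ)
    exact Module.finite_of_finite (ZMod 3)
  have hfinE : Finite (Module.End (ZMod 3) ρ.V) :=
    Finite.of_injective (fun f : Module.End (ZMod 3) ρ.V => (f : ρ.V → ρ.V)) DFunLike.coe_injective
  have hψc : psi ρ c = -1 := by
    apply Units.ext
    rw [psi_coe, hdet]
    decide
  have hψ : psi ρ ≠ 1 := by
    intro h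
    rw [h, MonoidHom.one_apply] at hψc
    exact absurd hψc (by decide)
  -- the image is generated by `ρ c`
  have hpow : ∀ σ : Γℚ, ∃ n : ℤ, ρ.ρ σ = ρ.ρ (c ^ n) := by
    intro σ
    have hu : ∀ τ : Γℚ, ((ρ.ρ.toHomUnits τ : (Module.End (ZMod 3) ρ.V)ˣ) :
        Module.End (ZMod 3) ρ.V) = ρ.ρ τ := fun τ => rfl
    obtain ⟨n, hn⟩ := generated_by ρ.ρ.toHomUnits (k := 4) (fun τ => by
      apply Units.ext
      rw [Units.val_pow_eq_pow_val, hu, Units.val_one]
      exact h16 τ) c (fun G hG hker hcG => by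
      have h3 := idxChar_eq_psi ρ hno hunip (by norm_num) hG
        (fun τ hτ => hker τ (Units.ext hτ)) hψ
      have h4 := DFunLike.congr_fun h3 c
      rw [idxChar_of_mem hG hcG, hψc] at h4
      exact absurd h4 (by decide)) σ
    exact ⟨n, congrArg Units.val hn⟩
  -- a vector fixed by `c`
  obtain ⟨v, hv⟩ : ∃ v : ρ.V, v + ρ.ρ c v ≠ 0 := by
    by_contra hcon
    push Not at hcon
    have h1 : ρ.ρ c = -1 := by
      refine LinearMap.ext fun v => ?_
      rw [LinearMap.neg_apply, Module.End.one_apply]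
      exact (neg_eq_of_add_eq_zero_right (hcon v)).symm
    rw [h1] at hdet
    have h2 : LinearMap.det (-1 : Module.End (ZMod 3) ρ.V) = 1 := by
      have h3 : (-1 : Module.End (ZMod 3) ρ.V) = (-1 : ZMod 3) • (1 : Module.End (ZMod 3) ρ.V) := by
        rw [neg_smul, one_smul]
      rw [h3, LinearMap.det_smul, map_one, ρ.finrank_eq]
      norm_num
    rw [h2] at hdet
    exact one_ne_neg_one_three hdet
  have hcw : ρ.ρ c (v + ρ.ρ c v) = v + ρ.ρ c v := by
    rw [map_add, ← Module.End.mul_apply, ← map_mul, hc, map_one, Module.End.one_apply, add_comm]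
  have hfix : ∀ n : ℤ, ρ.ρ (c ^ n) (v + ρ.ρ c v) = v + ρ.ρ c v := by
    intro n
    have hc2 : c ^ (2 : ℤ) = 1 := by rw [zpow_two, hc]
    rcases Int.even_or_odd n with ⟨k, hk⟩ | ⟨k, hk⟩
    · have : c ^ n = 1 := by rw [hk, ← two_mul, _root_.zpow_mul, hc2, _root_.one_zpow]
      rw [this, map_one, Module.End.one_apply]
    · have : c ^ n = c := by rw [hk, _root_.zpow_add, _root_.zpow_mul, hc2, _root_.one_zpow, one_mul, zpow_one]
      rw [this, hcw]
  rcases hirr (Submodule.span (ZMod 3) {v + ρ.ρ c v}) (by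
    intro σ y hy
    obtain ⟨d, rfl⟩ := Submodule.mem_span_singleton.mp hy
    obtain ⟨n, hn⟩ := hpow σ
    rw [map_smul, hn, hfix]
    exact Submodule.smul_mem _ _ (Submodule.mem_span_singleton_self _)) with h | h
  · exact hv (Submodule.span_singleton_eq_bot.mp h)
  · have h1 : Module.finrank (ZMod 3) (Submodule.span (ZMod 3) {v + ρ.ρ c v}) ≤ 1 := by
      refine (finrank_span_le_card _).trans ?_
      simp
    rw [h, finrank_top, ρ.finrank_eq] at h1
    omega

end three


section five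

/-- if `M²` has the eigenvector `w` and `tr M ≠ 0` then `M` has it -/
theorem eigen_of_trace {K : Type*} [Field K] {M : Matrix (Fin 2) (Fin 2) K} {w : Fin 2 → K} {b : K}
    (h : (M * M) *ᵥ w = b • w) (ht : M 0 0 + M 1 1 ≠ 0) : ∃ a : K, M *ᵥ w = a • w := by
  have h0 := congrFun h 0
  have h1 := congrFun h 1
  simp only [Matrix.mulVec, dotProduct, Fin.sum_univ_two, Matrix.mul_apply, Pi.smul_apply,
    smul_eq_mul] at h0 h1
  refine ⟨(b + (M 0 0 * M 1 1 - M 0 1 * M 1 0)) / (M 0 0 + M 1 1), ?_⟩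
  ext i
  simp only [Matrix.mulVec, dotProduct, Fin.sum_univ_two, Pi.smul_apply, smul_eq_mul]
  rw [div_mul_eq_mul_div, eq_div_iff ht]
  fin_cases i
  · simp only [Fin.zero_eta]; linear_combination h0
  · simp only [Fin.mk_one]; linear_combination h1

variable {l : ℕ} [hl : Fact l.Prime] (ρ : ResidualGaloisRep (ZMod l))
  (hno : ∀ σ : Γℚ, ρ.ρ σ ^ l = 1 → ρ.ρ σ = 1)
  (hunip : ∀ q : ℕ, q.Prime → q ≠ l → ∀ A : ValuationSubring Qb, A.LiesOverPrime q →
    ∀ σ ∈ A.inertiaSubgroupIn ℚ, ρ.ρ σ ^ l = 1)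

theorem det_rm (σ : Γℚ) : (LL.rm ρ σ).det = LinearMap.det (ρ.ρ σ) := by
  rw [LL.rm_apply, LinearMap.det_toMatrix]

theorem trace_rm (σ : Γℚ) : LL.rm ρ σ 0 0 + LL.rm ρ σ 1 1 = LinearMap.trace _ _ (ρ.ρ σ) := by
  rw [LinearMap.trace_eq_matrix_trace _ (LL.rb ρ), ← LL.rm_apply, Matrix.trace_fin_two]

variable (K : Type*) [Field K] [Algebra (ZMod l) K]

theorem no_eigen_all (hl2 : l ≠ 2) (hirr : ρ.IsIrreducible) {c : Γℚ} (hc : c * c = 1)
    (hdet : LinearMap.det (ρ.ρ c) = -1) {w : Fin 2 → K} (hw : w ≠ 0) :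
    ∃ γ, ∀ a : K, (LL.rm ρ γ).map (algebraMap (ZMod l) K) *ᵥ w ≠ a • w := by
  have h2 : (2 : ZMod l) ≠ 0 := by
    intro h
    have h1 : ((2 : ℕ) : ZMod l) = 0 := by exact_mod_cast h
    rw [ZMod.natCast_eq_zero_iff] at h1
    exact hl2 ((Nat.prime_dvd_prime_iff_eq hl.out Nat.prime_two).mp h1)
  refine no_eigenvector (LL.rm ρ) h2 (c := c) ?_ ?_ (LL.rm_irr ρ hirr) hw
  · rw [← map_mul, hc, map_one]
  · rw [det_rm, hdet]

include hno hunip in
/-- the restriction to subgroups of index two -/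
theorem no_eigen_index_two (hl2 : l ≠ 2) (hirr : ρ.IsIrreducible) {c : Γℚ} (hc : c * c = 1)
    (hdet : LinearMap.det (ρ.ρ c) = -1) {φ : Γℚ} (hφ : psi ρ φ = -1)
    (htr : LinearMap.trace _ _ (ρ.ρ φ) ≠ 0) {G : Subgroup Γℚ} (hG : G.index = 2)
    {w : Fin 2 → K} (hw : w ≠ 0) :
    ∃ γ ∈ G, ∀ a : K, (LL.rm ρ γ).map (algebraMap (ZMod l) K) *ᵥ w ≠ a • w := by
  by_contra hcon
  push Not at hcon
  have hmul : ∀ γ γ' : Γℚ, (LL.rm ρ (γ * γ')).map (algebraMap (ZMod l) K) =
      (LL.rm ρ γ).map (algebraMap (ZMod l) K) * (LL.rm ρ γ').map (algebraMap (ZMod l) K) := by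
    intro γ γ'
    rw [map_mul, Matrix.map_mul]
  -- an element outside `G` with eigenvector `w` gives a contradiction
  have key : ∀ σ : Γℚ, σ ∉ G → ∀ a : K,
      (LL.rm ρ σ).map (algebraMap (ZMod l) K) *ᵥ w = a • w → False := by
    intro σ hσ a ha
    obtain ⟨γ, hγ⟩ := no_eigen_all ρ K hl2 hirr hc hdet hw
    by_cases hγG : γ ∈ G
    · obtain ⟨b, hb⟩ := hcon γ hγG
      exact hγ b hb
    · have h1 : σ⁻¹ * γ ∈ G := by
        rw [Subgroup.mul_mem_iff_of_index_two hG, inv_mem_iff]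
        simp [hσ, hγG]
      obtain ⟨b, hb⟩ := hcon _ h1
      apply hγ (b * a)
      have h2 : γ = σ * (σ⁻¹ * γ) := by group
      rw [h2, hmul, ← Matrix.mulVec_mulVec, hb, Matrix.mulVec_smul, ha, smul_smul]
  -- the kernel is contained in `G`
  have hker : ∀ σ : Γℚ, ρ.ρ σ = 1 → σ ∈ G := by
    intro σ hσ
    by_contra hσG
    refine key σ hσG 1 ?_
    rw [LL.rm_apply, hσ, LinearMap.toMatrix_one, Matrix.map_one _ (map_zero _) (map_one _),
      Matrix.one_mulVec, one_smul]
  have hψ : psi ρ ≠ 1 := by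
    intro h
    rw [h, MonoidHom.one_apply] at hφ
    exact absurd hφ (by decide)
  have hidx := idxChar_eq_psi ρ hno hunip hl2 hG hker hψ
  have hφG : φ ∉ G := by
    intro h
    have h1 := DFunLike.congr_fun hidx φ
    rw [idxChar_of_mem hG h, hφ] at h1
    exact absurd h1 (by decide)
  have hφφ : φ * φ ∈ G := by
    rw [Subgroup.mul_mem_iff_of_index_two hG]
  obtain ⟨b, hb⟩ := hcon _ hφφ
  rw [hmul] at hb
  obtain ⟨a, ha⟩ := eigen_of_trace hb (by
    rw [Matrix.map_apply, Matrix.map_apply, ← map_add, trace_rm, Ne,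
      map_eq_zero_iff _ (algebraMap (ZMod l) K).injective]
    exact htr)
  exact key φ hφG a ha

end five

section baseChange

variable {l : ℕ} [hl : Fact l.Prime] (ρ : ResidualGaloisRep (ZMod l))
variable (k : Type) [Field k] [Algebra (ZMod l) k] (K : Type) [Field K] [Algebra k K]

/-- from submodules to eigenvectors -/
theorem bot_or_top_of_no_eigen (G : Subgroup Γℚ)
    (h : ∀ w : Fin 2 → K, w ≠ 0 → ∃ γ ∈ G, ∀ a : K, (LL.rm ρ γ).map
      ((algebraMap k K).comp (algebraMap (ZMod l) k)) *ᵥ w ≠ a • w)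
    (V : Submodule K ((ρ.baseChange k).baseChange K).V)
    (hV : ∀ τ ∈ G, ∀ x ∈ V, ((ρ.baseChange k).baseChange K).ρ τ x ∈ V) : V = ⊥ ∨ V = ⊤ := by
  by_contra hcon
  push Not at hcon
  let b' : Module.Basis (Fin 2) K ((ρ.baseChange k).baseChange K).V :=
    Algebra.TensorProduct.basis K (Algebra.TensorProduct.basis k (LL.rb ρ))
  obtain ⟨w, hw, hw2⟩ := LL.exists_eigenvector b' ((ρ.baseChange k).baseChange K).ρ V hcon.1 hcon.2
  obtain ⟨g, hg, hgw⟩ := h w hw
  obtain ⟨c, hc⟩ := hw2 g (hV g hg)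
  apply hgw c
  rw [← hc]
  congr 1
  have h3 : LinearMap.toMatrix b' b' (((ρ.baseChange k).baseChange K).ρ g) =
      ((LinearMap.toMatrix (LL.rb ρ) (LL.rb ρ) (ρ.ρ g)).map (algebraMap (ZMod l) k)).map
        (algebraMap k K) := by
    have h4 := LinearMap.toMatrix_baseChange (A := k) (ρ.ρ g) (LL.rb ρ) (LL.rb ρ)
    have h5 := LinearMap.toMatrix_baseChange (A := K) ((ρ.ρ g).baseChange k)
      (Algebra.TensorProduct.basis k (LL.rb ρ)) (Algebra.TensorProduct.basis k (LL.rb ρ))
    rw [h4] at h5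
    exact h5
  rw [h3, LL.rm_apply, Matrix.map_map]
  rfl

end baseChange

end Fermat.Agent.Wire
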