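import Fermat.Agent.Wire.StepL
import Fermat.Agent.LL.S59Def

set_option autoImplicit false

/-!
# Step L for (59C): packaging
-/

open Polynomial WeierstrassCurve ModularFormClass CongruenceSubgroup Fermat.Agent.ECRep

namespace Fermat.Agent.Wire

local notation "Γℚ" => (AlgebraicClosure ℚ ≃ₐ[ℚ] AlgebraicClosure ℚ)
local notation "Qb" => AlgebraicClosure ℚ

/-- no unramified primes at a minimal level -/
def UnrEmpty59 : Prop :=
  ∀ {p : ℕ} [Fact p.Prime] {W : WeierstrassCurve ℤ} (h : LL.Hyp59 p W) {N : ℕ},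
    Squarefree N → LL.OccZ p (LL.cW W) N →
    (∀ M : ℕ, M ∣ N → LL.OccZ p (LL.cW W) M → M = N) →
    (∀ q : ℕ, q.Prime → q ∣ N → q ≠ p → (curveRho p W h.Δ_ne).IsUnramifiedAt q →
      p ∣ q - 1 ∧ ∀ P : ValuationSubring Qb, P.LiesOverPrime q → ∀ σ : Γℚ,
        P.IsFrobeniusAt σ q → (curveRho p W h.Δ_ne).ρ σ = 1 ∨ (curveRho p W h.Δ_ne).ρ σ = -1) →
    ∀ q : ℕ, q.Prime → q ∣ N → q ≠ p → ¬ (curveRho p W h.Δ_ne).IsUnramifiedAt q

/-- ramified primes divide the levels -/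
def DvdRam59 : Prop :=
  ∀ {p : ℕ} [Fact p.Prime] {W : WeierstrassCurve ℤ} (h : LL.Hyp59 p W) {M : ℕ},
    LL.OccZ p (LL.cW W) M → ∀ {q : ℕ}, q.Prime → q ≠ p →
    ¬ (curveRho p W h.Δ_ne).IsUnramifiedAt q → q ∣ M

theorem occ59_iff {p : ℕ} {W : WeierstrassCurve ℤ} {M : ℕ} :
    Occ59 p W M ↔ LL.OccZ p (LL.cW W) M := by
  constructor
  · rintro ⟨h0, g, 𝔪, S, hg, h𝔪, hp𝔪, hc⟩
    exact ⟨h0, 𝔪, h𝔪, hp𝔪, g, S, hg, hc⟩
  · rintro ⟨h0, 𝔪, h𝔪, hp𝔪, g, S, hg, hc⟩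
    exact ⟨h0, g, 𝔪, S, hg, h𝔪, hp𝔪, hc⟩

/-- a minimal level, not divisible by `p` if possible -/
theorem exists_min_level {Q : ℕ → Prop} {p Ns : ℕ} (hNs : Ns ≠ 0) {M₀ : ℕ} (hM₀ : M₀ ∣ Ns)
    (hQ : Q M₀) : ∃ N0 : ℕ, N0 ∣ Ns ∧ Q N0 ∧ (∀ M, M ∣ N0 → Q M → M = N0) ∧
      (p ∣ N0 → ∀ M, M ∣ Ns → Q M → p ∣ M) := by
  classical
  have hne : ∀ M, M ∣ Ns → 0 < M := fun M hM =>
    Nat.pos_of_ne_zero fun h0 => hNs (Nat.eq_zero_of_zero_dvd (h0 ▸ hM))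
  by_cases hA : ∃ M, M ∣ Ns ∧ Q M ∧ ¬ p ∣ M
  · obtain ⟨h1, h3, h4⟩ := Nat.find_spec hA
    refine ⟨Nat.find hA, h1, h3, fun M hM hocc => ?_, fun h => absurd h h4⟩
    have h5 := Nat.find_min' hA ⟨hM.trans h1, hocc, fun h => h4 (h.trans hM)⟩
    exact le_antisymm (Nat.le_of_dvd (hne _ h1) hM) h5
  · push Not at hA
    have hB : ∃ M, M ∣ Ns ∧ Q M := ⟨M₀, hM₀, hQ⟩
    obtain ⟨h1, h3⟩ := Nat.find_spec hB
    refine ⟨Nat.find hB, h1, h3, fun M hM hocc => ?_, fun _ => hA⟩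
    have h5 := Nat.find_min' hB ⟨hM.trans h1, hocc⟩
    exact le_antisymm (Nat.le_of_dvd (hne _ h1) hM) h5

/-- a squarefree number divides the product of a set of primes containing its prime factors -/
theorem dvd_prod_primes {M : ℕ} (hM : Squarefree M) {s : Finset ℕ}
    (h : ∀ q : ℕ, q.Prime → q ∣ M → q ∈ s) : M ∣ ∏ q ∈ s, q := by
  rw [← Nat.prod_primeFactors_of_squarefree hM]
  exact Finset.prod_dvd_prod_of_subset _ _ _ fun q hq =>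
    h q (Nat.prime_of_mem_primeFactors hq) (Nat.dvd_of_mem_primeFactors hq)

theorem squarefree_prod_primes {s : Finset ℕ} (hs : ∀ q ∈ s, q.Prime) :
    Squarefree (∏ q ∈ s, q) :=
  Finset.squarefree_prod_of_pairwise_isCoprime (fun a ha b hb hab =>
    Nat.coprime_iff_isRelPrime.mp ((Nat.coprime_primes (hs a ha) (hs b hb)).mpr hab))
    fun q hq => (hs q hq).prime.squarefree

theorem mem_of_dvd_prod_primes {s : Finset ℕ} (hs : ∀ q ∈ s, q.Prime) {q : ℕ} (hq : q.Prime)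
    (h : q ∣ ∏ r ∈ s, r) : q ∈ s := by
  obtain ⟨r, hr, hqr⟩ := (hq.prime.dvd_finsetProd_iff _).mp h
  rw [(Nat.prime_dvd_prime_iff_eq hq (hs r hr)).mp hqr]
  exact hr

/-- **Step L.** -/
theorem stepLStmt_of (hU : UnrEmpty59) (hR : DvdRam59) : LL.StepLStmt := by
  classical
  intro p W h M₀ hsq hocc hpM₀
  have hp : p.Prime := by rcases h.h35 with h | h <;> rw [h] <;> norm_num
  have : Fact p.Prime := ⟨hp⟩
  have hΔ := h.Δ_ne
  let s : Finset ℕ := M₀.primeFactors ∪ W.Δ.natAbs.primeFactors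
  have hs : ∀ q ∈ s, q.Prime := by
    intro q hq
    rcases Finset.mem_union.mp hq with hq | hq <;> exact Nat.prime_of_mem_primeFactors hq
  have hmem : ∀ q : ℕ, q.Prime → (q ∈ s ↔ q ∣ M₀ ∨ (q : ℤ) ∣ W.Δ) := by
    intro q hq
    rw [Finset.mem_union, Nat.mem_primeFactors, Nat.mem_primeFactors, Int.natCast_dvd]
    constructor
    · rintro (h1 | h1)
      · exact Or.inl h1.2.1
      · exact Or.inr h1.2.1
    · rintro (h1 | h1)
      · exact Or.inl ⟨hq, h1, hocc.ne_zero⟩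
      · exact Or.inr ⟨hq, h1, Int.natAbs_ne_zero.mpr hΔ⟩
  have hNsq := squarefree_prod_primes hs
  obtain ⟨N0, h1, h3, h4, h5⟩ := exists_min_level (p := p) (Q := LL.OccZ p (LL.cW W)) hNsq.ne_zero
    (dvd_prod_primes hsq fun q hq hqM => (hmem q hq).mpr (Or.inl hqM)) hocc
  have hN0sq : Squarefree N0 := hNsq.squarefree_of_dvd h1
  have hN00 : NeZero N0 := ⟨hN0sq.ne_zero⟩
  have hmp : ∀ q : ℕ, q.Prime → q ∣ N0 → q ≠ p → (curveRho p W h.Δ_ne).IsUnramifiedAt q →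
      p ∣ q - 1 ∧ ∀ P : ValuationSubring Qb, P.LiesOverPrime q → ∀ σ : Γℚ,
        P.IsFrobeniusAt σ q → (curveRho p W h.Δ_ne).ρ σ = 1 ∨
          (curveRho p W h.Δ_ne).ρ σ = -1 := fun q hq hqN hqp hunr =>
    mp59 h.h35 hΔ h.ss h.irr h.two hN0sq (occ59_iff.mpr h3)
      (fun M hM hoccM => h4 M hM (occ59_iff.mp hoccM)) hq hqN hqp hunr
  have hram := hU h hN0sq h3 h4 hmp
  have hbad : ∀ q : ℕ, q.Prime → q ∣ N0 → q ≠ p → (q : ℤ) ∣ W.Δ := by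
    intro q hq hqN hqp
    by_contra hg
    exact hram q hq hqN hqp (resRep_isUnramifiedAt W hΔ hq hqp hg)
  have hv : ∀ q : ℕ, q.Prime → q ≠ p → (q : ℤ) ∣ W.Δ →
      ((curveRho p W hΔ).IsUnramifiedAt q ↔ p ∣ padicValInt q W.Δ) := fun q hq hqp hqΔ =>
    resRep_isUnramifiedAt_iff hΔ hq hqp hqΔ (h.ss q hq hqΔ)
  refine ⟨N0, h3, ⟨hN0sq, fun q hq hqN => ?_⟩, fun q hq hqN hqp hd => ?_, fun hp3 => ?_,
    fun hpN M hM hoccM => ?_⟩
  · by_cases hqp : q = p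
    · subst hqp
      rcases (hmem q hq).mp (mem_of_dvd_prod_primes hs hq (hqN.trans h1)) with h6 | h6
      · exact hpM₀ h6
      · exact h6
    · exact hbad q hq hqN hqp
  · exact hram q hq hqN hqp ((hv q hq hqp (hbad q hq hqN hqp)).mpr hd)
  · have h2p : (2 : ℕ) ≠ p := by omega
    have h2d : ((2 : ℕ) : ℤ) ∣ W.Δ := by exact_mod_cast h.two
    refine hR h h3 Nat.prime_two h2p fun hunr => ?_
    have h6 := (hv 2 Nat.prime_two h2p h2d).mp hunr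
    rw [hp3] at h6
    exact h.three hp3 h6
  · exact h5 hpN M (dvd_prod_primes hM.1 fun q hq hqM => (hmem q hq).mpr (Or.inr (hM.2 q hq hqM)))
      hoccM

end Fermat.Agent.Wire
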