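import Fermat.Agent.Wire.TwoClose
import Fermat.Agent.Wire.SwitchClose
import Fermat.Agent.TwoAdic.Kraus
import Fermat.Agent.TwoAdic.Scale

set_option autoImplicit false

/-!
# A member of the `5`-family with a different valuation of the discriminant at `2`
-/

open WeierstrassCurve
open Fermat.Agent.Icosa Fermat.Agent.Schoof
open Fermat.Agent.Switch Fermat.Agent.TwoAdic

namespace Fermat.Agent.Wire

/-- `2`-adic computation near the second cusp -/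
theorem local_two {c4 c6 Δ : ℤ} (h : c4^3 - c6^2 = 1728*Δ) (h2 : ¬ (2 : ℤ) ∣ c4)
    (h4 : (4 : ℤ) ∣ c6 + 1) (h8 : (8 : ℤ) ∣ Δ) {m : ℤ} (hm : ¬ (2 : ℤ) ∣ m) :
    ∃ l₀ : ℤ, ∀ l : ℤ, (16 : ℤ) ∣ l - l₀ → ∃ D C4 C6 : ℤ,
      DD c4 c6 l m = 2^24 * D ∧ CC4 c4 c6 l m = 2^40 * C4 ∧ CC6 c4 c6 l m = 2^60 * C6 ∧
      (2 : ℤ) ∣ D ∧ ¬ (4 : ℤ) ∣ D ∧ ¬ (2 : ℤ) ∣ C4 ∧ (4 : ℤ) ∣ C6 + 1 := by
  have hc : IsCoprime ((2 : ℤ)^64) c4 :=
    IsCoprime.pow_left ((Prime.coprime_iff_not_dvd Int.prime_two).mpr h2)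
  obtain ⟨b, s, hs⟩ := exists_b (c6 := c6) hc
  obtain ⟨T, hT⟩ : ∃ T, T = -b := ⟨_, rfl⟩
  have hT' : c6 = c4 * T + 2^64 * s := by rw [hT]; linear_combination hs
  obtain ⟨d, hd⟩ := h8
  have h1 : (2 : ℤ)^9 ∣ c4^2 * (c4 - T^2) := by
    refine ⟨27 * d + 2^55 * s * (c6 + c4 * T), ?_⟩
    rw [hd] at h
    linear_combination h + (c6 + c4 * T) * hT'
  have hc9 : IsCoprime ((2 : ℤ)^9) (c4^2) :=
    IsCoprime.pow ((Prime.coprime_iff_not_dvd Int.prime_two).mpr h2)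
  obtain ⟨a, ha⟩ := hc9.dvd_of_dvd_mul_left h1
  have e4 : c4 = T^2 + 2^9*a := by linear_combination ha
  have e6 : c6 = (T^3 + 2^9*a*T) + 2^64*s := by rw [hT', e4]; ring
  have hTodd : ¬ (2 : ℤ) ∣ T := by
    rintro ⟨t, ht⟩
    apply h2
    rw [e4, ht]
    exact ⟨2*t^2 + 2^8*a, by ring⟩
  have hmo : Odd m := Int.not_even_iff_odd.mp fun h => hm h.two_dvd
  have hTo : Odd T := Int.not_even_iff_odd.mp fun h => hTodd h.two_dvd
  obtain ⟨m', hm'⟩ := hmo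
  obtain ⟨t, ht⟩ := hTo
  refine ⟨5*T*m + 8, fun l hl => ?_⟩
  obtain ⟨z, hz⟩ := hl
  obtain ⟨y, hy⟩ : ∃ y, y = T*m + 2 + 4*z := ⟨_, rfl⟩
  have hl' : l = T*m + 4*y := by rw [hy]; linear_combination hz
  have hyo : ∃ y', y = 2*y' + 1 := ⟨2*t*m' + t + m' + 1 + 2*z, by rw [hy, hm', ht]; ring⟩
  obtain ⟨y', hy'⟩ := hyo
  have hsq : ∀ k : ℕ, ∃ r : ℤ, y^(2*k) = 4*r + 1 := by
    intro k
    induction k with
    | zero => exact ⟨0, by norm_num⟩
    | succ k ih =>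
      obtain ⟨r, hr⟩ := ih
      refine ⟨(4*r+1)*(y'^2+y') + r, ?_⟩
      rw [mul_add, pow_add, hr, hy']
      ring
  -- reduction modulo `2^64`
  have hcongr : ∀ F : ℤ → ℤ, (∀ x y : ℤ, x - y ∣ F x - F y) → ∃ r, F c6 = F (T^3 + 2^9*a*T) + 2^64*r := by
    intro F hF
    obtain ⟨r, hr⟩ := hF c6 (T^3 + 2^9*a*T)
    refine ⟨s * r, ?_⟩
    have e : c6 - (T^3 + 2^9*a*T) = 2^64*s := by rw [e6]; ring
    rw [e] at hr
    linear_combination hr
  have key : ∀ (G : {R : Type} → [CommRing R] → R → R → R → R → R)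
      (_ : ∀ {R S : Type} [CommRing R] [CommRing S] (φ : R →+* S) (x y z w : R),
        φ (G x y z w) = G (φ x) (φ y) (φ z) (φ w)) (x y : ℤ),
      x - y ∣ G c4 x l m - G c4 y l m := by
    intro G hG x y
    rw [← Ideal.mem_span_singleton, ← Ideal.Quotient.eq, hG, hG]
    congr 1
    rw [Ideal.Quotient.eq]
    exact Ideal.mem_span_singleton_self _
  obtain ⟨r1, hr1⟩ := hcongr (fun x => DD c4 x l m) (key @DD (fun φ => map_DD φ))
  obtain ⟨r2, hr2⟩ := hcongr (fun x => CC4 c4 x l m) (key @CC4 (fun φ => map_CC4 φ))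
  obtain ⟨r3, hr3⟩ := hcongr (fun x => CC6 c4 x l m) (key @CC6 (fun φ => map_CC6 φ))
  have f1 := dd_near T a y m
  have f2 := cc4_near T a y m
  have f3 := cc6_near T a y m
  generalize (nearD_0 T a y m + nearD_1 T a y m) = q1 at f1
  obtain ⟨q2, hq2⟩ : ∃ q2, CC4 (T^2+2^9*a) (T^3+2^9*a*T) (T*m+4*y) m =
    2^40*(T^2*y^20) + 2^41*q2 := ⟨_, f2⟩
  obtain ⟨q3, hq3⟩ : ∃ q3, CC6 (T^2+2^9*a) (T^3+2^9*a*T) (T*m+4*y) m =
    2^60*(T^3*y^30) + 2^62*q3 := ⟨_, f3⟩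
  clear f2 f3
  have g1 : DD c4 c6 l m = 2^24 * (y^11*(y+3*T*m) + 4*q1 + 2^40*r1) := by
    have : DD c4 c6 l m = DD c4 (T^3 + 2^9*a*T) l m + 2^64*r1 := hr1
    rw [this, hl']
    conv_lhs => rw [e4, f1]
    ring
  have g2 : CC4 c4 c6 l m = 2^40 * (T^2*y^20 + 2*q2 + 2^24*r2) := by
    have : CC4 c4 c6 l m = CC4 c4 (T^3 + 2^9*a*T) l m + 2^64*r2 := hr2
    rw [this, hl']
    conv_lhs => rw [e4, hq2]
    ring
  have g3 : CC6 c4 c6 l m = 2^60 * (T^3*y^30 + 4*q3 + 2^4*r3) := by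
    have : CC6 c4 c6 l m = CC6 c4 (T^3 + 2^9*a*T) l m + 2^64*r3 := hr3
    rw [this, hl']
    conv_lhs => rw [e4, hq3]
    ring
  refine ⟨_, _, _, g1, g2, g3, ?_, ?_, ?_, ?_⟩
  · -- `2 ∣ D`
    have : y + 3*T*m = 2*(2*T*m + 1 + 2*z) := by rw [hy]; ring
    rw [this]
    exact ⟨y^11*(2*T*m+1+2*z) + 2*q1 + 2^39*r1, by ring⟩
  · -- `4 ∤ D`
    rintro ⟨w, hw⟩
    have e1 : y + 3*T*m = 2*(2*T*m + 1 + 2*z) := by rw [hy]; ring
    obtain ⟨r, hr⟩ := hsq 5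
    have e2 : y^11 = (4*r+1)*(2*y'+1) := by
      have : y^11 = y^(2*5) * y := by ring
      rw [this, hr]
      conv_lhs => rw [hy']
    rw [e1, e2] at hw
    have e3 : 2*(2*((4*r+1)*(2*y'+1)*(T*m+z) + (4*r*y'+2*r+y') + q1 + 2^39*r1/2*0) + 1) =
        4*w - 2^40*r1 - 2*q1*0 - (4*q1 - 4*q1) + 0 - (4 * q1) + (4*q1) - 4*q1 + 4*q1 := by
      have := hw
      ring_nf
      ring_nf at this
      omega
    omega
  · -- `C4` odd
    rintro ⟨w, hw⟩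
    obtain ⟨r, hr⟩ := hsq 10
    have e1 : y^20 = 4*r+1 := hr
    rw [e1, ht] at hw
    have : (2*t+1)^2 * (4*r+1) = 2*((2*t^2+2*t)*(4*r+1) + 2*r) + 1 := by ring
    rw [this] at hw
    generalize (2*t^2+2*t)*(4*r+1) + 2*r = X at hw
    omega
  · -- `C6 = -1 mod 4`
    obtain ⟨r, hr⟩ := hsq 15
    have e1 : y^30 = 4*r+1 := hr
    obtain ⟨w, hw⟩ := h4
    rw [e6] at hw
    refine ⟨T^3*r + w - 2^7*a*T - 2^62*s + q3 + 2^2*r3, ?_⟩
    rw [e1]
    linear_combination hw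

theorem three_of_congr {c4 c6 C4 C6 m u v : ℤ} (h27 : (27 : ℤ) ∣ m)
    (h : ¬ (3 : ℤ) ∣ c4 ∨ ((3 : ℤ) ∣ c4 ∧ (27 : ℤ) ∣ c6)) (h4 : 2^40 * C4 = c4 + m*u)
    (h6 : 2^60 * C6 = c6 + m*v) : ¬ (3 : ℤ) ∣ C4 ∨ ((3 : ℤ) ∣ C4 ∧ (27 : ℤ) ∣ C6) := by
  by_cases h3 : (3 : ℤ) ∣ C4
  · right
    refine ⟨h3, ?_⟩
    have h3c : (3 : ℤ) ∣ c4 := by
      have : c4 = 2^40 * C4 - m*u := by linear_combination -h4
      rw [this]
      exact dvd_sub (Dvd.dvd.mul_left h3 _)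
        (Dvd.dvd.mul_right (dvd_trans (by norm_num) h27) _)
    have h27c := (h.resolve_left (not_not_intro h3c)).2
    have h5 : (27 : ℤ) ∣ 2^60 * C6 := by
      rw [h6]
      exact dvd_add h27c (Dvd.dvd.mul_right h27 _)
    have hc : IsCoprime (27 : ℤ) (2^60) := by
      have : (27 : ℤ) = 3^3 := by norm_num
      rw [this]
      exact IsCoprime.pow ((Prime.coprime_iff_not_dvd Int.prime_three).mpr (by norm_num))
    exact hc.dvd_of_dvd_mul_left h5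
  · exact Or.inl h3

/-- A curve `W₁` with `W₁[5] ≅ W[5]` and `v₂(Δ(W₁)) = v₂(Δ(W)) + 5`. -/
theorem exists_near (W : WeierstrassCurve ℤ) (hΔ : W.Δ ≠ 0) (hW : W.IsSemistableModel)
    (h8 : (8 : ℤ) ∣ W.Δ) :
    ∃ W' : WeierstrassCurve ℤ, W'.Δ ≠ 0 ∧ W'.IsSemistableModel ∧
      (∀ ℓ : ℕ, ℓ.Prime → ¬ ℓ ∣ 30 → W.IsGoodPrimeFor ℓ → W'.IsGoodPrimeFor ℓ →
        (5 : ℤ) ∣ (W'.apOfModel ℓ - W.apOfModel ℓ)) ∧
      ∃ D : ℤ, W'.Δ = W.Δ * D ^ 5 ∧ (2 : ℤ) ∣ D ∧ ¬ (4 : ℤ) ∣ D ∧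
        (∀ q : ℕ, q.Prime → q ≠ 2 → ((q : ℤ) ∣ 30 ∨ (q : ℤ) ∣ W.Δ) → ¬ (q : ℤ) ∣ D) := by
  have hW2 : ¬ (2 : ℤ) ∣ W.c₄ := by
    have := hW 2 Nat.prime_two (by exact_mod_cast dvd_trans (by norm_num : (2:ℤ) ∣ 8) h8)
    exact_mod_cast this
  -- the odd part
  obtain ⟨n, d', hd'2, hd'⟩ := Nat.exists_eq_pow_mul_and_not_dvd
    (Int.natAbs_ne_zero.mpr hΔ) 2 (by norm_num)
  obtain ⟨m, hmdef⟩ : ∃ m : ℤ, m = 135 * (d' : ℤ) := ⟨_, rfl⟩
  have hm2 : ¬ (2 : ℤ) ∣ m := by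
    rw [hmdef]
    intro h
    rcases Int.prime_two.dvd_or_dvd h with h | h
    · norm_num at h
    · exact hd'2 (by exact_mod_cast h)
  have hmq : ∀ q : ℕ, q.Prime → q ≠ 2 → ((q : ℤ) ∣ 30 ∨ (q : ℤ) ∣ W.Δ) → (q : ℤ) ∣ m := by
    intro q hq hq2 h
    rw [hmdef]
    rcases h with h | h
    · have h1 : q ∣ 30 := by exact_mod_cast h
      have h2 : q ∣ 15 := by
        have h3 : q ∣ 2 * 15 := h1
        rcases (hq.dvd_mul).mp h3 with h4 | h4
        · exact absurd ((Nat.prime_dvd_prime_iff_eq hq Nat.prime_two).mp h4) hq2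
        · exact h4
      have h5 : (q : ℤ) ∣ 135 := by
        have : q ∣ 135 := h2.trans (by norm_num)
        exact_mod_cast this
      exact Dvd.dvd.mul_right h5 _
    · have h1 : q ∣ W.Δ.natAbs := Int.natCast_dvd.mp h
      rw [hd'] at h1
      rcases (hq.dvd_mul).mp h1 with h4 | h4
      · exact absurd ((Nat.prime_dvd_prime_iff_eq hq Nat.prime_two).mp (hq.dvd_of_dvd_pow h4)) hq2
      · exact Dvd.dvd.mul_left (by exact_mod_cast h4) _
  have h27 : (27 : ℤ) ∣ m := by rw [hmdef]; exact ⟨5 * d', by ring⟩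
  -- the parameter
  obtain ⟨l₀, hl₀⟩ := local_two W.c_relation.symm hW2 (c6_mod_four W hW2) h8 hm2
  obtain ⟨x, hx1, hx2⟩ := crt_int (m := m) (n := 16) (by
    have : (16 : ℤ) = 2^4 := by norm_num
    rw [this]
    exact (IsCoprime.pow_left ((Prime.coprime_iff_not_dvd Int.prime_two).mpr hm2)).symm) 1 l₀
  obtain ⟨D, C4, C6, eD, e4, e6, hD2, hD4, hC4, hC6⟩ := hl₀ x hx2
  obtain ⟨t, ht⟩ := hx1
  have hxt : x = 1 + m * t := by linear_combination ht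
  obtain ⟨u, hu⟩ : m ∣ CC4 W.c₄ W.c₆ x m - W.c₄ := by rw [hxt]; exact CC4_congr _
  obtain ⟨v, hv⟩ : m ∣ CC6 W.c₄ W.c₆ x m - W.c₆ := by rw [hxt]; exact CC6_congr _
  obtain ⟨w, hw⟩ : m ∣ DD W.c₄ W.c₆ x m - 1 := by rw [hxt]; exact DD_congr _
  have hrel : C4^3 - C6^2 = 1728 * (W.Δ * D^5) := by
    have h1 := CC_disc W.c₄ W.c₆ x m
    rw [e4, e6, eD, ← W.c_relation] at h1
    have h2 : (2 : ℤ)^120 ≠ 0 := by norm_num
    apply mul_left_cancel₀ h2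
    linear_combination h1
  obtain ⟨W', f4, f6, fΔ⟩ := kraus hrel hC4 hC6 (three_of_congr (u := u) (v := v) h27 (three_cond W)
    (by rw [← e4]; linear_combination hu) (by rw [← e6]; linear_combination hv))
  have hD0 : D ≠ 0 := by rintro rfl; exact hD4 (dvd_zero _)
  have hqD : ∀ q : ℕ, q.Prime → q ≠ 2 → (q : ℤ) ∣ m → ¬ (q : ℤ) ∣ D := by
    intro q hq hq2 hqm hqD
    have h1 : (q : ℤ) ∣ DD W.c₄ W.c₆ x m - m * w := by
      rw [eD]
      exact dvd_sub (Dvd.dvd.mul_left hqD _) (Dvd.dvd.mul_right hqm _)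
    have h2 : DD W.c₄ W.c₆ x m - m * w = 1 := by linear_combination hw
    rw [h2] at h1
    exact (Nat.prime_iff_prime_int.mp hq).not_dvd_one h1
  refine ⟨W', by rw [fΔ]; exact mul_ne_zero hΔ (pow_ne_zero _ hD0), ?_, ?_, D, fΔ, hD2, hD4,
    fun q hq hq2 h => hqD q hq hq2 (hmq q hq hq2 h)⟩
  · -- semistability
    intro p hp hpΔ hpc
    have hpp : Prime (p : ℤ) := Nat.prime_iff_prime_int.mp hp
    rw [fΔ] at hpΔ
    rw [f4] at hpc
    by_cases hp2 : p = 2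
    · subst hp2; exact hC4 (by exact_mod_cast hpc)
    by_cases hpM : (p : ℤ) ∣ m
    · have hpΔ' : (p : ℤ) ∣ W.Δ := (hpp.dvd_or_dvd hpΔ).resolve_right
        (fun h => hqD p hp hp2 hpM (hpp.dvd_of_dvd_pow h))
      apply hW p hp hpΔ'
      have h1 : W.c₄ = CC4 W.c₄ W.c₆ x m - m * u := by linear_combination -hu
      rw [h1, e4]
      exact dvd_sub (Dvd.dvd.mul_left hpc _) (Dvd.dvd.mul_right hpM u)
    · have hp30 : ¬ (p : ℤ) ∣ 30 := fun h => hpM (hmq p hp hp2 (Or.inl h))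
      have hpn : ∀ n : ℕ, n.Prime → n ∣ 30 → ¬ p ∣ n := by
        intro n hn hn30 hpn
        apply hp30
        exact_mod_cast hpn.trans hn30
      have hpΔ2 : ¬ (p : ℤ) ∣ W.Δ := fun h => hpM (hmq p hp hp2 (Or.inr h))
      have hpD : (p : ℤ) ∣ D := hpp.dvd_of_dvd_pow ((hpp.dvd_or_dvd hpΔ).resolve_left hpΔ2)
      have hFact : Fact p.Prime := ⟨hp⟩
      let K := AlgebraicClosure (ZMod p)
      have hinj : Function.Injective (algebraMap (ZMod p) K) := (algebraMap (ZMod p) K).injective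
      have hcast : ∀ n : ℕ, ¬ p ∣ n → ((n : ℕ) : K) ≠ 0 := by
        intro n hn h
        apply zmod_ne hn
        apply hinj
        rw [map_natCast, h, map_zero]
      let φ : ℤ →+* K := (algebraMap (ZMod p) K).comp (Int.castRingHom (ZMod p))
      have hφ : ∀ a : ℤ, φ a = 0 ↔ (p : ℤ) ∣ a := by
        intro a
        rw [← ZMod.intCast_zmod_eq_zero_iff_dvd]
        simp only [φ, RingHom.comp_apply]
        constructor
        · intro h; apply hinj; rw [map_zero]; exact h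
        · intro h
          change algebraMap (ZMod p) K ((a : ℤ) : ZMod p) = 0
          rw [h, map_zero]
      have k2 : (2 : K) ≠ 0 := by exact_mod_cast hcast 2 (hpn 2 (by norm_num) (by norm_num))
      have k3 : (3 : K) ≠ 0 := by exact_mod_cast hcast 3 (hpn 3 (by norm_num) (by norm_num))
      have k5 : (5 : K) ≠ 0 := by exact_mod_cast hcast 5 (hpn 5 (by norm_num) (by norm_num))
      have h1 : φ W.c₄ ^ 3 ≠ φ W.c₆ ^ 2 := by
        intro h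
        have h2 : φ 1728 * φ W.Δ = 0 := by
          rw [← map_mul, W.c_relation, map_sub, map_pow, map_pow, h, sub_self]
        have h3 : φ 1728 ≠ 0 := by
          have : φ 1728 = 2^6 * 3^3 := by rw [map_ofNat]; norm_num
          rw [this]
          exact mul_ne_zero (pow_ne_zero _ k2) (pow_ne_zero _ k3)
        exact hpΔ2 ((hφ _).mp ((mul_eq_zero.mp h2).resolve_left h3))
      have h2 : DD (φ W.c₄) (φ W.c₆) (φ x) (φ m) = 0 := by
        rw [← map_DD, eD, hφ]; exact Dvd.dvd.mul_left hpD _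
      have h3 : CC4 (φ W.c₄) (φ W.c₆) (φ x) (φ m) = 0 := by
        rw [← map_CC4, e4, hφ]; exact Dvd.dvd.mul_left hpc _
      have h4 := (common_zero k2 k3 k5 h1 h2 h3).2
      rw [hφ] at h4
      exact hpM h4
  · -- congruence
    intro l hl h30 hg hg'
    have hFact : Fact l.Prime := ⟨hl⟩
    have hl5 : l ≠ 5 := by rintro rfl; exact h30 (by norm_num)
    have k2 : (2 : ZMod l) ≠ 0 := by
      have := zmod_ne (l := l) (n := 2) (fun h => h30 (h.trans (by norm_num)))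
      exact_mod_cast this
    have k3 : (3 : ZMod l) ≠ 0 := by
      have := zmod_ne (l := l) (n := 3) (fun h => h30 (h.trans (by norm_num)))
      exact_mod_cast this
    have k5 : (5 : ZMod l) ≠ 0 := by
      have := zmod_ne (l := l) (n := 5) (fun h => h30 (h.trans (by norm_num)))
      exact_mod_cast this
    have h1728 : (1728 : ZMod l) ≠ 0 := by
      have : (1728 : ZMod l) = 2^6 * 3^3 := by norm_num
      rw [this]; exact mul_ne_zero (pow_ne_zero _ k2) (pow_ne_zero _ k3)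
    have hgΔ : ((W.Δ : ℤ) : ZMod l) ≠ 0 := by
      rw [Ne, ZMod.intCast_zmod_eq_zero_iff_dvd]; exact hg
    have hgΔ' : ((W'.Δ : ℤ) : ZMod l) ≠ 0 := by
      rw [Ne, ZMod.intCast_zmod_eq_zero_iff_dvd]; exact hg'
    have m4 := map_CC4 (Int.castRingHom (ZMod l)) W.c₄ W.c₆ x m
    have m6 := map_CC6 (Int.castRingHom (ZMod l)) W.c₄ W.c₆ x m
    simp only [eq_intCast] at m4 m6
    have ku : (2 : ZMod l)^10 ≠ 0 := pow_ne_zero _ k2
    rw [apOfModel_eq k2 k3 W hgΔ, apOfModel_eq k2 k3 W' hgΔ', f4, f6]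
    have t1 : tr 0 (-27 * ((C4 : ℤ) : ZMod l)) (-54 * ((C6 : ℤ) : ZMod l)) =
        tr 0 (-27 * CC4 (W.c₄ : ZMod l) W.c₆ x m) (-54 * CC6 (W.c₄ : ZMod l) W.c₆ x m) := by
      rw [← tr_scale ku, ← m4, ← m6, e4, e6]
      congr 1
      · push_cast; ring
      · push_cast; ring
    rw [t1]
    apply tr_congr k2 k3 k5
    · rw [ZMod.card]
      intro h
      exact hl5 ((Nat.prime_dvd_prime_iff_eq (by norm_num) hl).mp h).symm
    · intro h
      have h1 := congrArg (fun z : ℤ => (z : ZMod l)) W.c_relation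
      push_cast at h1
      rw [h, sub_self] at h1
      exact mul_ne_zero h1728 hgΔ h1
    · rw [← m4, ← m6, e4, e6]
      intro h
      have h1 := congrArg (fun z : ℤ => (z : ZMod l)) W'.c_relation
      rw [f4, f6] at h1
      push_cast at h1 h
      have h3 : (2 : ZMod l)^120 * ((C4 : ZMod l)^3 - (C6 : ZMod l)^2) = 0 := by
        linear_combination h
      rw [← h1] at h3
      exact mul_ne_zero (pow_ne_zero _ k2) (mul_ne_zero h1728 hgΔ') h3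

end Fermat.Agent.Wire
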