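import Fermat.Agent.Wire.Final59C
import Fermat.Agent.TwoAdic.Final
import Fermat.Agent.S12
import Fermat.Agent.S44

/-!
# The top of the tree: S01, S03, S04, S06, S45 from the remaining blocks
-/

set_option autoImplicit false

open WeierstrassCurve WeierstrassCurve.Affine WeierstrassCurve.Affine.Point
open CuspForm ModularFormClass UpperHalfPlane
open FreyPackage

namespace Fermat.Agent.Wire

open Fermat.Agent.Wiring

/-- `S12` -/
theorem stmt12 : Stmt12 := fun P h17 => Fermat.Agent.S12.result P h17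

/-- `S44` -/
theorem stmt44 : Stmt44 := fun P _ hcond hpN hirr hmod =>
  Fermat.Agent.S44.result P hcond hpN hirr hmod

theorem stmt06T (h59 : Stmt59C) : Stmt06 := stmt06C TwoAdic.twoAdicStmtC h59

theorem stmt04T (h59 : Stmt59C) : Stmt04 := stmt04C TwoAdic.twoAdicStmtC h59

theorem stmt45T (h59 : Stmt59C) (h43 : Stmt43) : Stmt45 :=
  stmt45C TwoAdic.twoAdicStmtC h59 h43 stmt44

theorem stmt03T (h59 : Stmt59C) (h43 : Stmt43) (P : FreyPackage) : False :=
  stmt03C TwoAdic.twoAdicStmtC h59 stmt12 h43 stmt44 P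

theorem stmt01T (h59 : Stmt59C) (h43 : Stmt43) (n : ℕ) (hn : 3 ≤ n) (a b c : ℕ)
    (ha : 0 < a) (hb : 0 < b) (hc : 0 < c) : a ^ n + b ^ n ≠ c ^ n :=
  stmt01C TwoAdic.twoAdicStmtC h59 stmt12 h43 stmt44 n hn a b c ha hb hc

end Fermat.Agent.Wire
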