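import Fermat.Agent.Wire.Coeff59
import Fermat.Agent.Wire.Start59
import Fermat.Agent.LL.S59Def
import Fermat.Agent.LL.S59Glue
import Fermat.Agent.LL.NoTBase
import Fermat.Agent.LL.PCondStrict

set_option autoImplicit false

/-!
# No unramified primes at a minimal level (59C)
-/

open CongruenceSubgroup IsLocalRing Polynomial ModularFormClass WeierstrassCurve Fermat.Agent.ECRep

namespace Fermat.Agent.Wire

local notation "Γℚ" => (AlgebraicClosure ℚ ≃ₐ[ℚ] AlgebraicClosure ℚ)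
local notation "Qb" => AlgebraicClosure ℚ
local notation "Zb" => integralClosure ℤ ℂ

/-- a base change of `±1` is a scalar -/
theorem exists_scalar_of_pm {p : ℕ} [Fact p.Prime] (ρ : ResidualGaloisRep (ZMod p)) (k : Type)
    [Field k] [Algebra (ZMod p) k] {σ : Γℚ} (h : ρ.ρ σ = 1 ∨ ρ.ρ σ = -1) :
    ∃ c : k, (ρ.baseChange k).ρ σ = c • 1 := by
  rcases h with h | h
  · refine ⟨1, ?_⟩
    rw [one_smul]
    exact (LL.baseChange_eq_one_iff ρ k σ).mpr h
  · refine ⟨-1, ?_⟩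
    have h1 : (ρ.baseChange k).ρ σ = (ρ.ρ σ).baseChange k := rfl
    rw [h1, h]
    apply LinearMap.ext
    intro x
    induction x using TensorProduct.induction_on with
    | zero => simp
    | tmul c v =>
      rw [LinearMap.baseChange_tmul, LinearMap.neg_apply, Module.End.one_apply,
        TensorProduct.tmul_neg, LinearMap.smul_apply, Module.End.one_apply, neg_smul, one_smul]
    | add x y hx hy => rw [map_add, map_add, hx, hy]

theorem unr_empty (I : LL.Inputs) (hSS : TWMod.SpecSS) (hNew : TWMod.SpecNew)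
    (hLow : TWLow.SpecLowerStrong) (hOrd : LL.NFOrdStmt) {p : ℕ} [hpp : Fact p.Prime]
    {W : WeierstrassCurve ℤ} (h : LL.Hyp59 p W) {N : ℕ} (hsq : Squarefree N)
    (hocc : LL.OccZ p (LL.cW W) N) (hmin : ∀ M, M ∣ N → LL.OccZ p (LL.cW W) M → M = N)
    (hMP : ∀ q : ℕ, q.Prime → q ∣ N → q ≠ p → (curveRho p W h.Δ_ne).IsUnramifiedAt q →
      p ∣ q - 1 ∧ ∀ P : ValuationSubring Qb, P.LiesOverPrime q → ∀ σ : Γℚ,
        P.IsFrobeniusAt σ q → (curveRho p W h.Δ_ne).ρ σ = 1 ∨ (curveRho p W h.Δ_ne).ρ σ = -1)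
    (h2N : p = 3 → 2 ∣ N) :
    ∀ q : ℕ, q.Prime → q ∣ N → q ≠ p → ¬ (curveRho p W h.Δ_ne).IsUnramifiedAt q := by
  classical
  have hp : p.Prime := hpp.out
  have hp2 : p ≠ 2 := by rcases h.h35 with rfl | rfl <;> norm_num
  obtain ⟨hN0, 𝔪, h𝔪, hpm, g, S, hg, hgc⟩ := hocc
  have hocc' : LL.OccZ p (LL.cW W) N := ⟨hN0, 𝔪, h𝔪, hpm, g, S, hg, hgc⟩
  -- the coefficient ring
  set V : ℕ := N + 1 with hVdef
  obtain ⟨F1, hF1⟩ := exists_split_finset hp
  obtain ⟨F2, hF2⟩ := exists_roots_finset (p ^ V) (pow_pos hp.pos V)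
  obtain ⟨𝒪, i1, i2, i3, i4, i5, i6, hp𝒪, j, ι, b', hj, hF, hι, hb'⟩ :=
    LL.exists_dvr_eigen hp 𝔪 h𝔪 hpm hg.isNormalizedEigenform (F1 ∪ F2)
  have hchar0 : (p : ResidueField 𝒪) = 0 := by
    rw [← map_natCast (residue 𝒪)]
    exact (residue_eq_zero_iff _).mpr hp𝒪
  haveI hchar : CharP (ResidueField 𝒪) p := (CharP.charP_iff_prime_eq_zero hp).mpr hchar0
  letI halg : Algebra (ZMod p) (ResidueField 𝒪) := ZMod.algebra _ p
  have hμ : ∀ z : ℂ, z ^ p ^ V = 1 → ∃ o : 𝒪, j o = z := by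
    intro z hz
    obtain ⟨w, hw, hwz⟩ := hF2 z hz
    obtain ⟨o, ho⟩ := hF w (Finset.mem_union_right _ hw)
    exact ⟨o, by rw [ho, hwz]⟩
  obtain ⟨ζ, hζp, hζ1⟩ : ∃ ζ : 𝒪, ζ ^ p = 1 ∧ ζ ≠ 1 := by
    have hprim := Complex.isPrimitiveRoot_exp p hp.ne_zero
    obtain ⟨o, ho⟩ := hμ (Complex.exp (2 * Real.pi * Complex.I / p)) (by
      rw [hVdef, pow_succ', pow_mul, hprim.pow_eq_one, one_pow])
    refine ⟨o, ?_, ?_⟩
    · apply hj
      rw [map_pow, ho, hprim.pow_eq_one, map_one]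
    · rintro rfl
      rw [map_one] at ho
      exact hprim.ne_one hp.one_lt ho.symm
  have hsplit := hF1 𝒪 hp𝒪 j hj (fun z hz => hF z (Finset.mem_union_left _ hz))
  obtain ⟨habs, hodd, hdet, hspl, hind, hgood, hbad, hram2, hfrob⟩ :=
    curveRes59 (k := ResidueField 𝒪) h.h35 h.Δ_ne h.ss h.two h.three h.irr hsplit
  set ρbar : ResidualGaloisRep (ResidueField 𝒪) :=
    (curveRho p W h.Δ_ne).baseChange (ResidueField 𝒪) with hρbar
  have hunr : ∀ q, ρbar.IsUnramifiedAt q ↔ (curveRho p W h.Δ_ne).IsUnramifiedAt q :=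
    fun q => curve_unr_iff_base W (ResidueField 𝒪) h.Δ_ne q
  -- the sets of primes
  set Smin : Finset ℕ := insert p ((cond W).primeFactors.filter
    fun q => ¬ (curveRho p W h.Δ_ne).IsUnramifiedAt q) with hSmin
  set T : Finset ℕ := N.primeFactors.filter
    fun q => q ≠ p ∧ (curveRho p W h.Δ_ne).IsUnramifiedAt q with hT
  set S0 : Finset ℕ := insert p (S ∪ N.primeFactors ∪ (cond W).primeFactors) with hS0
  have hram_bad : ∀ q : ℕ, q.Prime → q ≠ p → ¬ (curveRho p W h.Δ_ne).IsUnramifiedAt q →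
      (q : ℤ) ∣ W.Δ := by
    intro q hq hqp hr
    by_contra hg'
    exact hr ((hunr q).mp (hgood q hq hqp hg'))
  have hpS0 : p ∈ S0 := Finset.mem_insert_self _ _
  have hbadS0 : ∀ q : ℕ, q.Prime → (q : ℤ) ∣ W.Δ → q ∈ S0 := fun q hq hqΔ =>
    Finset.mem_insert_of_mem (Finset.mem_union_right _ (Nat.mem_primeFactors.mpr
      ⟨hq, (dvd_cond h.Δ_ne hq).mpr hqΔ, cond_ne_zero W⟩))
  have hNS0 : ∀ q : ℕ, q.Prime → q ∣ N → q ∈ S0 := fun q hq hqN =>
    Finset.mem_insert_of_mem (Finset.mem_union_left _ (Finset.mem_union_right _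
      (Nat.mem_primeFactors.mpr ⟨hq, hqN, hN0.ne⟩)))
  have hSS0 : S ⊆ S0 := fun q hq =>
    Finset.mem_insert_of_mem (Finset.mem_union_left _ (Finset.mem_union_left _ hq))
  -- the residual system
  have hctx : LL.Ctx p j ρbar S0 (fun ℓ ↦ ((W.apOfModel ℓ : ℤ) : 𝒪)) :=
    LL.ctxW_int hp2 hp𝒪 hj h.Δ_ne h.irr hpS0 hbadS0
  have hform : LL.CongTo j (fun ℓ ↦ ((W.apOfModel ℓ : ℤ) : 𝒪)) S0 (fun ℓ ↦ qCoeff g ℓ) :=
    LL.congTo_of_dvr (c := LL.cW W) h𝔪.ne_top hι hg.isNormalizedEigenform hb'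
      (fun ℓ hℓ hℓS => hgc ℓ hℓ (fun hh => hℓS (hSS0 hh)))
  have hU1 : ∀ S' : Finset ℕ, ∀ (M : ℕ) (_ : NeZero M) (g' : CuspForm (Gamma0 M) 2),
      g'.IsNewform → M ∣ N →
      LL.CongTo j (fun ℓ ↦ ((W.apOfModel ℓ : ℤ) : 𝒪)) S' (fun ℓ ↦ qCoeff g' ℓ) → M = N := by
    intro S' M hM0 g' hg' hMN hc
    refine hmin M hMN (LL.occZ_of_congTo (c := LL.cW W) hp hp𝒪 (b := fun ℓ ↦
      ((W.apOfModel ℓ : ℤ) : 𝒪)) (S := S') ?_ hg' hc)
    intro ℓ _ _
    rw [map_intCast]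
    rfl
  have hTmem : ∀ l ∈ T, l.Prime ∧ l ∣ N ∧ l ≠ p ∧ (curveRho p W h.Δ_ne).IsUnramifiedAt l := by
    intro l hl
    rw [hT, Finset.mem_filter, Nat.mem_primeFactors] at hl
    exact ⟨hl.1.1, hl.1.2.1, hl.2.1, hl.2.2⟩
  have hSminmem : ∀ l ∈ Smin, l = p ∨ (l.Prime ∧ (l : ℤ) ∣ W.Δ ∧
      ¬ (curveRho p W h.Δ_ne).IsUnramifiedAt l) := by
    intro l hl
    rw [hSmin, Finset.mem_insert, Finset.mem_filter, Nat.mem_primeFactors] at hl
    rcases hl with rfl | ⟨⟨h1, h3, -⟩, h4⟩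
    · exact Or.inl rfl
    · exact Or.inr ⟨h1, (dvd_cond h.Δ_ne h1).mp h3, h4⟩
  have hbase : ∀ PC : TW.LCond, LL.PCond p j ρbar PC (fun M ↦ (p ∣ M ↔ p ∣ N)) →
      LL.BaseP p j ρbar S0 (fun ℓ ↦ ((W.apOfModel ℓ : ℤ) : 𝒪)) N Smin T ζ PC := by
    intro PC hPC
    exact
      { toCtx := hctx
        sqf := hsq
        three := by
          by_cases h3 : p = 3
          · exact Or.inr ⟨2, Nat.prime_two, rfl, h2N h3⟩
          · exact Or.inl h3
        memS := hNS0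
        form := ⟨g, hg.isNormalizedEigenform, hform⟩
        pT := fun hh => (hTmem p hh).2.2.1 rfl
        Tdvd := fun l hl => (hTmem l hl).2.1
        Tpr := fun l hl => (hTmem l hl).1
        Tone := fun l hl => (hMP l (hTmem l hl).1 (hTmem l hl).2.1 (hTmem l hl).2.2.1
          (hTmem l hl).2.2.2).1
        ζpow := hζp
        ζne := hζ1
        min := fun S' _ M hM0 g' hg' hMN hc l hl => by
          rw [hU1 S' M hM0 g' hg' hMN hc]
          exact (hTmem l hl).2.1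
        pmin := fun hpN S' _ M hM0 g' hg' hMN hc => by
          rw [hU1 S' M hM0 g' hg' hMN hc]
          exact hpN
        Sp := Finset.mem_insert_self _ _
        SS0 := by
          intro q hq
          rcases hSminmem q hq with rfl | ⟨h1, h3, -⟩
          · exact hpS0
          · exact hbadS0 q h1 h3
        ST := by
          intro l hl hlT
          rcases hSminmem l hl with rfl | ⟨-, -, h3⟩
          · exact (hTmem _ hlT).2.2.1 rfl
          · exact h3 (hTmem l hlT).2.2.2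
        SN := by
          intro q hq hqN
          by_cases hqp : q = p
          · left
            rw [hqp]
            exact Finset.mem_insert_self _ _
          · by_cases hu : (curveRho p W h.Δ_ne).IsUnramifiedAt q
            · right
              rw [hT, Finset.mem_filter, Nat.mem_primeFactors]
              exact ⟨⟨hq, hqN, hN0.ne⟩, hqp, hu⟩
            · left
              rw [hSmin, Finset.mem_insert, Finset.mem_filter, Nat.mem_primeFactors]
              exact Or.inr ⟨⟨hq, (dvd_cond h.Δ_ne hq).mpr (hram_bad q hq hqp hu),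
                cond_ne_zero W⟩, hu⟩
        pcond := hPC }
  have hSprime : ∀ q ∈ Smin, q.Prime := by
    intro q hq
    rcases hSminmem q hq with rfl | ⟨h1, -, -⟩
    · exact hp
    · exact h1
  have hSminiff : ∀ q : ℕ, q.Prime → q ≠ p → (q ∈ Smin ↔ ¬ ρbar.IsUnramifiedAt q) := by
    intro q hq hqp
    rw [hunr q]
    constructor
    · intro hm
      rcases hSminmem q hm with h1 | ⟨-, -, h3⟩
      · exact absurd h1 hqp
      · exact h3
    · intro hr
      rw [hSmin, Finset.mem_insert, Finset.mem_filter, Nat.mem_primeFactors]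
      exact Or.inr ⟨⟨hq, (dvd_cond h.Δ_ne hq).mpr (hram_bad q hq hqp hr), cond_ne_zero W⟩, hr⟩
  have hsc : ∀ l ∈ T, ∀ P : ValuationSubring Qb, P.LiesOverPrime l →
      ∀ σ : Γℚ, P.IsFrobeniusAt σ l → ∃ c : ResidueField 𝒪, ρbar.ρ σ = c • 1 := by
    intro l hl P hP σ hσ
    exact exists_scalar_of_pm _ _ ((hMP l (hTmem l hl).1 (hTmem l hl).2.1 (hTmem l hl).2.2.1
      (hTmem l hl).2.2.2).2 P hP σ hσ)
  have hV : ∀ l ∈ T, ∀ v, p ^ v ∣ l - 1 → v ≤ V := by
    intro l hl v hv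
    have hl' := hTmem l hl
    have h1 : 0 < l - 1 := by have := hl'.1.one_lt; omega
    have h3 := Nat.le_of_dvd h1 hv
    have h4 := Nat.le_of_dvd (Nat.pos_of_ne_zero hN0.ne) hl'.2.1
    have h5 := Nat.lt_pow_self hp.one_lt (n := v)
    omega
  have hTempty : T = ∅ := by
    by_cases hpN : p ∣ N
    · exact (hbase _ (LL.pcond_strict hOrd hp hp2 hp𝒪 habs (fun M hM => hM.mpr hpN))).T_eq_empty_strict
        I hSS hNew hLow hdet hspl hind hSprime hSminiff hsc hV hμ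
    · exact (hbase _ (LL.pcond_flat (fun M hM hh => hpN (hM.mp hh)))).T_eq_empty_flat
        I hSS hNew hLow hdet hspl hind hSprime hSminiff hsc hV hμ
  intro q hq hqN hqp hu
  have hqT : q ∈ T := by
    rw [hT, Finset.mem_filter, Nat.mem_primeFactors]
    exact ⟨⟨hq, hqN, hN0.ne⟩, hqp, hu⟩
  rw [hTempty] at hqT
  exact Finset.notMem_empty _ hqT

end Fermat.Agent.Wire
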