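import Mathlib

set_option autoImplicit false

/-! Descent on `t (t² + 22 t + 125) = Y²`: there is no rational solution with `t ≠ 0`. -/

namespace Fermat.Agent.Wire

lemma sq_mod8 (x : ℤ) : x ^ 2 % 8 = 0 ∨ x ^ 2 % 8 = 1 ∨ x ^ 2 % 8 = 4 := by
  have h : x % 8 = 0 ∨ x % 8 = 1 ∨ x % 8 = 2 ∨ x % 8 = 3 ∨ x % 8 = 4 ∨ x % 8 = 5 ∨ x % 8 = 6 ∨
    x % 8 = 7 := by omega
  rw [pow_two, Int.mul_emod]
  rcases h with h | h | h | h | h | h | h | h <;> rw [h] <;> norm_num

lemma odd_sq_mod8 {x : ℤ} (hx : x % 2 = 1) : x ^ 2 % 8 = 1 := by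
  have h : x % 8 = 1 ∨ x % 8 = 3 ∨ x % 8 = 5 ∨ x % 8 = 7 := by omega
  rw [pow_two, Int.mul_emod]
  rcases h with h | h | h | h <;> rw [h] <;> norm_num

lemma not_both_odd {α e β : ℤ} (hα : α % 2 = 1) (he : e % 2 = 1)
    (h : α ^ 4 + 22 * α ^ 2 * e ^ 2 + 125 * e ^ 4 = β ^ 2) : False := by
  obtain ⟨a, ha⟩ : ∃ a, α ^ 2 = 8 * a + 1 := ⟨α ^ 2 / 8, by have := odd_sq_mod8 hα; omega⟩
  obtain ⟨b, hb⟩ : ∃ b, e ^ 2 = 8 * b + 1 := ⟨e ^ 2 / 8, by have := odd_sq_mod8 he; omega⟩
  have h1 : β ^ 2 = 32 * (2 * a ^ 2 + 44 * a * b + 250 * b ^ 2 + 6 * a + 68 * b + 4) + 20 := by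
    have e1 : α ^ 4 = (α ^ 2) ^ 2 := by ring
    have e2 : e ^ 4 = (e ^ 2) ^ 2 := by ring
    rw [← h, e1, e2, ha, hb]; ring
  have h2 : β % 2 = 0 := by
    by_contra hodd
    have := odd_sq_mod8 (x := β) (by omega)
    omega
  obtain ⟨γ, rfl⟩ : ∃ γ, β = 2 * γ := ⟨β / 2, by omega⟩
  have h3 : γ ^ 2 = 8 * (2 * a ^ 2 + 44 * a * b + 250 * b ^ 2 + 6 * a + 68 * b + 4) + 5 := by
    have h4 : 4 * γ ^ 2 =
        4 * (8 * (2 * a ^ 2 + 44 * a * b + 250 * b ^ 2 + 6 * a + 68 * b + 4) + 5) := by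
      linear_combination h1
    omega
  rcases sq_mod8 γ with h4 | h4 | h4 <;> omega

lemma mod5 {s ρ : ℤ} (h : (5 : ℤ) ∣ s ^ 2 - 2 * ρ ^ 2) : s % 5 = 0 ∧ ρ % 5 = 0 := by
  have hsq : ∀ x : ℤ, (x % 5 = 0 ∧ x ^ 2 % 5 = 0) ∨ (x ^ 2 % 5 = 1 ∨ x ^ 2 % 5 = 4) := by
    intro x
    have hx : x % 5 = 0 ∨ x % 5 = 1 ∨ x % 5 = 2 ∨ x % 5 = 3 ∨ x % 5 = 4 := by omega
    rw [pow_two, Int.mul_emod]
    rcases hx with h | h | h | h | h <;> rw [h] <;> norm_num
  have h1 := hsq s
  have h2 := hsq ρ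
  omega

lemma exists_pow4 {a b c : ℤ} (hab : IsCoprime a b) (h : a * b = c ^ 4) :
    ∃ d : ℤ, a = d ^ 4 ∨ a = -d ^ 4 := by
  obtain ⟨d, hd⟩ := exists_associated_pow_of_mul_eq_pow' hab h
  refine ⟨d, ?_⟩
  rcases Int.associated_iff.1 hd with h1 | h1
  · left; exact h1.symm
  · right; rw [h1, neg_neg]

set_option maxHeartbeats 1600000 in
theorem no_point_aux (n : ℕ) : ∀ α e β : ℤ, e.natAbs ≤ n → IsCoprime α e → e ≠ 0 →
    α ^ 4 + 22 * α ^ 2 * e ^ 2 + 125 * e ^ 4 = β ^ 2 → False := by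
  induction n with
  | zero => intro α e β hn _ he _; exact he (Int.natAbs_eq_zero.1 (by omega))
  | succ n ih =>
    intro α e β hn hco he h
    -- parity
    have hnotodd : ¬ (α % 2 = 1 ∧ e % 2 = 1) := fun hh => not_both_odd hh.1 hh.2 h
    have hnoteven : ¬ (α % 2 = 0 ∧ e % 2 = 0) := by
      rintro ⟨h1, h2⟩
      have := hco.isUnit_of_dvd' (Int.dvd_of_emod_eq_zero h1) (Int.dvd_of_emod_eq_zero h2)
      rw [Int.isUnit_iff] at this
      omega
    set X : ℤ := α ^ 2 + 11 * e ^ 2 with hX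
    have hpyt : PythagoreanTriple X (2 * e ^ 2) |β| := by
      unfold PythagoreanTriple
      rw [abs_mul_abs_self]
      linear_combination h
    have hXodd : X % 2 = 1 := by
      have h1 : α ^ 2 % 2 = α % 2 := by
        rw [pow_two, Int.mul_emod]
        rcases Int.emod_two_eq_zero_or_one α with h | h <;> rw [h] <;> norm_num
      have h2 : e ^ 2 % 2 = e % 2 := by
        rw [pow_two, Int.mul_emod]
        rcases Int.emod_two_eq_zero_or_one e with h | h <;> rw [h] <;> norm_num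
      omega
    have hcoX : Int.gcd X (2 * e ^ 2) = 1 := by
      rw [← Int.isCoprime_iff_gcd_eq_one]
      have h1 : IsCoprime X (2 : ℤ) := by
        refine ⟨1, -(X / 2), ?_⟩
        omega
      have h2 : IsCoprime X (e ^ 2) := by
        have : IsCoprime (α ^ 2) (e ^ 2) := hco.pow
        have h3 := this.add_mul_right_left 11
        rwa [← hX] at h3
      exact h1.mul_right h2
    have hβ : 0 < |β| := by
      rw [abs_pos]
      rintro rfl
      have : 0 < e ^ 4 := by positivity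
      nlinarith [sq_nonneg (α ^ 2), sq_nonneg (α * e)]
    obtain ⟨m, k, hm1, hm2, hm3, hmk, hpar, hm0⟩ := hpyt.coprime_classification' hcoX hXodd hβ
    have hmke : m * k = e ^ 2 := by linarith
    have hmkpos : 0 < m * k := by rw [hmke]; positivity
    have hmpos : 0 < m := lt_of_le_of_ne hm0 (by rintro rfl; simp at hmkpos)
    have hkpos : 0 < k := by
      by_contra hk
      push Not at hk
      nlinarith
    obtain ⟨s, hs⟩ := Int.sq_of_gcd_eq_one hmk hmke
    have hs : m = s ^ 2 := by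
      rcases hs with hs | hs
      · exact hs
      · exfalso; nlinarith [sq_nonneg s]
    obtain ⟨r, hr⟩ := Int.sq_of_gcd_eq_one (a := k) (b := m) (by rw [Int.gcd_comm]; exact hmk)
      (by rw [mul_comm]; exact hmke)
    have hr : k = r ^ 2 := by
      rcases hr with hr | hr
      · exact hr
      · exfalso; nlinarith [sq_nonneg r]
    subst hs hr
    have heven : e % 2 = 0 := by
      by_contra hodd
      have ho : e ^ 2 % 2 = 1 := by
        rw [pow_two, Int.mul_emod]
        rcases Int.emod_two_eq_zero_or_one e with h | h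
        · exact absurd h hodd
        · rw [h]; norm_num
      have : (s ^ 2 * r ^ 2) % 2 = 0 := by
        rw [Int.mul_emod]
        rcases hpar with ⟨h1, h2⟩ | ⟨h1, h2⟩ <;> rw [h1, h2] <;> norm_num
      rw [hmke] at this
      omega
    have hαodd : α % 2 = 1 := by omega
    -- s odd, r even
    have hs_odd : s % 2 = 1 ∧ r % 2 = 0 := by
      obtain ⟨e', rfl⟩ : ∃ e', e = 2 * e' := ⟨e / 2, by omega⟩
      have hα8 := odd_sq_mod8 hαodd
      have h1 : X % 4 = 1 := by
        have : X = α ^ 2 + 4 * (11 * e' ^ 2) := by rw [hX]; ring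
        omega
      rcases Int.emod_two_eq_zero_or_one s with hs2 | hs2
      · exfalso
        have hr2 : r % 2 = 1 := by
          rcases hpar with ⟨h1, h2⟩ | ⟨h1, h2⟩
          · by_contra hr
            obtain ⟨r', rfl⟩ : ∃ r', r = 2 * r' := ⟨r / 2, by omega⟩
            have : (2 * r') ^ 2 = 2 * (2 * r' ^ 2) := by ring
            omega
          · obtain ⟨s', rfl⟩ : ∃ s', s = 2 * s' := ⟨s / 2, by omega⟩
            have : (2 * s') ^ 2 = 2 * (2 * s' ^ 2) := by ring
            omega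
        obtain ⟨s', rfl⟩ : ∃ s', s = 2 * s' := ⟨s / 2, by omega⟩
        obtain ⟨b, hb⟩ : ∃ b, r ^ 2 = 8 * b + 1 := ⟨r ^ 2 / 8, by have := odd_sq_mod8 hr2; omega⟩
        have : X = 4 * (4 * s' ^ 4 - 16 * b ^ 2 - 4 * b) - 1 := by
          rw [hm1, hb]; ring
        omega
      · refine ⟨hs2, ?_⟩
        by_contra hr
        have hr2 : r % 2 = 1 := by omega
        have h1 := odd_sq_mod8 hs2
        have h2 := odd_sq_mod8 hr2
        rcases hpar with ⟨h1, h2⟩ | ⟨h1, h2⟩ <;> omega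
    obtain ⟨hs_odd, hr_even⟩ := hs_odd
    obtain ⟨ρ, rfl⟩ : ∃ ρ, r = 2 * ρ := ⟨r / 2, by omega⟩
    have hcors : IsCoprime s (2 * ρ) := by
      have := Int.isCoprime_iff_gcd_eq_one.2 hmk
      exact (IsCoprime.pow_left_iff (by norm_num)).1 ((IsCoprime.pow_right_iff (by norm_num)).1 this)
    have hcorho : IsCoprime s ρ := hcors.of_mul_right_right
    have hρ0 : ρ ≠ 0 := by
      rintro rfl
      simp at hkpos
    have hα2 : α ^ 2 = s ^ 4 - 44 * ρ ^ 2 * s ^ 2 - 16 * ρ ^ 4 := by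
      have h1 : α ^ 2 = X - 11 * e ^ 2 := by rw [hX]; ring
      rw [h1, hm1, ← hmke]; ring
    set Y : ℤ := s ^ 2 - 22 * ρ ^ 2 with hY
    have hYα : (Y - α) * (Y + α) = 500 * ρ ^ 4 := by
      rw [hY]; linear_combination -hα2
    have hYodd : Y % 2 = 1 := by
      have := odd_sq_mod8 hs_odd
      omega
    obtain ⟨A, hA⟩ : ∃ A, Y - α = 2 * A := ⟨(Y - α) / 2, by omega⟩
    obtain ⟨B, hB⟩ : ∃ B, Y + α = 2 * B := ⟨(Y + α) / 2, by omega⟩
    have hAB : A * B = 125 * ρ ^ 4 := by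
      rw [hA, hB] at hYα
      linarith
    have hAB' : A + B = Y := by linarith
    have hcoAB : IsCoprime A B := by
      by_contra hnot
      rw [Int.isCoprime_iff_gcd_eq_one] at hnot
      obtain ⟨π, hπ, hπd⟩ := Nat.exists_prime_and_dvd hnot
      have hπA : (π : ℤ) ∣ A := dvd_trans (by exact_mod_cast hπd) (Int.gcd_dvd_left ..)
      have hπB : (π : ℤ) ∣ B := dvd_trans (by exact_mod_cast hπd) (Int.gcd_dvd_right ..)
      have hπ' : Prime (π : ℤ) := Nat.prime_iff_prime_int.1 hπ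
      have hπY : (π : ℤ) ∣ Y := hAB' ▸ dvd_add hπA hπB
      have h1 : (π : ℤ) ∣ 125 * ρ ^ 4 := hAB ▸ dvd_mul_of_dvd_left hπA _
      rcases hπ'.dvd_or_dvd h1 with h5 | hρ
      · have h5' : (π : ℤ) ∣ 5 := by
          have : (125 : ℤ) = 5 ^ 3 := by norm_num
          rw [this] at h5
          exact hπ'.dvd_of_dvd_pow h5
        have hπ5 : π = 5 := by
          have : π ∣ 5 := by exact_mod_cast h5'
          exact (Nat.prime_dvd_prime_iff_eq hπ (by norm_num)).1 this
        subst hπ5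
        -- s² ≡ 22 ρ² mod 5
        have h2 : (5 : ℤ) ∣ s ^ 2 - 2 * ρ ^ 2 := by
          have : s ^ 2 - 2 * ρ ^ 2 = Y + 5 * (4 * ρ ^ 2) := by rw [hY]; ring
          rw [this]
          exact dvd_add (by exact_mod_cast hπY) (dvd_mul_right _ _)
        have hs5 : (s % 5 = 0 ∧ ρ % 5 = 0) := mod5 h2
        have := hcorho.isUnit_of_dvd' (Int.dvd_of_emod_eq_zero hs5.1) (Int.dvd_of_emod_eq_zero hs5.2)
        rw [Int.isUnit_iff] at this
        omega
      · have hρ' : (π : ℤ) ∣ ρ := hπ'.dvd_of_dvd_pow hρ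
        have hs' : (π : ℤ) ∣ s := by
          have : s ^ 2 = Y + 22 * ρ * ρ := by rw [hY]; ring
          apply hπ'.dvd_of_dvd_pow (n := 2)
          rw [this]
          exact dvd_add hπY (dvd_mul_of_dvd_right hρ' _)
        exact hπ'.not_isUnit (hcorho.isUnit_of_dvd' hs' hρ')
    -- the key step, for a pair (A, B) with 125 | A
    have key : ∀ A B : ℤ, A * B = 125 * ρ ^ 4 → A + B = Y → IsCoprime A B → (5 : ℤ) ∣ A → False := by
      intro A B hAB hAB' hcoAB h5
      have h5p : Prime (5 : ℤ) := by norm_num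
      have h125 : (125 : ℤ) ∣ A := by
        have hc : IsCoprime (5 : ℤ) B := hcoAB.of_isCoprime_of_dvd_left h5
        have hc' : IsCoprime (125 : ℤ) B := by
          have : (125 : ℤ) = 5 ^ 3 := by norm_num
          rw [this]; exact hc.pow_left
        exact hc'.dvd_of_dvd_mul_right ⟨ρ ^ 4, hAB⟩
      obtain ⟨A', rfl⟩ := h125
      have hAB2 : A' * B = ρ ^ 4 := by linarith
      have hcoAB2 : IsCoprime A' B := hcoAB.of_mul_left_right
      obtain ⟨v, hv⟩ := exists_pow4 hcoAB2 hAB2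
      obtain ⟨u, hu⟩ := exists_pow4 hcoAB2.symm (by rw [mul_comm]; exact hAB2)
      have hρ4 : 0 < ρ ^ 4 := by positivity
      have hv4 : 0 ≤ v ^ 4 := by positivity
      have hu4 : 0 ≤ u ^ 4 := by positivity
      rcases hv with rfl | rfl <;> rcases hu with rfl | rfl
      · -- main case
        have huv : (u * v) ^ 2 = ρ ^ 2 := by
          have h1 : ((u * v) ^ 2) ^ 2 = (ρ ^ 2) ^ 2 := by linear_combination hAB2
          exact (sq_eq_sq₀ (by positivity) (by positivity)).1 h1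
        have hv0 : v ≠ 0 := by
          rintro rfl
          norm_num at hAB2
          exact hρ0 (by simpa using hAB2.symm)
        have hu0 : u ≠ 0 := by
          rintro rfl
          norm_num at hAB2
          exact hρ0 (by simpa using hAB2.symm)
        have hs0 : s ≠ 0 := by rintro rfl; simp at hs_odd
        apply ih u v s ?_ ?_ hv0
        · rw [hY] at hAB'
          linear_combination hAB' + 22 * huv
        · -- |v| < |e|
          have h1 : e ^ 2 = 4 * (u * v) ^ 2 * s ^ 2 := by rw [huv, ← hmke]; ring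
          have h2 : v.natAbs < e.natAbs := by
            rw [Int.natAbs_lt_iff_sq_lt, h1]
            have hu1 : 1 ≤ u ^ 2 := by
              have : 0 < u ^ 2 := by positivity
              omega
            have hs1 : 1 ≤ s ^ 2 := by
              have : 0 < s ^ 2 := by positivity
              omega
            have hv1 : 0 < v ^ 2 := by positivity
            have : v ^ 2 * 1 ≤ v ^ 2 * (u ^ 2 * s ^ 2) := by
              apply mul_le_mul_of_nonneg_left _ hv1.le
              nlinarith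
            nlinarith
          omega
        · exact ((IsCoprime.pow_left_iff (by norm_num)).1 ((IsCoprime.pow_right_iff (by norm_num)).1
            hcoAB2)).symm
      · nlinarith [mul_nonneg hv4 hu4]
      · nlinarith [mul_nonneg hv4 hu4]
      · -- both negative
        have huv : (u * v) ^ 2 = ρ ^ 2 := by
          have h1 : ((u * v) ^ 2) ^ 2 = (ρ ^ 2) ^ 2 := by linear_combination hAB2
          exact (sq_eq_sq₀ (by positivity) (by positivity)).1 h1
        have h1 : s ^ 2 = -(u ^ 2 - 11 * v ^ 2) ^ 2 - 4 * v ^ 4 := by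
          rw [hY] at hAB'
          linear_combination -hAB' - 22 * huv
        have hv0 : v ≠ 0 := by
          rintro rfl
          norm_num at hAB2
          exact hρ0 (by simpa using hAB2.symm)
        have : 0 < v ^ 4 := by positivity
        nlinarith [sq_nonneg s, sq_nonneg (u ^ 2 - 11 * v ^ 2)]
    have h5p : Prime (5 : ℤ) := by norm_num
    rcases h5p.dvd_or_dvd (show (5 : ℤ) ∣ A * B from ⟨25 * ρ ^ 4, by rw [hAB]; ring⟩) with h5 | h5
    · exact key A B hAB hAB' hcoAB h5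
    · exact key B A (by rw [mul_comm]; exact hAB) (by rw [add_comm]; exact hAB') hcoAB.symm h5

/-- No rational points on `x⁴ + 22 x² + 125 = y²`. -/
theorem no_rat_quartic (x y : ℚ) (h : x ^ 4 + 22 * x ^ 2 + 125 = y ^ 2) : False := by
  have hd : (x.den : ℚ) ≠ 0 := by exact_mod_cast x.den_ne_zero
  have hx : x = x.num / x.den := (Rat.num_div_den x).symm
  have h1 : ((x.num ^ 4 + 22 * x.num ^ 2 * (x.den : ℤ) ^ 2 + 125 * (x.den : ℤ) ^ 4 : ℤ) : ℚ) =
      (y * x.den ^ 2) ^ 2 := by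
    push_cast
    rw [mul_pow, ← h]
    have hx' : (x.num : ℚ) = x * x.den := by rw [eq_comm]; exact Rat.mul_den_eq_num x
    rw [hx']
    ring
  have h2 : ∃ z : ℤ, (z : ℚ) = y * x.den ^ 2 := by
    have hint : IsIntegral ℤ (y * (x.den : ℚ) ^ 2) := by
      apply IsIntegral.of_pow (n := 2) (by norm_num)
      rw [← h1]
      exact isIntegral_algebraMap (R := ℤ) (A := ℚ)
    obtain ⟨z, hz⟩ := IsIntegrallyClosed.isIntegral_iff.1 hint
    exact ⟨z, hz⟩
  obtain ⟨z, hz⟩ := h2
  rw [← hz] at h1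
  refine no_point_aux _ x.num x.den z le_rfl ?_ (by exact_mod_cast x.den_ne_zero)
    (by exact_mod_cast h1)
  rw [Int.isCoprime_iff_gcd_eq_one]
  exact x.reduced

/-- The elliptic curve `y² = t (t² + 22 t + 125)` of conductor `20`: the only rational points are
`∞` and `(0, 0)`. -/
theorem no_rat_point (t Y : ℚ) (ht : t ≠ 0) (h : t * (t ^ 2 + 22 * t + 125) = Y ^ 2) : False := by
  -- `t` is neither a square nor five times a square
  have hsq : ∀ x : ℚ, t ≠ x ^ 2 := by
    rintro x rfl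
    have hx : x ≠ 0 := by rintro rfl; simp at ht
    apply no_rat_quartic x (Y / x)
    rw [div_pow, ← h]
    field_simp
  have h5sq : ∀ x : ℚ, t ≠ 5 * x ^ 2 := by
    rintro x rfl
    have hx : x ≠ 0 := by rintro rfl; simp at ht
    apply no_rat_quartic (5 / x) (Y / x ^ 3)
    rw [div_pow Y, ← h]
    field_simp
    ring
  have htpos : 0 < t := by
    by_contra hneg
    have hneg : t < 0 := lt_of_le_of_ne (not_lt.1 hneg) ht
    nlinarith [sq_nonneg (t + 11), sq_nonneg Y]
  -- integers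
  set a : ℤ := t.num with ha
  set d : ℤ := (t.den : ℤ) with hd
  have hdpos : 0 < d := by rw [hd]; exact_mod_cast t.den_pos
  have hapos : 0 < a := Rat.num_pos.2 htpos
  have hdQ : (d : ℚ) ≠ 0 := by exact_mod_cast hdpos.ne'
  have htad : t = a / d := by rw [ha, hd]; exact_mod_cast (Rat.num_div_den t).symm
  have hcoad : IsCoprime a d := by
    rw [Int.isCoprime_iff_gcd_eq_one]; exact t.reduced
  have h1 : ((d * (a * (a ^ 2 + 22 * a * d + 125 * d ^ 2)) : ℤ) : ℚ) = (Y * d ^ 2) ^ 2 := by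
    push_cast
    rw [mul_pow, ← h, htad]
    field_simp
  obtain ⟨z, hz⟩ : ∃ z : ℤ, (z : ℚ) = Y * d ^ 2 := by
    have hint : IsIntegral ℤ (Y * (d : ℚ) ^ 2) := by
      apply IsIntegral.of_pow (n := 2) (by norm_num)
      rw [← h1]
      exact isIntegral_algebraMap (R := ℤ) (A := ℚ)
    obtain ⟨z, hz⟩ := IsIntegrallyClosed.isIntegral_iff.1 hint
    exact ⟨z, hz⟩
  rw [← hz] at h1
  have h2 : d * (a * (a ^ 2 + 22 * a * d + 125 * d ^ 2)) = z ^ 2 := by exact_mod_cast h1
  have hco2 : IsCoprime d (a * (a ^ 2 + 22 * a * d + 125 * d ^ 2)) := by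
    refine IsCoprime.mul_right hcoad.symm ?_
    have h3 : IsCoprime d (a ^ 2) := hcoad.symm.pow_right
    have h4 := h3.add_mul_left_right (22 * a + 125 * d)
    have h5 : a ^ 2 + d * (22 * a + 125 * d) = a ^ 2 + 22 * a * d + 125 * d ^ 2 := by ring
    rwa [h5] at h4
  obtain ⟨e, he⟩ := Int.sq_of_gcd_eq_one (Int.isCoprime_iff_gcd_eq_one.1 hco2) h2
  have he : d = e ^ 2 := by
    rcases he with he | he
    · exact he
    · exfalso; nlinarith [sq_nonneg e]
  have he0 : e ≠ 0 := by rintro rfl; simp [he] at hdpos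
  have heQ : (e : ℚ) ≠ 0 := by exact_mod_cast he0
  set K : ℤ := a ^ 2 + 22 * a * d + 125 * d ^ 2 with hK
  have hKpos : 0 < K := by positivity
  obtain ⟨z', rfl⟩ : e ∣ z := by
    have : e ^ 2 ∣ z ^ 2 := ⟨a * K, by rw [← h2, he]⟩
    exact (Int.pow_dvd_pow_iff (by norm_num)).1 this
  have h3 : a * K = z' ^ 2 := by
    have : e ^ 2 * (a * K) = e ^ 2 * z' ^ 2 := by rw [← he, h2, he]; ring
    exact mul_left_cancel₀ (by positivity) this
  -- gcd
  set g : ℤ := (Int.gcd a K : ℤ) with hg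
  have hg0 : 0 < g := by
    rw [hg]; exact_mod_cast Int.gcd_pos_of_ne_zero_left _ hapos.ne'
  obtain ⟨a1, ha1⟩ : g ∣ a := Int.gcd_dvd_left ..
  obtain ⟨K1, hK1⟩ : g ∣ K := Int.gcd_dvd_right ..
  have hco1 : IsCoprime a1 K1 := by
    rw [Int.isCoprime_iff_gcd_eq_one]
    have : Int.gcd (g * a1) (g * K1) = g.natAbs * Int.gcd a1 K1 := Int.gcd_mul_left ..
    rw [← ha1, ← hK1] at this
    have hgn : g.natAbs = Int.gcd a K := by rw [hg]; exact Int.natAbs_natCast _
    rw [hgn] at this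
    have hpos : 0 < Int.gcd a K := Int.gcd_pos_of_ne_zero_left _ hapos.ne'
    exact Nat.eq_of_mul_eq_mul_left hpos (by omega)
  obtain ⟨z1, rfl⟩ : g ∣ z' := by
    have : g ^ 2 ∣ z' ^ 2 := ⟨a1 * K1, by rw [← h3, hK1, ha1]; ring⟩
    exact (Int.pow_dvd_pow_iff (by norm_num)).1 this
  have h4 : a1 * K1 = z1 ^ 2 := by
    have : g ^ 2 * (a1 * K1) = g ^ 2 * z1 ^ 2 := by
      have : (g * a1) * (g * K1) = (g * z1) ^ 2 := by rw [← ha1, ← hK1]; exact h3
      linear_combination this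
    exact mul_left_cancel₀ (by positivity) this
  have ha1pos : 0 < a1 := by
    by_contra hneg
    nlinarith
  obtain ⟨x, hx⟩ := Int.sq_of_gcd_eq_one (Int.isCoprime_iff_gcd_eq_one.1 hco1) h4
  have hx : a1 = x ^ 2 := by
    rcases hx with hx | hx
    · exact hx
    · exfalso; nlinarith [sq_nonneg x]
  -- g divides 125
  have hg125 : g ∣ 125 := by
    have h5 : g ∣ 125 * d ^ 2 := by
      have : 125 * d ^ 2 = K - a * (a + 22 * d) := by rw [hK]; ring
      rw [this]
      exact dvd_sub ⟨K1, hK1⟩ (dvd_mul_of_dvd_left ⟨a1, ha1⟩ _)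
    have h6 : IsCoprime g (d ^ 2) :=
      (hcoad.of_isCoprime_of_dvd_left ⟨a1, ha1⟩).pow_right
    exact h6.dvd_of_dvd_mul_right h5
  have hgcases : g = 1 ∨ g = 5 ∨ g = 25 ∨ g = 125 := by
    have hgn : g.toNat ∣ 5 ^ 3 := by
      have : (g.toNat : ℤ) ∣ ((5 ^ 3 : ℕ) : ℤ) := by
        rw [Int.toNat_of_nonneg hg0.le]; exact_mod_cast hg125
      exact_mod_cast this
    obtain ⟨i, hi, hi'⟩ := (Nat.dvd_prime_pow (by norm_num)).1 hgn
    have hgi : g = (5 : ℤ) ^ i := by
      have : (g.toNat : ℤ) = ((5 ^ i : ℕ) : ℤ) := by rw [hi']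
      rw [Int.toNat_of_nonneg hg0.le] at this
      exact_mod_cast this
    interval_cases i <;> simp [hgi]
  have htx : t = g * (x / e) ^ 2 := by
    rw [htad, he, ha1, hx]
    push_cast
    field_simp
  rcases hgcases with hg' | hg' | hg' | hg' <;> rw [hg'] at htx
  · exact hsq (x / e) (by rw [htx]; push_cast; ring)
  · exact h5sq (x / e) (by rw [htx]; push_cast; ring)
  · exact hsq (5 * (x / e)) (by rw [htx]; push_cast; ring)
  · exact h5sq (5 * (x / e)) (by rw [htx]; push_cast; ring)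

end Fermat.Agent.Wire
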